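/-
S27, block C, seat C3 (helper63), part 1: a separable function has only finitely many branch values
(any characteristic): outside a finite set of `c : K` the fibre of `x` over `c` has exactly
`[F : K(x)]` places.  Proof: the Riemann-Hurwitz lower bound of `Lib/RR/Hurwitz` bounds the
number of branch values in every finite set by `2 g - 2 + 2 n`.
-/
import Mathlib
import Fermat.Agent.Lib.RR.Hurwitz.Fibres

set_option autoImplicit false
set_option linter.style.haveILetI false

noncomputable section

open AlgebraicCurve Fermat.Agent.RR Fermat.Agent.RRHur IntermediateField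

namespace Fermat.Agent.S27

variable {K F : Type*} [Field K] [Field F] [Algebra K F]

/-- every fibre has at most `n = [F : K(x)]` places. -/
theorem c3_card_fibre_le (hF : IsRRField K F) {x : F} (hx : Transcendental K x)
    [FiniteDimensional K⟮x⟯ F] (c : K) :
    (Nat.card {v : Place K F // 0 < v.ord (x - algebraMap K F c)} : ℤ) ≤
      Module.finrank K⟮x⟯ F := by
  have h1 := degree_ramAt hF hx c
  have h2 : (0 : Divisor K F) ≤ ramAt hF x c := by
    rw [Finsupp.le_def]
    intro w
    rw [ramAt_apply]
    exact le_max_right _ _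
  have h3 := degree_nonneg_of_nonneg hF h2
  omega

/-- the pole fibre has at most `n = [F : K(x)]` places. -/
theorem c3_card_poleFibre_le (hF : IsRRField K F) {x : F} (hx : Transcendental K x)
    [FiniteDimensional K⟮x⟯ F] :
    (Nat.card {v : Place K F // v.ord x < 0} : ℤ) ≤ Module.finrank K⟮x⟯ F := by
  have h1 := degree_ramInf hF hx
  have h2 : (0 : Divisor K F) ≤ ramInf hF x := by
    rw [Finsupp.le_def]
    intro w
    rw [ramInf_apply]
    exact le_max_right _ _
  have h3 := degree_nonneg_of_nonneg hF h2
  omega

/-- **finitely many branch values**. -/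
theorem finite_branchValues [IsAlgClosed K] (hF : IsRRField K F) {x : F}
    (hx : Transcendental K x) [FiniteDimensional K⟮x⟯ F] [Algebra.IsSeparable K⟮x⟯ F] :
    {c : K | Nat.card {v : Place K F // 0 < v.ord (x - algebraMap K F c)} ≠
      Module.finrank K⟮x⟯ F}.Finite := by
  classical
  by_contra hinf
  rw [Set.not_finite] at hinf
  set n := Module.finrank K⟮x⟯ F with hn
  set M : ℕ := 2 * genusFF K F + 2 * n with hM
  obtain ⟨S, hS, hcard⟩ := hinf.exists_subset_card_eq M
  have hlow := hurwitz_lower_fibres hF hx S
  have hinf' := c3_card_poleFibre_le hF hx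
  rw [← hn] at hlow hinf'
  have h1 : ∀ c ∈ S, (1 : ℤ) ≤ (n : ℤ) -
      (Nat.card {v : Place K F // 0 < v.ord (x - algebraMap K F c)} : ℤ) := by
    intro c hc
    have hle := c3_card_fibre_le hF hx c
    have hne : Nat.card {v : Place K F // 0 < v.ord (x - algebraMap K F c)} ≠ n := hS hc
    have hne' : (Nat.card {v : Place K F // 0 < v.ord (x - algebraMap K F c)} : ℤ) ≠ (n : ℤ) := by
      exact_mod_cast hne
    omega
  have h2 : (S.card : ℤ) ≤ ∑ c ∈ S, ((n : ℤ) -
      (Nat.card {v : Place K F // 0 < v.ord (x - algebraMap K F c)} : ℤ)) := by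
    have := Finset.sum_le_sum h1
    simpa using this
  rw [hcard] at h2
  have h3 : (M : ℤ) = 2 * (genusFF K F : ℤ) + 2 * (n : ℤ) := by
    rw [hM]; push_cast; ring
  omega

/-- **generic fibres**: there is a finite set outside which all fibres have `n` places. -/
theorem exists_finset_unramified [IsAlgClosed K] (hF : IsRRField K F) {x : F}
    (hx : Transcendental K x) [FiniteDimensional K⟮x⟯ F] [Algebra.IsSeparable K⟮x⟯ F] :
    ∃ S : Finset K, ∀ c : K, c ∉ S →
      Nat.card {v : Place K F // 0 < v.ord (x - algebraMap K F c)} = Module.finrank K⟮x⟯ F := by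
  classical
  refine ⟨(finite_branchValues hF hx).toFinset, fun c hc => ?_⟩
  by_contra hne
  exact hc ((Set.Finite.mem_toFinset _).mpr hne)

/-- the set of ramification points (over the affine line) of a separable function is finite. -/
theorem finite_ramified [IsAlgClosed K] (hF : IsRRField K F) {x : F}
    (hx : Transcendental K x) [FiniteDimensional K⟮x⟯ F] [Algebra.IsSeparable K⟮x⟯ F] :
    {v : Place K F | ∃ c : K, 2 ≤ v.ord (x - algebraMap K F c)}.Finite := by
  classical
  obtain ⟨S, hS⟩ := exists_finset_unramified hF hx
  have hfin : (⋃ c ∈ S, {v : Place K F | 0 < v.ord (x - algebraMap K F c)}).Finite :=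
    Set.Finite.biUnion S.finite_toSet fun c _ => finite_zeros hF (x - algebraMap K F c)
  refine hfin.subset ?_
  rintro v ⟨c, hc⟩
  by_cases hcS : c ∈ S
  · exact Set.mem_biUnion hcS (show 0 < v.ord (x - algebraMap K F c) by omega)
  · have := ord_eq_one_of_card_eq hF hx c (hS c hcS) v (by omega)
    omega

end Fermat.Agent.S27
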