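/-
S27, block C, seat C3 (helper63): BRANCH DATA for an arbitrary reduction model.

* `exists_branchSet` : for `x` transcendental with `F / K(x)` finite separable there is a finite
  set `S ⊆ K` outside which every fibre of `x` has `[F : K(x)]` points (`S27GR.fibreCard`);
* `branchUnits S` : the finite set of elements of `K` that must be units of the valuation ring
  (the nonzero elements of `S` and the nonzero differences of elements of `S`);
* `branchDataOf` : the `S27GR.BranchData` of a reduction model `M` with base parameter `x` whose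
  valuation ring contains `branchUnits S` and their inverses;
* `branchDataOf_inv_mem` : the extra hypothesis `hS` of `S27GR.genusFF_eq_of_branchData`.
-/
import Mathlib
import Fermat.Agent.S27.Red.BranchFin
import Fermat.Agent.S27.GR.Places

set_option autoImplicit false
set_option linter.style.haveILetI false

noncomputable section

open AlgebraicCurve Fermat.Agent.RR IntermediateField

namespace Fermat.Agent.S27

variable {K F : Type*} [Field K] [Field F] [Algebra K F]

/-- **generic fibres** in terms of `S27GR.fibreCard`. -/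
theorem exists_branchSet [IsAlgClosed K] (hF : IsRRField K F) {x : F}
    (hx : Transcendental K x) [FiniteDimensional K⟮x⟯ F] [Algebra.IsSeparable K⟮x⟯ F] :
    ∃ S : Finset K, ∀ c : K, c ∉ S →
      Fermat.Agent.S27GR.fibreCard K x c = Module.finrank K⟮x⟯ F := by
  obtain ⟨S, hS⟩ := exists_finset_unramified hF hx
  refine ⟨S, fun c hc => ?_⟩
  rw [Fermat.Agent.S27GR.fibreCard_eq_card_zeros hx c]
  exact hS c hc

open Classical in
/-- the elements that must be units: nonzero branch values and nonzero differences. -/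
def branchUnits (S : Finset K) : Finset K :=
  (S ∪ (S ×ˢ S).image (fun p => p.1 - p.2)).erase 0

theorem mem_branchUnits_of_mem {S : Finset K} {c : K} (hc : c ∈ S) (hc0 : c ≠ 0) :
    c ∈ branchUnits S := by
  classical
  rw [branchUnits, Finset.mem_erase]
  exact ⟨hc0, Finset.mem_union_left _ hc⟩

theorem sub_mem_branchUnits {S : Finset K} {c c' : K} (hc : c ∈ S) (hc' : c' ∈ S)
    (hne : c ≠ c') : c - c' ∈ branchUnits S := by
  classical
  rw [branchUnits, Finset.mem_erase]
  refine ⟨sub_ne_zero.mpr hne, Finset.mem_union_right _ ?_⟩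
  rw [Finset.mem_image]
  exact ⟨(c, c'), Finset.mem_product.mpr ⟨hc, hc'⟩, rfl⟩

theorem ne_zero_of_mem_branchUnits {S : Finset K} {t : K} (ht : t ∈ branchUnits S) : t ≠ 0 := by
  classical
  rw [branchUnits, Finset.mem_erase] at ht
  exact ht.1

variable {k Fk : Type*} [Field k] [Field Fk] [Algebra k Fk]

/-- an element of `A` whose inverse is in `A` has nonzero residue. -/
theorem c3_res_ne_zero_of_inv_mem (M : Fermat.Agent.S27GR.RedModel K k F Fk) {t : K}
    (ht : t ∈ M.A) (hti : t⁻¹ ∈ M.A) (ht0 : t ≠ 0) : M.res ⟨t, ht⟩ ≠ 0 := by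
  intro h0
  rw [M.res_eq_zero] at h0
  apply h0
  refine isUnit_iff_exists_inv.mpr ⟨⟨t⁻¹, hti⟩, ?_⟩
  apply Subtype.ext
  show t * t⁻¹ = 1
  exact mul_inv_cancel₀ ht0

/-- **branch data** of a reduction model from a branch set whose units are units of `A`. -/
def branchDataOf (M : Fermat.Agent.S27GR.RedModel K k F Fk) (n : ℕ) (S : Finset K)
    (hunr : ∀ c : K, c ∉ S → Fermat.Agent.S27GR.fibreCard K M.x c = n)
    (hT : ∀ t ∈ branchUnits S, t ∈ M.A ∧ t⁻¹ ∈ M.A) :
    Fermat.Agent.S27GR.BranchData M n where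
  S := S
  S_mem := by
    intro c hc
    rcases eq_or_ne c 0 with rfl | hc0
    · exact M.A.zero_mem
    · exact (hT c (mem_branchUnits_of_mem hc hc0)).1
  S_inj := by
    intro c hc c' hc' hcA hc'A hres
    by_contra hne
    have ht := hT (c - c') (sub_mem_branchUnits hc hc' hne)
    have h1 := c3_res_ne_zero_of_inv_mem M ht.1 ht.2 (sub_ne_zero.mpr hne)
    apply h1
    have h2 : (⟨c - c', ht.1⟩ : M.A) = ⟨c, hcA⟩ - ⟨c', hc'A⟩ := rfl
    rw [h2, map_sub, hres, sub_self]
  unram := hunr

@[simp] theorem branchDataOf_S (M : Fermat.Agent.S27GR.RedModel K k F Fk) (n : ℕ) (S : Finset K)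
    (hunr : ∀ c : K, c ∉ S → Fermat.Agent.S27GR.fibreCard K M.x c = n)
    (hT : ∀ t ∈ branchUnits S, t ∈ M.A ∧ t⁻¹ ∈ M.A) :
    (branchDataOf M n S hunr hT).S = S := rfl

/-- the hypothesis `hS` of `S27GR.genusFF_eq_of_branchData`. -/
theorem branchDataOf_inv_mem (M : Fermat.Agent.S27GR.RedModel K k F Fk) (n : ℕ) (S : Finset K)
    (hunr : ∀ c : K, c ∉ S → Fermat.Agent.S27GR.fibreCard K M.x c = n)
    (hT : ∀ t ∈ branchUnits S, t ∈ M.A ∧ t⁻¹ ∈ M.A) :
    ∀ c ∈ (branchDataOf M n S hunr hT).S, c ≠ 0 → c⁻¹ ∈ M.A := by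
  intro c hc hc0
  exact (hT c (mem_branchUnits_of_mem hc hc0)).2

/-- **C3, packaged**: branch set of `M.x` together with the branch data of every reduction
model in which the branch units are units. -/
theorem exists_branchData [IsAlgClosed K] (hF : IsRRField K F) {x : F}
    (hx : Transcendental K x) [FiniteDimensional K⟮x⟯ F] [Algebra.IsSeparable K⟮x⟯ F] :
    ∃ T : Finset K, (∀ t ∈ T, t ≠ 0) ∧
      ∀ (M : Fermat.Agent.S27GR.RedModel K k F Fk), M.x = x →
        (∀ t ∈ T, t ∈ M.A ∧ t⁻¹ ∈ M.A) →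
        ∃ BD : Fermat.Agent.S27GR.BranchData M (Module.finrank K⟮x⟯ F),
          ∀ c ∈ BD.S, c ≠ 0 → c⁻¹ ∈ M.A := by
  obtain ⟨S, hS⟩ := exists_branchSet hF hx
  refine ⟨branchUnits S, fun t ht => ne_zero_of_mem_branchUnits ht, fun M hMx hT => ?_⟩
  have hunr : ∀ c : K, c ∉ S →
      Fermat.Agent.S27GR.fibreCard K M.x c = Module.finrank K⟮x⟯ F := by
    rw [hMx]
    exact hS
  exact ⟨branchDataOf M _ S hunr hT, branchDataOf_inv_mem M _ S hunr hT⟩

end Fermat.Agent.S27
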