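import Mathlib
import Fermat.Agent.Lib.GaussVal.Props

set_option autoImplicit false

/-!
# S27, block C (good reduction of a general curve): definitions  (sub-architect helper75)

`F / K` a function field, `K` algebraically closed of characteristic `0`.

* `PlaneModel K F` : a plane model `f(x, y) = 0` of `F` with one place at infinity (block A):
  `f = Y^N + a_{N-1}(X) Y^{N-1} + ⋯ + a_0(X)`, `deg a_b ≤ N - b` for `0 < b < N`,
  `a_0 = -c X^{N+1} + (lower)`, `c ≠ 0` (weights: `wt X = N`, `wt Y = N + 1`, the terms of top
  weight `N (N + 1)` are `Y^N` and `-c X^{N+1}`).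
  CONVENTION (that of `Fermat.Agent.S28.pev2`): `f : K[X][X]`, the INNER variable is `X ↦ x`,
  the OUTER variable is `Y ↦ y`; `f.coeff b` is the coefficient of `Y^b`.
* `paramX N w = t^(-N) w`, `paramY N w = t^(-N-1) w` : the parametrisation at infinity, `w` a power
  series with constant coefficient `c⁻¹` (leaf C-PAR: it exists over every ring in which `c` is a
  unit; `t = x / y`).
* `PlaneModel.IntegralAt M A` : the valuation ring `A` of `K` is good for the model (coefficients
  of `f` in `A`, `c` and `N!` units of `A`).

ROUTE of block C.  `xR = paramX N w`, `yR = paramY N w` over `A` (C-PAR); their images over `K`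
give an embedding `ψ : F → K((t))` (C-EMB); their reductions over `k` satisfy
`IndepUpTo x̄ ȳ N` by pole orders (C-IND).  Then `Lib/GaussVal` (`Ov`, `rho`, normal forms: all
`Type*`) gives the Gauss valuation ring of `F` with residue field `Fk = k(x̄, ȳ) ⊆ k((t))`
(C-GAUSS: `S27GR.RedModel` + `DegData`).
-/

noncomputable section

namespace Fermat.Agent.S27

open Polynomial

/-- evaluation `K[X][Y] → F`, `X ↦ x`, `Y ↦ y` -/
def pmEv {K F : Type*} [Field K] [Field F] [Algebra K F] (x y : F) : K[X][X] →+* F :=
  Polynomial.eval₂RingHom ((Polynomial.aeval x : K[X] →ₐ[K] F).toRingHom) y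

/-- A plane model of the function field `F / K` with one place at infinity (block A). -/
structure PlaneModel (K F : Type*) [Field K] [Field F] [Algebra K F] where
  /-- the degree `[F : K(x)]` -/
  N : ℕ
  hN : 0 < N
  /-- the two generators -/
  x : F
  y : F
  /-- the equation: a polynomial in `Y` (outer) with coefficients in `K[X]` (inner) -/
  f : K[X][X]
  /-- minus the coefficient of `X^(N+1)` -/
  c : K
  hc : c ≠ 0
  monic : f.Monic
  natDegree_f : f.natDegree = N
  deg_mid : ∀ b : ℕ, 0 < b → b < N → (f.coeff b).natDegree ≤ N - b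
  deg_zero : (f.coeff 0).natDegree ≤ N + 1
  top : (f.coeff 0).coeff (N + 1) = -c
  root : pmEv x y f = 0
  x_trans : Transcendental K x
  deg : Module.finrank (IntermediateField.adjoin K {x}) F = N
  gen : IntermediateField.adjoin K {x, y} = ⊤

/-- the Laurent series `t^(-N) * w` -/
def paramX {R : Type*} [CommRing R] (N : ℕ) (w : PowerSeries R) : LaurentSeries R :=
  HahnSeries.single (-(N : ℤ)) (1 : R) * HahnSeries.ofPowerSeries ℤ R w

/-- the Laurent series `t^(-N-1) * w` -/
def paramY {R : Type*} [CommRing R] (N : ℕ) (w : PowerSeries R) : LaurentSeries R :=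
  HahnSeries.single (-(N : ℤ) - 1) (1 : R) * HahnSeries.ofPowerSeries ℤ R w

/-- The valuation ring `A` is good for the plane model `M`. -/
structure PlaneModel.IntegralAt {K F : Type*} [Field K] [Field F] [Algebra K F]
    (M : PlaneModel K F) (A : ValuationSubring K) : Prop where
  coeff_mem : ∀ b a : ℕ, (M.f.coeff b).coeff a ∈ A
  c_inv_mem : M.c⁻¹ ∈ A
  /-- `N! ≠ 0` in `K` (automatic in characteristic `0`) -/
  fact_ne_zero : ((M.N.factorial : ℕ) : K) ≠ 0
  fact_inv_mem : (((M.N.factorial : ℕ) : K))⁻¹ ∈ A

end Fermat.Agent.S27
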