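import Mathlib
import Fermat.Agent.S27.Red.Defs
import Fermat.Agent.S27.GR.GenusEq

set_option autoImplicit false

/-!
# S27, block C, seat C-GAUSS: the reduction model of a plane model (STATEMENT)

The interface used by the assembly `C-TOP` (and by block E): for a plane model `M` of `F / K` and
a valuation ring `A` of `K` which is good for `M` (`M.IntegralAt A`), there is a field `Fk` over
the residue field `k` of `A` and a reduction model `R : S27GR.RedModel K k F Fk` with `R.A = A`,
`R.x = M.x`, `M.y ∈ R.O`, and degree data `[F : K(x)] = N = [Fk : k(x̄)]`, `Fk / k(x̄)` separable.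
No hypothesis on the characteristic of `K` or of `k`.
The proof (with the explicit construction: `Fk = k(x̄, ȳ) ⊆ k((t))`) is in `Red/Gauss.lean`.
-/

noncomputable section

namespace Fermat.Agent.S27

universe u v

/-- **C-GAUSS** (statement). -/
def RedModelStatement : Prop :=
  ∀ (K : Type u) (F : Type v) [Field K] [Field F] [Algebra K F] (M : PlaneModel K F)
    (A : ValuationSubring K), M.IntegralAt A →
    ∃ (Fk : Type u) (_ : Field Fk) (_ : Algebra (IsLocalRing.ResidueField A) Fk)
      (R : Fermat.Agent.S27GR.RedModel K (IsLocalRing.ResidueField A) F Fk),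
      R.A = A ∧ R.x = M.x ∧ M.y ∈ R.O ∧ Fermat.Agent.S27GR.DegData R M.N

end Fermat.Agent.S27
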