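/-
S27, block C, seat C-SP (helper5): the SPECIALISATION bound in `RedModel` form.

`card_torsion_le_of_redModel` : for a reduction model `M : S27GR.RedModel K k F Fk` (any valued
field `(K, A)`, `k` algebraically closed) with degree data `DegData M n` and `g(F) = g(Fk)`, and
`m` a unit of `A`:   `#Pic⁰(F)[m] ≤ #Pic⁰(Fk)[m]`.

No lattice hypothesis (`RedModel.hasLattice`, helper20), nothing on the characteristic of `K`.
Core: `Red/SPCore.lean` (`card_torsion_le_of_valSetup`).
-/
import Mathlib
import Fermat.Agent.S27.Red.SPCore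
import Fermat.Agent.S27.GR.Lattice
import Fermat.Agent.S27.GR.LiftBasis
import Fermat.Agent.Lib.RR.Hurwitz.Count

set_option autoImplicit false
set_option linter.style.haveILetI false

noncomputable section

open AlgebraicCurve Fermat.Agent.RR Fermat.Agent.Deuring Fermat.Agent.FF IntermediateField

namespace Fermat.Agent.S27

variable {K F k Fk : Type*} [Field K] [Field F] [Algebra K F]
  [Field k] [Field Fk] [Algebra k Fk]

/-- the reduction of the base parameter of a reduction model is `x̄`. -/
theorem sp_red_x (M : S27GR.RedModel K k F Fk) (hK : IsRRField K F) (hk : IsRRField k Fk) :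
    (M.toValSetup hK hk).red M.x = M.xbar :=
  (M.toValSetup hK hk).red_of_mem (f := M.x) M.x_mem

/-- **C-SP**: specialisation bound for a reduction model with degree data and genus equality. -/
theorem card_torsion_le_of_redModel [IsAlgClosed k] (M : S27GR.RedModel K k F Fk) (n : ℕ)
    (hdeg : S27GR.DegData M n) (hK : IsRRField K F) (hk : IsRRField k Fk)
    (hg : genusFF K F = genusFF k Fk)
    (m : ℕ) (hm0 : (m : K) ≠ 0) (hmA : ((m : K))⁻¹ ∈ M.A)
    [Finite (Pic0.torsion k Fk m)] :
    Nat.card (Pic0.torsion K F m) ≤ Nat.card (Pic0.torsion k Fk m) := by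
  have hred := sp_red_x M hK hk
  have hxK : Transcendental K M.x := M.lb_x_transcendental
  have hxk : Transcendental k M.xbar := M.x_trans
  haveI : FiniteDimensional k⟮M.xbar⟯ Fk :=
    Module.finite_of_finrank_pos (by rw [hdeg.degk]; exact hdeg.pos)
  haveI : FiniteDimensional K⟮M.x⟯ F :=
    Module.finite_of_finrank_pos (by rw [hdeg.deg]; exact hdeg.pos)
  haveI : Algebra.IsSeparable k⟮M.xbar⟯ Fk := hdeg.sepk
  have h1 : Divisor.degree (poleDiv hK M.x) = (n : ℤ) := by
    rw [Fermat.Agent.RRHur.degree_poleDiv_eq_finrank hK hxK, hdeg.deg]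
  have h2 : Divisor.degree (poleDiv hk M.xbar) = (n : ℤ) := by
    rw [Fermat.Agent.RRHur.degree_poleDiv_eq_finrank hk hxk, hdeg.degk]
  have key : ∀ (y : Fk), (M.toValSetup hK hk).red M.x = y → Transcendental k y →
      ∀ [FiniteDimensional k⟮y⟯ Fk] [Algebra.IsSeparable k⟮y⟯ Fk],
      Divisor.degree (poleDiv hK M.x) ≤ Divisor.degree (poleDiv hk y) →
      Nat.card (Pic0.torsion K F m) ≤ Nat.card (Pic0.torsion k Fk m) := by
    intro y hy htr _ _ hle
    subst hy
    exact card_torsion_le_of_valSetup (M.toValSetup hK hk) (M.hasLattice n hdeg hK hk) hg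
      M.x M.x_mem htr hle m hm0 hmA
  exact key M.xbar hred hxk (by rw [h1, h2])

end Fermat.Agent.S27
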