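/-
S27, block C, seat C-TOP (helper63): the UPPER BOUND `TorsionUpper` from the reduction model.

`torsionUpper : RedModelStatement → (block A: plane models exist) → TorsionUpper`.

Glue of
* block A (hypothesis `hA`): a plane model `M` of `F / K`;
* C3 (`Red/Branch.lean`): the branch set `S` of `M.x` and the units `branchUnits S`;
* block B (`ValChoice.lean`): a valuation ring `A` of `K`, residue field an algebraic closure of
  `𝔽_p`, `p ≠ ℓ`, in which the coefficients of `M.f`, `M.c`, `N!`, `ℓ` and `branchUnits S` are units;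
* C-GAUSS (hypothesis `hRed`, proved in `Red/GaussDeg.lean`): the reduction model `R`;
* C4 (`Lib/RR/OfSep.lean`): `IsRRField k Fk`;
* GE (`GR/Lattice.lean`): `g(F) = g(Fk)`;
* C-SP (`Red/SP.lean`): `#Pic⁰(F)[ℓ] ≤ #Pic⁰(Fk)[ℓ]`;
* block D (`Zeta/Frob.lean`, `Zeta/Main.lean`): `#Pic⁰(Fk)[ℓ] = ℓ^(2 g)`.
-/
import Mathlib
import Fermat.Agent.S27.Top
import Fermat.Agent.S27.ValChoice
import Fermat.Agent.S27.Red.GaussStmt
import Fermat.Agent.S27.Red.Branch
import Fermat.Agent.S27.Red.SP
import Fermat.Agent.S27.GR.Lattice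
import Fermat.Agent.S27.Zeta.Frob
import Fermat.Agent.S27.Zeta.Main
import Fermat.Agent.Lib.RR.OfSep

set_option autoImplicit false
set_option linter.style.haveILetI false

noncomputable section

open AlgebraicCurve Fermat.Agent.RR IntermediateField

namespace Fermat.Agent.S27

/-- In a field of characteristic `p` which is integral over `ℤ` every element is fixed by a
power of the Frobenius. -/
theorem up_exists_pow_eq (p : ℕ) (hp : p.Prime) (k : Type*) [Field k] [CharP k p]
    (hk : Algebra.IsIntegral ℤ k) (c : k) : ∃ n : ℕ, 0 < n ∧ c ^ (p ^ n) = c := by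
  haveI : Fact p.Prime := ⟨hp⟩
  letI : Algebra (ZMod p) k := ZMod.algebra k p
  have halg : Algebra.IsAlgebraic (ZMod p) k := isAlgebraic_zmod_of_isIntegral p k hk
  have hc : IsIntegral (ZMod p) c := (halg.isAlgebraic c).isIntegral
  haveI : FiniteDimensional (ZMod p) (ZMod p)⟮c⟯ := IntermediateField.adjoin.finiteDimensional hc
  haveI : Finite (ZMod p)⟮c⟯ := Module.finite_of_finite (ZMod p)
  letI : Fintype (ZMod p)⟮c⟯ := Fintype.ofFinite _
  have hcard : Fintype.card (ZMod p)⟮c⟯ = p ^ Module.finrank (ZMod p) (ZMod p)⟮c⟯ := by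
    rw [Module.card_eq_pow_finrank (K := ZMod p) (V := (ZMod p)⟮c⟯), ZMod.card]
  refine ⟨Module.finrank (ZMod p) (ZMod p)⟮c⟯, Module.finrank_pos, ?_⟩
  have h := FiniteField.pow_card (⟨c, IntermediateField.mem_adjoin_simple_self _ c⟩ : (ZMod p)⟮c⟯)
  rw [hcard] at h
  exact congrArg Subtype.val h

variable {K F : Type*} [Field K] [Field F] [Algebra K F]

open Classical in
/-- the nonzero coefficients of the equation of a plane model. -/
def PlaneModel.coeffSet (M : PlaneModel K F) : Finset K :=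
  M.f.support.biUnion fun b => (M.f.coeff b).support.image fun a => (M.f.coeff b).coeff a

theorem PlaneModel.coeff_mem_coeffSet (M : PlaneModel K F) (b a : ℕ)
    (h : (M.f.coeff b).coeff a ≠ 0) : (M.f.coeff b).coeff a ∈ M.coeffSet := by
  classical
  rw [PlaneModel.coeffSet, Finset.mem_biUnion]
  refine ⟨b, ?_, Finset.mem_image.mpr ⟨a, Polynomial.mem_support_iff.mpr h, rfl⟩⟩
  rw [Polynomial.mem_support_iff]
  intro h0
  apply h
  rw [h0, Polynomial.coeff_zero]

open Classical in
/-- the elements that must be units of the valuation ring. -/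
def PlaneModel.goodSet (M : PlaneModel K F) (S : Finset K) (ℓ : ℕ) : Finset K :=
  branchUnits S ∪ M.coeffSet ∪ {M.c, ((M.N.factorial : ℕ) : K), (ℓ : K)}

/-- a valuation ring in which the good set consists of units is good for the plane model. -/
theorem PlaneModel.integralAt_of_goodSet [CharZero K] (M : PlaneModel K F) (S : Finset K) (ℓ : ℕ)
    (A : ValuationSubring K) (hT : ∀ t ∈ M.goodSet S ℓ, t ∈ A ∧ t⁻¹ ∈ A) : M.IntegralAt A where
  coeff_mem := by
    classical
    intro b a
    by_cases h : (M.f.coeff b).coeff a = 0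
    · rw [h]
      exact A.zero_mem
    · refine (hT _ ?_).1
      rw [PlaneModel.goodSet]
      exact Finset.mem_union_left _ (Finset.mem_union_right _ (M.coeff_mem_coeffSet b a h))
  c_inv_mem := by
    classical
    refine (hT _ ?_).2
    rw [PlaneModel.goodSet]
    exact Finset.mem_union_right _ (by simp)
  fact_ne_zero := Nat.cast_ne_zero.mpr (Nat.factorial_ne_zero _)
  fact_inv_mem := by
    classical
    refine (hT _ ?_).2
    rw [PlaneModel.goodSet]
    exact Finset.mem_union_right _ (by simp)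


section Inj

variable {k Fk : Type*} [Field k] [Field Fk] [Algebra k Fk]

open Fermat.Agent.Deuring Fermat.Agent.FF

/-- the reduction map on the `m`-torsion is injective, `m` a unit of `A` (abstract form). -/
theorem up_exists_injective_of_valSetup [IsAlgClosed k] (S : ValSetup K F k Fk)
    (hL : HasLattice S) (hg : genusFF K F = genusFF k Fk)
    (x : F) (hx : x ∈ S.Ov) (hy : Transcendental k (S.red x))
    [FiniteDimensional (IntermediateField.adjoin k {S.red x}) Fk]
    [Algebra.IsSeparable (IntermediateField.adjoin k {S.red x}) Fk]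
    (hle : Divisor.degree (poleDiv S.hF x) ≤ Divisor.degree (poleDiv S.hFk (S.red x)))
    (m : ℕ) (hm0 : (m : K) ≠ 0) (hmA : ((m : K))⁻¹ ∈ S.A) :
    ∃ φ : Pic0.torsion K F m → Pic0.torsion k Fk m, Function.Injective φ := by
  haveI : Infinite k := IsAlgClosed.instInfinite
  obtain ⟨r, hr⟩ := exists_isReduction S hL hg
  refine ⟨fun z => ⟨hr.redPic0 z.1, by
      rw [Pic0.mem_torsion, ← map_zsmul, Pic0.mem_torsion.mp z.2, map_zero]⟩, ?_⟩
  intro z₁ z₂ h12
  have h0 : hr.redPic0 (z₁.1 - z₂.1) = 0 := by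
    rw [map_sub, sub_eq_zero]
    exact congrArg Subtype.val h12
  have hz : (m : ℤ) • (z₁.1 - z₂.1) = 0 := by
    rw [zsmul_sub, Pic0.mem_torsion.mp z₁.2, Pic0.mem_torsion.mp z₂.2, sub_zero]
  have := sp_eq_zero_of_torsion S hr hg x hx hy hle m hm0 hmA _ hz h0
  exact Subtype.ext (sub_eq_zero.mp this)

/-- the reduction map on the `m`-torsion is injective, `m` a unit of `A` (`RedModel` form). -/
theorem up_exists_injective_of_redModel [IsAlgClosed k] (M : S27GR.RedModel K k F Fk) (n : ℕ)
    (hdeg : S27GR.DegData M n) (hK : IsRRField K F) (hk : IsRRField k Fk)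
    (hg : genusFF K F = genusFF k Fk)
    (m : ℕ) (hm0 : (m : K) ≠ 0) (hmA : ((m : K))⁻¹ ∈ M.A) :
    ∃ φ : Pic0.torsion K F m → Pic0.torsion k Fk m, Function.Injective φ := by
  have hred := sp_red_x M hK hk
  have hxK : Transcendental K M.x := M.lb_x_transcendental
  have hxk : Transcendental k M.xbar := M.x_trans
  haveI : FiniteDimensional k⟮M.xbar⟯ Fk :=
    Module.finite_of_finrank_pos (by rw [hdeg.degk]; exact hdeg.pos)
  haveI : FiniteDimensional K⟮M.x⟯ F :=
    Module.finite_of_finrank_pos (by rw [hdeg.deg]; exact hdeg.pos)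
  haveI : Algebra.IsSeparable k⟮M.xbar⟯ Fk := hdeg.sepk
  have h1 : Divisor.degree (poleDiv hK M.x) = (n : ℤ) := by
    rw [Fermat.Agent.RRHur.degree_poleDiv_eq_finrank hK hxK, hdeg.deg]
  have h2 : Divisor.degree (poleDiv hk M.xbar) = (n : ℤ) := by
    rw [Fermat.Agent.RRHur.degree_poleDiv_eq_finrank hk hxk, hdeg.degk]
  have key : ∀ (y : Fk), (M.toValSetup hK hk).red M.x = y → Transcendental k y →
      ∀ [FiniteDimensional k⟮y⟯ Fk] [Algebra.IsSeparable k⟮y⟯ Fk],
      Divisor.degree (poleDiv hK M.x) ≤ Divisor.degree (poleDiv hk y) →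
      ∃ φ : Pic0.torsion K F m → Pic0.torsion k Fk m, Function.Injective φ := by
    intro y hy htr _ _ hle
    subst hy
    exact up_exists_injective_of_valSetup (M.toValSetup hK hk) (M.hasLattice n hdeg hK hk) hg
      M.x M.x_mem htr hle m hm0 hmA
  exact key M.xbar hred hxk (by rw [h1, h2])

end Inj

universe u v

/-- **C-TOP, core**: for a plane model `M` of `F / K` (`K` algebraically closed of characteristic
`0`) with reduction models (C-GAUSS), `Pic⁰(F)[ℓ^j]` is finite of order `≤ ℓ^(2 g j)`. -/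
theorem torsionUpper_of_planeModel (hRed : RedModelStatement.{u, v})
    (K : Type u) (F : Type v) [Field K] [Field F] [Algebra K F] [IsAlgClosed K] [CharZero K]
    (hRR : IsRRField K F) (M : PlaneModel K F) (ℓ : ℕ) (hℓ : ℓ.Prime) (j : ℕ) :
    Finite (Pic0.torsion K F (ℓ ^ j)) ∧
      Nat.card (Pic0.torsion K F (ℓ ^ j)) ≤ ℓ ^ (2 * genusFF K F * j) := by
  classical
  -- `F / K(x)` is finite separable
  haveI : FiniteDimensional K⟮M.x⟯ F :=
    Module.finite_of_finrank_pos (by rw [M.deg]; exact M.hN)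
  haveI : CharZero K⟮M.x⟯ := charZero_of_injective_algebraMap (algebraMap K K⟮M.x⟯).injective
  haveI : Algebra.IsSeparable K⟮M.x⟯ F := inferInstance
  -- the branch set
  obtain ⟨S, hS⟩ := exists_branchSet hRR M.x_trans
  -- the valuation ring
  obtain ⟨p, A, hp, hpℓ, hT, hchar, hint, hac⟩ :=
    exists_valuationSubring_units_not_dvd (M.goodSet S ℓ) ℓ hℓ.ne_zero
  haveI := hchar
  haveI := hac
  have hne : ℓ ≠ p := fun h => hpℓ (h ▸ dvd_rfl)
  have hI : M.IntegralAt A := M.integralAt_of_goodSet S ℓ A hT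
  -- the reduction model
  obtain ⟨Fk, _, _, R, hRA, hRx, -, hdeg⟩ := hRed K F M A hI
  -- the reduced function field is an `IsRRField`
  haveI : FiniteDimensional (IsLocalRing.ResidueField A)⟮R.xbar⟯ Fk :=
    Module.finite_of_finrank_pos (by rw [hdeg.degk]; exact hdeg.pos)
  haveI : Algebra.IsSeparable (IsLocalRing.ResidueField A)⟮R.xbar⟯ Fk := hdeg.sepk
  have hxk : Transcendental (IsLocalRing.ResidueField A) R.xbar := R.x_trans
  have hk : IsRRField (IsLocalRing.ResidueField A) Fk := isRRField_of_separable hxk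
  -- branch data
  have hunr : ∀ c : K, c ∉ S → Fermat.Agent.S27GR.fibreCard K R.x c = M.N := by
    intro c hc
    rw [hRx, hS c hc, M.deg]
  have hT' : ∀ t ∈ branchUnits S, t ∈ R.A ∧ t⁻¹ ∈ R.A := by
    intro t ht
    rw [hRA]
    refine hT t ?_
    rw [PlaneModel.goodSet]
    exact Finset.mem_union_left _ (Finset.mem_union_left _ ht)
  -- genus equality
  have hg : genusFF K F = genusFF (IsLocalRing.ResidueField A) Fk :=
    Fermat.Agent.S27GR.genusFF_eq_of_degData_branchData R M.N hdeg
      (branchDataOf R M.N S hunr hT') (branchDataOf_inv_mem R M.N S hunr hT') hRR hk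
  -- the count in characteristic `p`
  obtain ⟨P₀⟩ := nonempty_place hk
  obtain ⟨Fr, hFrp, -⟩ := exists_frobStr p hp
    (fun c => up_exists_pow_eq p hp (IsLocalRing.ResidueField A) hint c) hk P₀
  haveI : Fact ℓ.Prime := ⟨hℓ⟩
  have hcard : Nat.card (Pic0.torsion (IsLocalRing.ResidueField A) Fk (ℓ ^ j)) =
      ℓ ^ (2 * genusFF (IsLocalRing.ResidueField A) Fk * j) :=
    card_torsion_of_frobStr hk Fr ℓ (by rw [hFrp]; exact hne) j
  haveI : Finite (Pic0.torsion (IsLocalRing.ResidueField A) Fk (ℓ ^ j)) :=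
    Nat.finite_of_card_ne_zero (by rw [hcard]; exact pow_ne_zero _ hℓ.ne_zero)
  -- specialisation
  have hℓA : ((ℓ : K))⁻¹ ∈ R.A := by
    rw [hRA]
    refine (hT _ ?_).2
    rw [PlaneModel.goodSet]
    exact Finset.mem_union_right _ (by simp)
  have hℓjA : (((ℓ ^ j : ℕ) : K))⁻¹ ∈ R.A := by
    rw [Nat.cast_pow, ← inv_pow]
    exact pow_mem hℓA j
  have hℓj0 : ((ℓ ^ j : ℕ) : K) ≠ 0 := Nat.cast_ne_zero.mpr (pow_ne_zero _ hℓ.ne_zero)
  obtain ⟨φ, hφ⟩ := up_exists_injective_of_redModel R M.N hdeg hRR hk hg (ℓ ^ j) hℓj0 hℓjA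
  refine ⟨Finite.of_injective φ hφ, ?_⟩
  rw [hg, ← hcard]
  exact Nat.card_le_card_of_injective φ hφ

/-- **C-TOP, strong form**: `Pic⁰(F)[ℓ^j]` is finite of order `≤ ℓ^(2 g j)`. -/
theorem torsionUpper_pow (hRed : RedModelStatement.{u, v})
    (hA : ∀ (K : Type u) (F : Type v) [Field K] [Field F] [Algebra K F] [IsAlgClosed K]
      [CharZero K], IsRRField K F → Nonempty (PlaneModel K F))
    (K : Type u) (F : Type v) [Field K] [Field F] [Algebra K F] [IsAlgClosed K] [CharZero K]
    (hRR : IsRRField K F) (ℓ : ℕ) (hℓ : ℓ.Prime) (j : ℕ) :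
    Finite (Pic0.torsion K F (ℓ ^ j)) ∧
      Nat.card (Pic0.torsion K F (ℓ ^ j)) ≤ ℓ ^ (2 * genusFF K F * j) := by
  obtain ⟨M⟩ := hA K F hRR
  exact torsionUpper_of_planeModel hRed K F hRR M ℓ hℓ j

/-- **C-TOP**: the upper bound `#Pic⁰(F)[ℓ] ≤ ℓ^(2g)` in characteristic `0`, from the reduction
model of a plane model (C-GAUSS) and the existence of plane models (block A). -/
theorem torsionUpper (hRed : RedModelStatement.{u, v})
    (hA : ∀ (K : Type u) (F : Type v) [Field K] [Field F] [Algebra K F] [IsAlgClosed K]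
      [CharZero K], IsRRField K F → Nonempty (PlaneModel K F)) :
    TorsionUpper.{u, v} := by
  intro K F _ _ _ _ _ hRR ℓ hℓ
  have h := (torsionUpper_pow hRed hA K F hRR ℓ hℓ 1).2
  rwa [pow_one, mul_one] at h

end Fermat.Agent.S27
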