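/-
S27, CONSTRUCTION (architect helper75), leaf BR-BC (helper74): fibres and genus under a constant
field extension `B : BCSetup K F Ω FΩ`.

* `BCSetup.card_fibre_algebraMap`, `BCSetup.card_poleFibre` : the fibres of `φ x` over the values
  of `K` and over `∞` are the fibres of `x` (every place of `FΩ` which is not trivial on `φ F` is
  an extension place);
* `BCSetup.finiteDimensional_bc`, `BCSetup.finrank_bc` : `[FΩ : Ω(φ x)] = [F : K(x)]`;
* `BCSetup.card_fibre_of_notMem_range` : the fibre over a value outside `K` has `[F : K(x)]`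
  places (the finite set of branch values is stable under `Aut(Ω/K)`);
* `BCSetup.unramified_bc` : if `x` is unramified outside `S ⊆ K` then `φ x` is unramified outside
  the image of `S`;
* `BCSetup.genusFF_bc_eq` : in characteristic `0` the genus does not change.
-/
import Mathlib
import Fermat.Agent.S27.Lift.Basic
import Fermat.Agent.S27.Red.BranchFin
import Fermat.Agent.Lib.ConstExt.Restrict
import Fermat.Agent.Lib.ConstExt.Div

set_option autoImplicit false
set_option linter.style.haveILetI false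

noncomputable section

open AlgebraicCurve Fermat.Agent.RR Fermat.Agent.RRHur IntermediateField

namespace Fermat.Agent.S27

universe uK uF uΩ uFΩ

variable {K : Type uK} {F : Type uF} {Ω : Type uΩ} {FΩ : Type uFΩ}
  [Field K] [Field F] [Field Ω] [Field FΩ] [Algebra K F] [Algebra K Ω] [Algebra Ω FΩ]

namespace BCSetup

variable (B : BCSetup K F Ω FΩ)

/-! ### extension places -/

theorem brbc_ord_ext (v : Place K F) (f : F) : (B.ext v).ord (B.φ f) = v.ord f :=
  Fermat.Agent.ConstExt.ord_extPlace B.isConstExt B.resConst v f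

theorem brbc_ext_injective : Function.Injective B.ext :=
  Fermat.Agent.ConstExt.extPlace_injective B.isConstExt B.resConst

/-- a place of `FΩ` which is not trivial on `φ F` is an extension place. -/
theorem brbc_exists_ext_eq {w : Place Ω FΩ} {f : F} (hf : w.ord (B.φ f) ≠ 0) :
    ∃ v : Place K F, B.ext v = w := by
  rcases Fermat.Agent.ConstExt.exists_extPlace_eq_or B.isConstExt B.resConst w with h | h
  · exact h
  · exfalso
    have hf0 : f ≠ 0 := by
      rintro rfl
      rw [map_zero, Place.ord_zero] at hf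
      exact hf rfl
    exact hf (h f hf0)

theorem brbc_φ_sub_const (x : F) (a : K) :
    B.φ x - algebraMap Ω FΩ (algebraMap K Ω a) = B.φ (x - algebraMap K F a) := by
  rw [map_sub, B.isConstExt.comm]

/-! ### (ii) the fibres over the values of `K` and over `∞` -/

/-- **(ii)** the fibre of `φ x` over a value `a : K` is the fibre of `x` over `a`. -/
theorem card_fibre_algebraMap (x : F) (a : K) :
    Nat.card {w : Place Ω FΩ // 0 < w.ord (B.φ x - algebraMap Ω FΩ (algebraMap K Ω a))} =
      Nat.card {v : Place K F // 0 < v.ord (x - algebraMap K F a)} := by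
  symm
  refine Nat.card_congr (Equiv.ofBijective
    (fun v => ⟨B.ext v.1, by rw [B.brbc_φ_sub_const, B.brbc_ord_ext]; exact v.2⟩) ⟨?_, ?_⟩)
  · intro v v' h
    exact Subtype.ext (B.brbc_ext_injective (congrArg Subtype.val h))
  · rintro ⟨w, hw⟩
    rw [B.brbc_φ_sub_const] at hw
    obtain ⟨v, rfl⟩ := B.brbc_exists_ext_eq (ne_of_gt hw)
    rw [B.brbc_ord_ext] at hw
    exact ⟨⟨v, hw⟩, rfl⟩

/-- **(ii)** the poles of `φ x` are the poles of `x`. -/
theorem card_poleFibre (x : F) :
    Nat.card {w : Place Ω FΩ // w.ord (B.φ x) < 0} =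
      Nat.card {v : Place K F // v.ord x < 0} := by
  symm
  refine Nat.card_congr (Equiv.ofBijective
    (fun v => ⟨B.ext v.1, by rw [B.brbc_ord_ext]; exact v.2⟩) ⟨?_, ?_⟩)
  · intro v v' h
    exact Subtype.ext (B.brbc_ext_injective (congrArg Subtype.val h))
  · rintro ⟨w, hw⟩
    obtain ⟨v, rfl⟩ := B.brbc_exists_ext_eq (ne_of_lt hw)
    rw [B.brbc_ord_ext] at hw
    exact ⟨⟨v, hw⟩, rfl⟩

/-- the pole divisor of `φ x` is the base change of the pole divisor of `x`. -/
theorem poleDiv_φ (x : F) : poleDiv B.hΩ (B.φ x) = B.bcDiv (poleDiv B.hF x) := by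
  ext w
  rcases Fermat.Agent.ConstExt.exists_extPlace_eq_or B.isConstExt B.resConst w with ⟨v, rfl⟩ | h
  · have h1 : B.bcDiv (poleDiv B.hF x) (B.ext v) = poleDiv B.hF x v :=
      Fermat.Agent.ConstExt.extDiv_apply_extPlace (hφ := B.isConstExt) (hres := B.resConst) _ v
    have h2 : (Fermat.Agent.ConstExt.extPlace B.isConstExt B.resConst v).ord (B.φ x) = v.ord x :=
      B.brbc_ord_ext v x
    rw [poleDiv_apply]
    erw [h1]
    rw [poleDiv_apply, h2]
  · have h1 : B.bcDiv (poleDiv B.hF x) w = 0 :=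
      Fermat.Agent.ConstExt.extDiv_apply_of_trivial (hφ := B.isConstExt) (hres := B.resConst) _ h
    rw [h1, poleDiv_apply]
    rcases eq_or_ne x 0 with rfl | hx
    · rw [map_zero, Place.ord_zero]
      simp
    · rw [h x hx]
      simp

theorem degree_poleDiv_φ (x : F) :
    Divisor.degree (poleDiv B.hΩ (B.φ x)) = Divisor.degree (poleDiv B.hF x) := by
  rw [B.poleDiv_φ]
  exact Fermat.Agent.ConstExt.degree_extDiv (hφ := B.isConstExt) (hres := B.resConst) _

/-! ### degrees -/

/-- `φ` maps `K(x)` into `Ω(φ x)`. -/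
theorem brbc_φ_mem_adjoin (x : F) {y : F} (hy : y ∈ K⟮x⟯) : B.φ y ∈ Ω⟮B.φ x⟯ := by
  induction hy using IntermediateField.adjoin_induction with
  | mem z hz =>
      rw [Set.mem_singleton_iff] at hz
      rw [hz]
      exact IntermediateField.mem_adjoin_simple_self Ω (B.φ x)
  | algebraMap a =>
      rw [B.isConstExt.comm]
      exact IntermediateField.algebraMap_mem _ _
  | add a b _ _ ha hb =>
      rw [map_add]
      exact add_mem ha hb
  | inv a _ ha =>
      rw [map_inv₀]
      exact inv_mem ha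
  | mul a b _ _ ha hb =>
      rw [map_mul]
      exact mul_mem ha hb

/-- the restriction of `φ` to `K(x) → Ω(φ x)`. -/
def brbcRes (x : F) : ↥K⟮x⟯ →+* ↥Ω⟮B.φ x⟯ :=
  RingHom.codRestrict (B.φ.comp (algebraMap ↥K⟮x⟯ F)) Ω⟮B.φ x⟯
    (fun y => B.brbc_φ_mem_adjoin x y.2)

theorem brbcRes_comp (x : F) :
    (algebraMap ↥Ω⟮B.φ x⟯ FΩ).comp (B.brbcRes x) = B.φ.comp (algebraMap ↥K⟮x⟯ F) := rfl

/-- algebraic elements over `K(x)` go to algebraic elements over `Ω(φ x)`. -/
theorem brbc_isAlgebraic (x : F) {u : F} (hu : IsAlgebraic ↥K⟮x⟯ u) :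
    IsAlgebraic ↥Ω⟮B.φ x⟯ (B.φ u) := by
  obtain ⟨p, hp0, hpu⟩ := hu
  refine ⟨p.map (B.brbcRes x),
    (Polynomial.map_ne_zero_iff (B.brbcRes x).injective).mpr hp0, ?_⟩
  rw [Polynomial.aeval_def, Polynomial.eval₂_map, B.brbcRes_comp, ← Polynomial.hom_eval₂,
    ← Polynomial.aeval_def, hpu, map_zero]

/-- `FΩ / Ω(φ x)` is finite if `F / K(x)` is. -/
theorem finiteDimensional_bc (x : F) [FiniteDimensional ↥K⟮x⟯ F] :
    FiniteDimensional ↥Ω⟮B.φ x⟯ FΩ := by
  classical
  set b := Module.finBasis ↥K⟮x⟯ F with hb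
  set S : Set FΩ := Set.range fun i => B.φ (b i) with hS
  haveI : Finite S := Set.finite_range _
  have hint : ∀ z ∈ S, IsIntegral ↥Ω⟮B.φ x⟯ z := by
    rintro _ ⟨i, rfl⟩
    exact (B.brbc_isAlgebraic x (Algebra.IsAlgebraic.isAlgebraic (b i))).isIntegral
  have hfin : FiniteDimensional ↥Ω⟮B.φ x⟯ ↥(IntermediateField.adjoin ↥Ω⟮B.φ x⟯ S) :=
    IntermediateField.finiteDimensional_adjoin hint
  -- the images of `F` lie in `E`
  have hφ : ∀ y : F, B.φ y ∈ IntermediateField.adjoin ↥Ω⟮B.φ x⟯ S := by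
    intro y
    rw [← b.sum_repr y, map_sum]
    refine sum_mem fun i _ => ?_
    rw [Algebra.smul_def, map_mul]
    refine mul_mem ?_ (IntermediateField.subset_adjoin _ _ ⟨i, rfl⟩)
    have h1 : B.φ (algebraMap ↥K⟮x⟯ F (b.repr y i)) =
        algebraMap ↥Ω⟮B.φ x⟯ FΩ (B.brbcRes x (b.repr y i)) := rfl
    rw [h1]
    exact IntermediateField.algebraMap_mem _ _
  have htop : IntermediateField.adjoin ↥Ω⟮B.φ x⟯ S = ⊤ := by
    rw [eq_top_iff]
    intro z _
    have hz : z ∈ IntermediateField.adjoin Ω (Set.range B.φ) := by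
      rw [B.isConstExt.gen]
      exact IntermediateField.mem_top
    induction hz using IntermediateField.adjoin_induction with
    | mem z hz =>
        obtain ⟨y, rfl⟩ := hz
        exact hφ y
    | algebraMap a =>
        have h1 : algebraMap Ω FΩ a = algebraMap ↥Ω⟮B.φ x⟯ FΩ (algebraMap Ω ↥Ω⟮B.φ x⟯ a) := rfl
        rw [h1]
        exact IntermediateField.algebraMap_mem _ _
    | add a b _ _ ha hb => exact add_mem (ha trivial) (hb trivial)
    | inv a _ ha => exact inv_mem (ha trivial)
    | mul a b _ _ ha hb => exact mul_mem (ha trivial) (hb trivial)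
  rw [htop] at hfin
  exact Module.Finite.equiv (IntermediateField.topEquiv (F := ↥Ω⟮B.φ x⟯) (E := FΩ)).toLinearEquiv

/-- a transcendental function stays transcendental. -/
theorem transcendental_φ [IsAlgClosed Ω] {x : F} (hx : Transcendental K x) :
    Transcendental Ω (B.φ x) := by
  intro halg
  obtain ⟨c, hc⟩ := Fermat.Agent.F3I2.autC_mem_range_of_isAlgebraic halg
  exact B.φ_ne_const hx c hc.symm

/-- **degrees**: `[FΩ : Ω(φ x)] = [F : K(x)]`. -/
theorem finrank_bc [IsAlgClosed Ω] {x : F} (hx : Transcendental K x)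
    [FiniteDimensional ↥K⟮x⟯ F] :
    Module.finrank ↥Ω⟮B.φ x⟯ FΩ = Module.finrank ↥K⟮x⟯ F := by
  haveI := B.finiteDimensional_bc x
  have h1 := degree_poleDiv_eq_finrank B.hΩ (B.transcendental_φ hx)
  have h2 := degree_poleDiv_eq_finrank B.hF hx
  rw [B.degree_poleDiv_φ, h2] at h1
  exact_mod_cast h1.symm

/-- separability in characteristic `0`. -/
theorem isSeparable_bc [CharZero K] (x : F) [FiniteDimensional ↥K⟮x⟯ F] :
    Algebra.IsSeparable ↥Ω⟮B.φ x⟯ FΩ := by
  haveI := B.finiteDimensional_bc x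
  haveI : CharZero Ω := charZero_of_injective_algebraMap (algebraMap K Ω).injective
  haveI : CharZero ↥Ω⟮B.φ x⟯ :=
    charZero_of_injective_algebraMap (algebraMap Ω ↥Ω⟮B.φ x⟯).injective
  haveI : PerfectField ↥Ω⟮B.φ x⟯ := PerfectField.ofCharZero
  exact Algebra.IsAlgebraic.isSeparable_of_perfectField

theorem brbc_isSeparable [CharZero K] (x : F) [FiniteDimensional ↥K⟮x⟯ F] :
    Algebra.IsSeparable ↥K⟮x⟯ F := by
  haveI : CharZero ↥K⟮x⟯ := charZero_of_injective_algebraMap (algebraMap K ↥K⟮x⟯).injective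
  haveI : PerfectField ↥K⟮x⟯ := PerfectField.ofCharZero
  exact Algebra.IsAlgebraic.isSeparable_of_perfectField

/-! ### (i) the fibres over the values outside `K` -/

/-- the fibre over `σ c` is the translate of the fibre over `c`. -/
theorem card_fibre_smul (x : F) (σ : Ω ≃ₐ[K] Ω) (c : Ω) :
    Nat.card {w : Place Ω FΩ // 0 < w.ord (B.φ x - algebraMap Ω FΩ (σ c))} =
      Nat.card {w : Place Ω FΩ // 0 < w.ord (B.φ x - algebraMap Ω FΩ c)} := by
  symm
  refine Nat.card_congr (Equiv.ofBijective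
    (fun w => ⟨B.act σ • w.1, B.over_smul x σ w.2⟩) ⟨?_, ?_⟩)
  · intro w w' h
    have h1 : B.act σ • w.1 = B.act σ • w'.1 := congrArg Subtype.val h
    exact Subtype.ext (smul_left_cancel _ h1)
  · rintro ⟨w, hw⟩
    have h1 : Over (B.φ x) (B.act σ • ((B.act σ)⁻¹ • w)) (σ c) := by
      rw [smul_inv_smul]
      exact hw
    exact ⟨⟨(B.act σ)⁻¹ • w, (B.over_smul_iff x σ).mp h1⟩, Subtype.ext (smul_inv_smul _ _)⟩

/-- **(i)** the fibre of `φ x` over a value outside `K` has `[F : K(x)]` places. -/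
theorem card_fibre_of_notMem_range [IsAlgClosed K] [IsAlgClosed Ω] {x : F}
    (hx : Transcendental K x) [FiniteDimensional ↥K⟮x⟯ F]
    [Algebra.IsSeparable ↥Ω⟮B.φ x⟯ FΩ] {c : Ω} (hc : c ∉ Set.range (algebraMap K Ω)) :
    Nat.card {w : Place Ω FΩ // 0 < w.ord (B.φ x - algebraMap Ω FΩ c)} =
      Module.finrank ↥K⟮x⟯ F := by
  haveI := B.finiteDimensional_bc x
  rw [← B.finrank_bc hx]
  by_contra hne
  have hfin := finite_branchValues B.hΩ (B.transcendental_φ hx)
  have hct : Transcendental K c :=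
    fun h => hc (Fermat.Agent.F3I2.autC_mem_range_of_isAlgebraic h)
  have hinj : Function.Injective (fun a : K => c + algebraMap K Ω a) := by
    intro a b hab
    exact (algebraMap K Ω).injective (add_left_cancel hab)
  have hsub : Set.range (fun a : K => c + algebraMap K Ω a) ⊆
      {c' : Ω | Nat.card {v : Place Ω FΩ // 0 < v.ord (B.φ x - algebraMap Ω FΩ c')} ≠
        Module.finrank ↥Ω⟮B.φ x⟯ FΩ} := by
    rintro _ ⟨a, rfl⟩
    obtain ⟨σ, hσ⟩ := exists_algEquiv_translate hct a
    show Nat.card {v : Place Ω FΩ //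
      0 < v.ord (B.φ x - algebraMap Ω FΩ (c + algebraMap K Ω a))} ≠ _
    rw [← hσ, B.card_fibre_smul]
    exact hne
  haveI : Infinite K := inferInstance
  exact (Set.infinite_range_of_injective hinj).mono hsub hfin

/-- **(i)**, characteristic `0`. -/
theorem card_fibre_of_notMem_range' [IsAlgClosed K] [IsAlgClosed Ω] [CharZero K] {x : F}
    (hx : Transcendental K x) [FiniteDimensional ↥K⟮x⟯ F] {c : Ω}
    (hc : c ∉ Set.range (algebraMap K Ω)) :
    Nat.card {w : Place Ω FΩ // 0 < w.ord (B.φ x - algebraMap Ω FΩ c)} =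
      Module.finrank ↥K⟮x⟯ F := by
  haveI := B.isSeparable_bc x
  exact B.card_fibre_of_notMem_range hx hc

/-- **branch set of the constant extension**: if `x` is unramified outside `S ⊆ K`, then `φ x` is
unramified outside the image of `S`. -/
theorem unramified_bc [IsAlgClosed K] [IsAlgClosed Ω] {x : F}
    (hx : Transcendental K x) [FiniteDimensional ↥K⟮x⟯ F]
    [Algebra.IsSeparable ↥Ω⟮B.φ x⟯ FΩ] (S : Finset K)
    (hS : ∀ c : K, c ∉ S →
      Nat.card {v : Place K F // 0 < v.ord (x - algebraMap K F c)} = Module.finrank ↥K⟮x⟯ F)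
    (c : Ω) (hc : ∀ a ∈ S, algebraMap K Ω a ≠ c) :
    Nat.card {w : Place Ω FΩ // 0 < w.ord (B.φ x - algebraMap Ω FΩ c)} =
      Module.finrank ↥K⟮x⟯ F := by
  by_cases hr : c ∈ Set.range (algebraMap K Ω)
  · obtain ⟨a, rfl⟩ := hr
    rw [B.card_fibre_algebraMap]
    exact hS a fun ha => hc a ha rfl
  · exact B.card_fibre_of_notMem_range hx hr

/-! ### (iii) the genus -/

/-- **(iii)** in characteristic `0` the genus does not change under constant extension. -/
theorem genusFF_bc_eq (B : BCSetup K F Ω FΩ) [IsAlgClosed K] [IsAlgClosed Ω] [CharZero K] :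
    genusFF Ω FΩ = genusFF K F := by
  classical
  haveI : CharZero Ω := charZero_of_injective_algebraMap (algebraMap K Ω).injective
  obtain ⟨x, hx, hfd, -⟩ := B.hF.exists_x
  haveI := hfd
  haveI := B.finiteDimensional_bc x
  haveI := B.isSeparable_bc x
  haveI := brbc_isSeparable (K := K) x
  obtain ⟨S, hS⟩ := exists_finset_unramified B.hF hx
  have hx' := B.transcendental_φ hx
  have hn := B.finrank_bc hx
  have hinj : Function.Injective (algebraMap K Ω) := (algebraMap K Ω).injective
  apply le_antisymm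
  · refine genusFF_le_of_fibres B.hΩ B.hF hx' hx hn.symm (S.image (algebraMap K Ω))
      (Function.invFun (algebraMap K Ω)) ?_ ?_ ?_ ?_
    · intro c hc c' hc' h
      rw [Finset.coe_image] at hc hc'
      obtain ⟨a, -, rfl⟩ := hc
      obtain ⟨a', -, rfl⟩ := hc'
      rw [Function.leftInverse_invFun hinj a, Function.leftInverse_invFun hinj a'] at h
      rw [h]
    · intro c hc
      rw [hn]
      refine B.unramified_bc hx S hS c fun a ha hac => hc ?_
      rw [Finset.mem_image]
      exact ⟨a, ha, hac⟩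
    · intro c hc
      rw [Finset.mem_image] at hc
      obtain ⟨a, -, rfl⟩ := hc
      rw [Function.leftInverse_invFun hinj a, B.card_fibre_algebraMap]
    · exact (B.card_poleFibre x).ge
  · refine genusFF_le_of_fibres B.hF B.hΩ hx hx' hn S (algebraMap K Ω) hinj.injOn hS ?_ ?_
    · intro c _
      exact (B.card_fibre_algebraMap x c).le
    · exact (B.card_poleFibre x).le

end BCSetup

end Fermat.Agent.S27
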