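import Mathlib
import Fermat.Agent.S27.Red.Defs
import Fermat.Agent.Lib.GaussVal.Rational

set_option autoImplicit false

/-!
# S27, block C, leaf C-EMB: the embedding `F → K((t))` given by a parametrisation

`M : PlaneModel K F`, `jL uL ∈ K((t))` with `f(jL, uL) = 0`, `jL` transcendental.  Then there is a
`K`-algebra homomorphism `ψ : F → K((t))` with `ψ x = jL`, `ψ y = uL`; its image is `K(jL, uL)`.

Proof.  `1, y, …, y^(N-1)` is a basis of `F` over `K(x)` (`M.gen`, `M.monic`, `M.deg`), so the
kernel of `pmEv x y : K[X][Y] → F` is generated by `f` (division by the monic `f`, `x`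
transcendental); hence `pmEv x y P ↦ pev2 jL uL P` is well defined on `K[x, y]`, injective
(`jL` transcendental gives `K[x] ↪ K((t))`, and a nonzero element of `K[x,y]` divides a nonzero
element of `K[x]`: it is integral over `K[x]`, take a monic equation with nonzero constant term),
and extends to the fraction field `F` (`IsFractionRing.lift`).
-/

noncomputable section

namespace Fermat.Agent.S27

open Polynomial Fermat.Agent.S28 Fermat.Agent.GaussVal

variable {K F : Type*} [Field K] [Field F] [Algebra K F]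

theorem cemb_pmEv_apply (x y : F) (P : K[X][X]) :
    pmEv x y P = P.eval₂ ((Polynomial.aeval x : K[X] →ₐ[K] F).toRingHom) y := rfl

theorem cemb_pmEv_C (x y : F) (p : K[X]) : pmEv x y (C p) = Polynomial.aeval x p := by
  rw [cemb_pmEv_apply, eval₂_C]; rfl

theorem cemb_pmEv_X (x y : F) : pmEv x y (X : K[X][X]) = y := by
  rw [cemb_pmEv_apply, eval₂_X]

theorem cemb_pmEv_CX (x y : F) : pmEv x y (C X : K[X][X]) = x := by
  rw [cemb_pmEv_C, aeval_X]

theorem cemb_pmEv_CC (x y : F) (a : K) :
    pmEv x y (C (C a) : K[X][X]) = algebraMap K F a := by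
  rw [cemb_pmEv_C, aeval_C]

theorem cemb_pmEv_comp_C (x y : F) :
    (pmEv x y).comp (C : K[X] →+* K[X][X]) =
      (Polynomial.aeval x : K[X] →ₐ[K] F).toRingHom :=
  RingHom.ext fun a => cemb_pmEv_C x y a

/-- `1, y, …, y^(N-1)` are linearly independent over `K[x]`. -/
theorem cemb_indep (M : PlaneModel K F) (r : K[X][X]) (hr : r.natDegree < M.N)
    (h0 : pmEv M.x M.y r = 0) : r = 0 := by
  classical
  let gx : IntermediateField.adjoin K ({M.x} : Set F) :=
    ⟨M.x, IntermediateField.subset_adjoin K _ (Set.mem_singleton _)⟩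
  let φ : K[X] →+* IntermediateField.adjoin K ({M.x} : Set F) :=
    (Polynomial.aeval gx : K[X] →ₐ[K] IntermediateField.adjoin K ({M.x} : Set F)).toRingHom
  have hφ : ∀ p : K[X], algebraMap (IntermediateField.adjoin K ({M.x} : Set F)) F (φ p) =
      Polynomial.aeval M.x p := by
    intro p
    show algebraMap (IntermediateField.adjoin K ({M.x} : Set F)) F (Polynomial.aeval gx p) = _
    rw [← Polynomial.aeval_algebraMap_apply]
    rfl
  have hcomp : (algebraMap (IntermediateField.adjoin K ({M.x} : Set F)) F).comp φ =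
      (Polynomial.aeval M.x : K[X] →ₐ[K] F).toRingHom :=
    RingHom.ext hφ
  have hφinj : Function.Injective φ := by
    intro p q hpq
    have h1 := congrArg (algebraMap (IntermediateField.adjoin K ({M.x} : Set F)) F) hpq
    rw [hφ, hφ] at h1
    exact (transcendental_iff_injective.mp M.x_trans) h1
  have hev : ∀ P : K[X][X], Polynomial.aeval M.y (P.map φ) = pmEv M.x M.y P := by
    intro P
    rw [Polynomial.aeval_def, Polynomial.eval₂_map, hcomp]
    rfl
  have hint : IsIntegral (IntermediateField.adjoin K ({M.x} : Set F)) M.y :=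
    ⟨M.f.map φ, M.monic.map φ, by rw [← Polynomial.aeval_def, hev, M.root]⟩
  have htop : IntermediateField.adjoin (IntermediateField.adjoin K ({M.x} : Set F))
      ({M.y} : Set F) = ⊤ := by
    rw [eq_top_iff]
    intro z _
    have h1 : z ∈ (IntermediateField.adjoin (IntermediateField.adjoin K ({M.x} : Set F))
        ({M.y} : Set F)).restrictScalars K := by
      rw [IntermediateField.adjoin_adjoin_left, Set.singleton_union, M.gen]
      trivial
    exact h1
  have hdeg : (minpoly (IntermediateField.adjoin K ({M.x} : Set F)) M.y).natDegree = M.N := by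
    rw [← IntermediateField.adjoin.finrank hint, htop, IntermediateField.finrank_top', M.deg]
  by_contra hr0
  have hr' : r.map φ ≠ 0 := fun h =>
    hr0 ((Polynomial.map_injective φ hφinj) (by rw [h, Polynomial.map_zero]))
  have h2 := minpoly.degree_le_of_ne_zero (IntermediateField.adjoin K ({M.x} : Set F)) M.y hr'
    (by rw [hev, h0])
  have h3 := Polynomial.natDegree_le_natDegree h2
  have h4 : (r.map φ).natDegree ≤ r.natDegree := Polynomial.natDegree_map_le
  omega

/-- the kernel of `pmEv x y` is contained in the kernel of `pev2 jL uL` -/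
theorem cemb_ker_le (M : PlaneModel K F) (jL uL : LaurentSeries K)
    (hroot : pev2 jL uL M.f = 0) (P : K[X][X]) (hP : pmEv M.x M.y P = 0) :
    pev2 jL uL P = 0 := by
  have hf1 : M.f ≠ 1 := by
    intro h
    have h1 := M.natDegree_f
    rw [h, natDegree_one] at h1
    have h2 := M.hN
    omega
  have hdiv := Polynomial.modByMonic_add_div P M.f
  have hdeg : (P %ₘ M.f).natDegree < M.N := by
    rw [← M.natDegree_f]
    exact Polynomial.natDegree_modByMonic_lt P M.monic hf1
  have hr0 : pmEv M.x M.y (P %ₘ M.f) = 0 := by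
    have h1 := congrArg (pmEv M.x M.y) hdiv
    rw [map_add, map_mul, M.root, zero_mul, add_zero, hP] at h1
    exact h1
  have hr := cemb_indep M _ hdeg hr0
  rw [← hdiv, hr, zero_add, map_mul, hroot, zero_mul]

/-- every value `P(x, y)` is integral over `K[x]` -/
theorem cemb_isIntegralElem (x y : F) (χ : K[X][X]) (hχm : χ.Monic) (hχ : pmEv x y χ = 0)
    (P : K[X][X]) :
    ((Polynomial.aeval x : K[X] →ₐ[K] F).toRingHom).IsIntegralElem (pmEv x y P) := by
  have hu : ((Polynomial.aeval x : K[X] →ₐ[K] F).toRingHom).IsIntegralElem y :=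
    ⟨χ, hχm, by rwa [← cemb_pmEv_apply]⟩
  induction P using Polynomial.induction_on' with
  | add p q hp hq =>
    rw [map_add]; exact RingHom.IsIntegralElem.add _ hp hq
  | monomial n a =>
    have h1 : pmEv x y (monomial n a) =
        (Polynomial.aeval x : K[X] →ₐ[K] F).toRingHom a * y ^ n := by
      rw [cemb_pmEv_apply, eval₂_monomial]
    rw [h1]
    refine RingHom.IsIntegralElem.mul _ (RingHom.isIntegralElem_map _) ?_
    clear h1
    induction n with
    | zero => rw [pow_zero]; exact RingHom.isIntegralElem_one _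
    | succ n ih => rw [pow_succ]; exact RingHom.IsIntegralElem.mul _ ih hu

/-- the kernel of `pev2 jL uL` is contained in the kernel of `pmEv x y` -/
theorem cemb_ker_ge (M : PlaneModel K F) (jL uL : LaurentSeries K)
    (hroot : pev2 jL uL M.f = 0) (hinj : Function.Injective (pev1 jL))
    (P : K[X][X]) (hP : pev2 jL uL P = 0) : pmEv M.x M.y P = 0 := by
  by_contra hw
  obtain ⟨p, hpm, hpw⟩ := cemb_isIntegralElem M.x M.y M.f M.monic M.root P
  obtain ⟨q, hqm, hqw, hq0⟩ := d3_exists_monic_coeff_zero_ne _ hw p hpm hpw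
  have h1 : pmEv M.x M.y (q.eval₂ (C : K[X] →+* K[X][X]) P) = 0 := by
    rw [Polynomial.hom_eval₂, cemb_pmEv_comp_C]
    exact hqw
  have h2 := cemb_ker_le M jL uL hroot _ h1
  have h3 : (pev2 jL uL).comp (C : K[X] →+* K[X][X]) = pev1 jL :=
    RingHom.ext fun a => pev2_C jL uL a
  rw [Polynomial.hom_eval₂, h3, hP, Polynomial.eval₂_at_zero] at h2
  exact hq0 (hinj (by rw [h2, map_zero]))

/-- every element of `F` is a quotient of two values of `pmEv x y` -/
theorem cemb_exists_div (M : PlaneModel K F) (z : F) :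
    ∃ P Q : K[X][X], z = pmEv M.x M.y P / pmEv M.x M.y Q := by
  have hz : z ∈ IntermediateField.adjoin K ({M.x, M.y} : Set F) := by
    rw [M.gen]; trivial
  have hle : Algebra.adjoin K ({M.x, M.y} : Set F) ≤
      { (pmEv M.x M.y).range with
        algebraMap_mem' := fun a => ⟨C (C a), cemb_pmEv_CC M.x M.y a⟩ } := by
    refine Algebra.adjoin_le ?_
    rintro w (rfl | hw)
    · exact ⟨C X, cemb_pmEv_CX _ _⟩
    · rw [Set.mem_singleton_iff] at hw
      rw [hw]
      exact ⟨X, cemb_pmEv_X _ _⟩
  obtain ⟨r, hr, s, hs, rfl⟩ := IntermediateField.mem_adjoin_iff_div.mp hz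
  obtain ⟨P, hP⟩ := hle hr
  obtain ⟨Q, hQ⟩ := hle hs
  exact ⟨P, Q, by rw [hP, hQ]⟩

/-- two ring homomorphisms from `A` to fields with the same kernel, the first one generating its
target as a field: the second factors through the first. -/
theorem cemb_lift {A E L : Type*} [CommRing A] [Field E] [Field L] (ev : A →+* E) (ev' : A →+* L)
    (hle : ∀ a : A, ev a = 0 → ev' a = 0) (hge : ∀ a : A, ev' a = 0 → ev a = 0)
    (hsurj : ∀ z : E, ∃ a b : A, z = ev a / ev b) :
    ∃ ψ : E →+* L, ∀ a : A, ψ (ev a) = ev' a := by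
  classical
  have hprime : (RingHom.ker ev).IsPrime := RingHom.ker_isPrime ev
  have hdom : IsDomain (A ⧸ RingHom.ker ev) := Ideal.Quotient.isDomain (RingHom.ker ev)
  have hιinj : Function.Injective (RingHom.kerLift ev) := RingHom.kerLift_injective ev
  let _ : Algebra (A ⧸ RingHom.ker ev) E := (RingHom.kerLift ev).toAlgebra
  have halg : ∀ a : A,
      algebraMap (A ⧸ RingHom.ker ev) E (Ideal.Quotient.mk (RingHom.ker ev) a) = ev a :=
    fun a => RingHom.kerLift_mk ev a
  have hfaith : FaithfulSMul (A ⧸ RingHom.ker ev) E :=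
    (faithfulSMul_iff_algebraMap_injective (A ⧸ RingHom.ker ev) E).mpr hιinj
  have hfrac : IsFractionRing (A ⧸ RingHom.ker ev) E := by
    refine IsFractionRing.of_field (A ⧸ RingHom.ker ev) E ?_
    intro z
    obtain ⟨a, b, hz⟩ := hsurj z
    exact ⟨Ideal.Quotient.mk _ a, Ideal.Quotient.mk _ b, by rw [halg, halg]; exact hz⟩
  let ψ₀ : (A ⧸ RingHom.ker ev) →+* L :=
    Ideal.Quotient.lift (RingHom.ker ev) ev' (fun a ha => hle a ((RingHom.mem_ker).mp ha))
  have hψ₀ : ∀ a : A, ψ₀ (Ideal.Quotient.mk (RingHom.ker ev) a) = ev' a := fun a =>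
    Ideal.Quotient.lift_mk _ _ _
  have hψ₀inj : Function.Injective ψ₀ := by
    rw [injective_iff_map_eq_zero]
    intro a ha
    obtain ⟨P, rfl⟩ := Ideal.Quotient.mk_surjective a
    rw [hψ₀] at ha
    rw [Ideal.Quotient.eq_zero_iff_mem, RingHom.mem_ker]
    exact hge P ha
  refine ⟨IsFractionRing.lift hψ₀inj, fun a => ?_⟩
  rw [← halg, ← hψ₀]
  exact IsFractionRing.lift_algebraMap hψ₀inj _

/-- **C-EMB.** -/
theorem exists_embedding (M : PlaneModel K F) (jL uL : LaurentSeries K)
    (hroot : pev2 jL uL M.f = 0) (hinj : Function.Injective (pev1 jL)) :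
    ∃ ψ : F →ₐ[K] LaurentSeries K, ψ M.x = jL ∧ ψ M.y = uL ∧
      (∀ P : K[X][X], ψ (pmEv M.x M.y P) = pev2 jL uL P) ∧
      ∀ z : F, InTL jL uL (ψ z) := by
  classical
  obtain ⟨ψr, hψr⟩ := cemb_lift (pmEv (K := K) M.x M.y) (pev2 jL uL)
    (cemb_ker_le M jL uL hroot) (cemb_ker_ge M jL uL hroot hinj) (cemb_exists_div M)
  let ψ : F →ₐ[K] LaurentSeries K :=
    { ψr with
      commutes' := fun a => by
        show ψr (algebraMap K F a) = algebraMap K (LaurentSeries K) a
        rw [← cemb_pmEv_CC M.x M.y a, hψr, pev2_C, pev1_C, hahnC_eq_algebraMap] }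
  have hψ : ∀ z : F, ψ z = ψr z := fun _ => rfl
  refine ⟨ψ, ?_, ?_, ?_, ?_⟩
  · rw [hψ, ← cemb_pmEv_CX (K := K) M.x M.y, hψr, pev2_C, pev1_X]
  · rw [hψ, ← cemb_pmEv_X (K := K) M.x M.y, hψr, pev2_X]
  · intro P
    rw [hψ, hψr]
  · intro z
    obtain ⟨P, Q, rfl⟩ := cemb_exists_div M z
    rw [hψ, map_div₀, hψr, hψr, div_eq_mul_inv]
    exact inTL_mul (inTL_of_pev2 P) (inTL_inv hinj M.f M.monic hroot (inTL_of_pev2 Q))

end Fermat.Agent.S27
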