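/-
S27, block C, seat C-IND (helper63), general form: independence from pole orders.

`k` a field, `j, u ∈ k((t))` with `ord j = -N`, `ord u = -(N+1)`, `N > 0`.  Then
`1, u, …, u^(N-1)` are linearly independent over `k[j]` (`S28.IndepUpTo j u N`): the terms
`p_b(j) u^b`, `b < N`, have pairwise distinct orders (`≡ -b mod N`).

Also: `ord (single n 1 * w) = n` for a power series `w` with `w(0) ≠ 0`.
-/
import Mathlib
import Fermat.Agent.S28.RedKernel

set_option autoImplicit false

namespace Fermat.Agent.S27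

open Polynomial Fermat.Agent.S28

noncomputable section

variable {k : Type*} [Field k]

theorem ind_ordV_C {c : k} (hc : c ≠ 0) :
    ordV k (HahnSeries.C c : LaurentSeries k) = 0 := by
  rw [HahnSeries.addVal_apply, HahnSeries.C_apply, HahnSeries.orderTop_single hc]
  rfl

theorem ind_ordV_C_nonneg (c : k) :
    (0 : WithTop ℤ) ≤ ordV k (HahnSeries.C c : LaurentSeries k) := by
  by_cases hc : c = 0
  · simp [hc]
  · rw [ind_ordV_C hc]

theorem ind_ordV_pow {x : LaurentSeries k} {a : ℤ} (hx : ordV k x = (a : WithTop ℤ)) (i : ℕ) :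
    ordV k (x ^ i) = ((i * a : ℤ) : WithTop ℤ) :=
  ordV_pow_of_eq hx i

/-- `ord p(j) = - N deg p` for `p ≠ 0`, `ord j = - N`, `N > 0`. -/
theorem ind_ordV_pev1 {N : ℕ} (hN : 0 < N) (j : LaurentSeries k)
    (hj : ordV k j = ((-(N : ℤ) : ℤ) : WithTop ℤ)) {p : k[X]} (hp : p ≠ 0) :
    ordV k (pev1 j p) = ((-((N : ℤ) * p.natDegree) : ℤ) : WithTop ℤ) := by
  rw [pev1_apply, eval₂_eq_sum_range, Finset.sum_range_succ]
  have hlead : ordV k ((HahnSeries.C : k →+* LaurentSeries k) (p.coeff p.natDegree) *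
      j ^ p.natDegree) = ((-((N : ℤ) * p.natDegree) : ℤ) : WithTop ℤ) := by
    have hlc : p.coeff p.natDegree ≠ 0 := leadingCoeff_ne_zero.mpr hp
    rw [AddValuation.map_mul, ind_ordV_pow hj, ind_ordV_C hlc, zero_add]
    congr 1
    ring
  have hrest : ((-((N : ℤ) * p.natDegree) : ℤ) : WithTop ℤ) <
      ordV k (∑ i ∈ Finset.range p.natDegree,
        (HahnSeries.C : k →+* LaurentSeries k) (p.coeff i) * j ^ i) := by
    refine AddValuation.map_lt_sum' _ (WithTop.coe_lt_top _) fun i hi => ?_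
    have hi' : i < p.natDegree := Finset.mem_range.mp hi
    rw [AddValuation.map_mul, ind_ordV_pow hj]
    have h1 : ((-((N : ℤ) * p.natDegree) : ℤ) : WithTop ℤ) < (((i : ℤ) * -(N : ℤ) : ℤ) : WithTop ℤ) := by
      rw [WithTop.coe_lt_coe]
      have : (i : ℤ) < p.natDegree := by exact_mod_cast hi'
      have hN' : (0 : ℤ) < N := by exact_mod_cast hN
      nlinarith
    calc ((-((N : ℤ) * p.natDegree) : ℤ) : WithTop ℤ) < (((i : ℤ) * -(N : ℤ) : ℤ) : WithTop ℤ) := h1
      _ = 0 + (((i : ℤ) * -(N : ℤ) : ℤ) : WithTop ℤ) := by rw [zero_add]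
      _ ≤ _ := by gcongr; exact ind_ordV_C_nonneg _
  rw [← hlead] at hrest ⊢
  exact AddValuation.map_add_eq_of_lt_right _ hrest

/-- **C-IND, general form**: `ord j = -N`, `ord u = -(N+1)`: `1, u, …, u^(N-1)` are independent
over `k[j]`. -/
theorem indepUpTo_of_ord {N : ℕ} (hN : 0 < N) (j u : LaurentSeries k)
    (hj : ordV k j = ((-(N : ℤ) : ℤ) : WithTop ℤ))
    (hu : ordV k u = ((-((N : ℤ) + 1) : ℤ) : WithTop ℤ)) : IndepUpTo j u N := by
  classical
  intro P hPd hP
  by_contra hP0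
  have hne : P.support.Nonempty := by
    rwa [Finset.nonempty_iff_ne_empty, ne_eq, support_eq_empty]
  -- weights
  set ω : ℕ → ℤ := fun b => (N : ℤ) * (P.coeff b).natDegree + ((N : ℤ) + 1) * b with hω
  obtain ⟨b₀, hb₀, hmax⟩ := Finset.exists_max_image P.support ω hne
  have hterm : ∀ b ∈ P.support, ordV k (pev1 j (P.coeff b) * u ^ b) = ((-(ω b) : ℤ) : WithTop ℤ) := by
    intro b hb
    rw [AddValuation.map_mul, ind_ordV_pev1 hN j hj (mem_support_iff.mp hb), ind_ordV_pow hu,
      ← WithTop.coe_add]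
    congr 1
    rw [hω]
    ring
  have hlt : ∀ b ∈ P.support, b ≠ b₀ → ω b < ω b₀ := by
    intro b hb hne'
    refine lt_of_le_of_ne (hmax b hb) fun heq => hne' ?_
    have hb1 : b < N := lt_of_le_of_lt (le_natDegree_of_mem_supp b hb) hPd
    have hb2 : b₀ < N := lt_of_le_of_lt (le_natDegree_of_mem_supp b₀ hb₀) hPd
    rw [hω] at heq
    simp only at heq
    -- N (d - d') = (N+1) (b₀ - b), so N ∣ b₀ - b
    have h1 : (N : ℤ) * ((P.coeff b).natDegree - (P.coeff b₀).natDegree - ((b₀ : ℤ) - b)) =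
        (b₀ : ℤ) - b := by
      linear_combination heq
    have hdvd : (N : ℤ) ∣ (b₀ : ℤ) - b := ⟨_, h1.symm⟩
    have habs : |(b₀ : ℤ) - b| < N := by
      rw [abs_lt]
      constructor <;> omega
    have := Int.eq_zero_of_abs_lt_dvd hdvd habs
    omega
  have hsum : pev2 j u P = ∑ b ∈ P.support, pev1 j (P.coeff b) * u ^ b := by
    rw [pev2_apply, eval₂_eq_sum, sum_def]
  have hsplit : pev2 j u P = pev1 j (P.coeff b₀) * u ^ b₀ +
      ∑ b ∈ P.support.erase b₀, pev1 j (P.coeff b) * u ^ b := by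
    rw [hsum]
    exact (Finset.add_sum_erase P.support (fun b => pev1 j (P.coeff b) * u ^ b) hb₀).symm
  have hrest : ((-(ω b₀) : ℤ) : WithTop ℤ) <
      ordV k (∑ b ∈ P.support.erase b₀, pev1 j (P.coeff b) * u ^ b) := by
    refine AddValuation.map_lt_sum' _ (WithTop.coe_lt_top _) fun b hb => ?_
    rw [Finset.mem_erase] at hb
    rw [hterm b hb.2, WithTop.coe_lt_coe]
    have := hlt b hb.2 hb.1
    omega
  have hval : ordV k (pev2 j u P) = ((-(ω b₀) : ℤ) : WithTop ℤ) := by
    rw [hsplit, ← hterm b₀ hb₀]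
    rw [← hterm b₀ hb₀] at hrest
    exact AddValuation.map_add_eq_of_lt_left _ hrest
  rw [hP, AddValuation.map_zero] at hval
  exact WithTop.top_ne_coe hval

/-- a power series with nonzero constant term has order zero as a Laurent series. -/
theorem ind_ordV_ofPowerSeries {w : PowerSeries k} (hw : PowerSeries.constantCoeff w ≠ 0) :
    ordV k (HahnSeries.ofPowerSeries ℤ k w) = 0 := by
  rw [HahnSeries.addVal_apply]
  have h0 : (HahnSeries.ofPowerSeries ℤ k w).coeff ((0 : ℕ) : ℤ) ≠ 0 := by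
    rw [HahnSeries.ofPowerSeries_apply_coeff]
    simpa using hw
  have hsupp : ((0 : ℕ) : ℤ) ∈ (HahnSeries.ofPowerSeries ℤ k w).support := h0
  rw [HahnSeries.orderTop_eq_of_le hsupp]
  · rfl
  · intro g hg
    by_contra hlt
    push Not at hlt
    apply hg
    have hcoe : HahnSeries.ofPowerSeries ℤ k w = ((w : PowerSeries k) : LaurentSeries k) := rfl
    rw [hcoe, PowerSeries.coeff_coe, if_pos (by simpa using hlt)]

/-- `ord (t^n w) = n` for `w(0) ≠ 0`. -/
theorem ind_ordV_single_mul {w : PowerSeries k} (hw : PowerSeries.constantCoeff w ≠ 0) (n : ℤ) :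
    ordV k (HahnSeries.single n (1 : k) * HahnSeries.ofPowerSeries ℤ k w) = (n : WithTop ℤ) := by
  rw [AddValuation.map_mul, ind_ordV_ofPowerSeries hw, add_zero, HahnSeries.addVal_apply,
    HahnSeries.orderTop_single one_ne_zero]

end

end Fermat.Agent.S27
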