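import Mathlib
import Fermat.Agent.S27.Red.Defs
import Fermat.Agent.S27.Red.IndepOrd

set_option autoImplicit false

/-!
# S27, block C, leaf C-IND: independence of `1, y, …, y^(N-1)` over `k[x]` by pole orders

`k` a field, `w ∈ k⟦t⟧` with `w(0) ≠ 0`, `x = t^(-N) w`, `y = t^(-N-1) w`.  For `P = Σ_{b<N} g_b(X) Y^b`
the nonzero terms `g_b(x) y^b` have pairwise distinct orders `-(N deg g_b + b (N + 1))`
(distinct modulo `N`), so `P(x, y) ≠ 0` unless `P = 0`.
(`HahnSeries.order`, or `Fermat.Agent.S28.ordV` of `S28/OrderLemma.lean`.)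
-/

noncomputable section

namespace Fermat.Agent.S27

open Polynomial Fermat.Agent.S28

/-- **C-IND.** -/
theorem indepUpTo_param {k : Type*} [Field k] (N : ℕ) (hN : 0 < N) (w : PowerSeries k)
    (hw : PowerSeries.constantCoeff w ≠ 0) :
    IndepUpTo (paramX N w) (paramY N w) N := by
  refine indepUpTo_of_ord hN _ _ ?_ ?_
  · exact ind_ordV_single_mul hw _
  · have h := ind_ordV_single_mul hw (-(N : ℤ) - 1)
    have e : (-(N : ℤ) - 1) = -((N : ℤ) + 1) := by ring
    rw [← e]
    exact h

/-- `x = t^(-N) w` is transcendental. -/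
theorem pev1_paramX_injective {k : Type*} [Field k] (N : ℕ) (hN : 0 < N) (w : PowerSeries k)
    (hw : PowerSeries.constantCoeff w ≠ 0) :
    Function.Injective (pev1 (paramX N w)) :=
  pev1_injective_of_indep hN (indepUpTo_param N hN w hw)

end Fermat.Agent.S27
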