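import Mathlib
import Fermat.Agent.S27.Red.Defs

set_option autoImplicit false
set_option linter.unusedVariables false

/-!
# S27, block C, leaf C-PAR: the parametrisation at infinity (Hensel in `R⟦t⟧`)  (helper18)

`f = Y^N + Σ_{0<b<N} a_b(X) Y^b + a_0(X)` over a commutative ring `R`, `deg a_b ≤ N - b`,
`a_0 = -c X^(N+1) + (degree ≤ N)`, `c` a unit.  Then there is a power series `w` with
`w(0) c = 1` and `f(t^(-N) w, t^(-N-1) w) = 0`.

Proof.  `t^(N(N+1)) f(t^(-N) W, t^(-N-1) W) = G(W)` with
`G = W^N - c W^(N+1) + t H`, `H = Σ a_{b,a} t^(N(N+1) - a N - b (N+1) - 1) W^(a+b) ∈ R[t][W]`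
(`cpar_key`), `deg_W G = N + 1` with leading coefficient `-c` (a unit).  `G(c⁻¹) ≡ 0` and
`G'(c⁻¹) ≡ -c^(1-N)` (a unit) modulo `t`; `R⟦t⟧` is `t`-adically complete, hence Henselian
(Mathlib: `IsAdicComplete (span {X}) R⟦X⟧`, `HenselianRing.is_henselian` for the monic `-c⁻¹ G`).
Uniqueness: Taylor expansion of `G` at `w`.
-/

noncomputable section

namespace Fermat.Agent.S27

open Polynomial Fermat.Agent.S28

variable {R : Type*} [CommRing R]

/-! ### monomials -/

/-- `t^(N(N+1)) x^a y^b = t^e w^(a+b)` for `e + a N + b (N+1) = N (N+1)`. -/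
theorem cpar_mono (N : ℕ) (w : PowerSeries R) (a b e : ℕ)
    (he : e + a * N + b * (N + 1) = N * (N + 1)) (r : R) :
    HahnSeries.single ((N * (N + 1) : ℕ) : ℤ) (1 : R) *
        (HahnSeries.C r * paramX N w ^ a * paramY N w ^ b) =
      HahnSeries.ofPowerSeries ℤ R (PowerSeries.C r * PowerSeries.X ^ e * w ^ (a + b)) := by
  have hexp : ((N * (N + 1) : ℕ) : ℤ) + (a • (-(N : ℤ)) + b • (-(N : ℤ) - 1)) = (e : ℤ) := by
    have he' : (e : ℤ) + a * N + b * (N + 1) = N * (N + 1) := by exact_mod_cast he
    rw [nsmul_eq_mul, nsmul_eq_mul]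
    push_cast
    linarith
  have hT : HahnSeries.single ((N * (N + 1) : ℕ) : ℤ) (1 : R) *
      (HahnSeries.single (-(N : ℤ)) (1 : R) ^ a * HahnSeries.single (-(N : ℤ) - 1) (1 : R) ^ b) =
      HahnSeries.single ((e : ℕ) : ℤ) (1 : R) := by
    rw [HahnSeries.single_pow, HahnSeries.single_pow, one_pow, one_pow,
      HahnSeries.single_mul_single, HahnSeries.single_mul_single, one_mul, one_mul, hexp]
  have hR : HahnSeries.ofPowerSeries ℤ R (PowerSeries.C r * PowerSeries.X ^ e * w ^ (a + b)) =
      HahnSeries.C r * HahnSeries.single ((e : ℕ) : ℤ) (1 : R) *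
        (HahnSeries.ofPowerSeries ℤ R w) ^ (a + b) := by
    rw [map_mul, map_mul, HahnSeries.ofPowerSeries_C, HahnSeries.ofPowerSeries_X_pow, map_pow]
  rw [hR, ← hT]
  unfold paramX paramY
  rw [mul_pow, mul_pow, pow_add]
  ring

/-! ### the polynomial `G` -/

/-- the part of `G` divisible by `t` -/
def cparH (N : ℕ) (f : R[X][X]) : (PowerSeries R)[X] :=
  ∑ b ∈ Finset.range N, ∑ a ∈ Finset.range (N - b + 1),
    C (PowerSeries.C ((f.coeff b).coeff a) *
      PowerSeries.X ^ (N * (N + 1) - a * N - b * (N + 1) - 1)) * X ^ (a + b)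

/-- `G = W^N - c W^(N+1) + t H` -/
def cparG (N : ℕ) (f : R[X][X]) (c : R) : (PowerSeries R)[X] :=
  X ^ N - C (PowerSeries.C c) * X ^ (N + 1) + C PowerSeries.X * cparH N f

theorem natDegree_cparH_le (N : ℕ) (f : R[X][X]) : (cparH N f).natDegree ≤ N := by
  unfold cparH
  refine natDegree_sum_le_of_forall_le _ _ (fun b hb => ?_)
  refine natDegree_sum_le_of_forall_le _ _ (fun a ha => ?_)
  rw [Finset.mem_range] at hb ha
  exact (natDegree_C_mul_X_pow_le _ _).trans (by omega)

theorem natDegree_cparG_le (N : ℕ) (f : R[X][X]) (c : R) : (cparG N f c).natDegree ≤ N + 1 := by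
  unfold cparG
  refine (natDegree_add_le _ _).trans (max_le ((natDegree_sub_le _ _).trans (max_le ?_ ?_)) ?_)
  · exact (natDegree_X_pow_le N).trans (Nat.le_succ N)
  · exact natDegree_C_mul_X_pow_le _ _
  · exact (natDegree_C_mul_le _ _).trans ((natDegree_cparH_le N f).trans (Nat.le_succ N))

theorem coeff_cparG (N : ℕ) (f : R[X][X]) (c : R) :
    (cparG N f c).coeff (N + 1) = -PowerSeries.C c := by
  unfold cparG
  rw [coeff_add, coeff_sub, coeff_X_pow, coeff_C_mul, coeff_X_pow, coeff_C_mul,
    coeff_eq_zero_of_natDegree_lt (Nat.lt_succ_of_le (natDegree_cparH_le N f)), if_neg (by omega),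
    if_pos rfl]
  ring

/-- the reduction of `G` modulo `t` -/
theorem map_cparG (N : ℕ) (f : R[X][X]) (c : R) :
    (cparG N f c).map PowerSeries.constantCoeff = X ^ N - C c * X ^ (N + 1) := by
  unfold cparG
  rw [Polynomial.map_add, Polynomial.map_sub, Polynomial.map_mul, Polynomial.map_mul,
    Polynomial.map_pow, Polynomial.map_pow, Polynomial.map_X, Polynomial.map_C, Polynomial.map_C,
    PowerSeries.constantCoeff_C, PowerSeries.constantCoeff_X, C_0, zero_mul, add_zero]

/-- the constant coefficient of a value of a polynomial -/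
theorem cpar_constantCoeff_eval (p : (PowerSeries R)[X]) (w : PowerSeries R) :
    PowerSeries.constantCoeff (p.eval w) =
      (p.map PowerSeries.constantCoeff).eval (PowerSeries.constantCoeff w) := by
  rw [eval_map, ← Polynomial.eval₂_at_apply]

/-! ### the key identity -/

theorem cpar_key (N : ℕ) (hN : 0 < N) (f : R[X][X])
    (hm : f.Monic) (hd : f.natDegree = N)
    (hmid : ∀ b : ℕ, 0 < b → b < N → (f.coeff b).natDegree ≤ N - b)
    (h0 : (f.coeff 0).natDegree ≤ N + 1)
    (c : R) (htop : (f.coeff 0).coeff (N + 1) = -c) (w : PowerSeries R) :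
    HahnSeries.single ((N * (N + 1) : ℕ) : ℤ) (1 : R) * pev2 (paramX N w) (paramY N w) f =
      HahnSeries.ofPowerSeries ℤ R ((cparG N f c).eval w) := by
  -- the expansion of `f`
  have hf : f = X ^ N + ∑ b ∈ Finset.range N, C (f.coeff b) * X ^ b := by
    have := hm.as_sum
    rwa [hd] at this
  -- the expansion of the coefficients
  have hcoef : ∀ b ∈ Finset.range N, f.coeff b =
      (∑ a ∈ Finset.range (N - b + 1), C ((f.coeff b).coeff a) * X ^ a) +
        (if b = 0 then C (-c) * X ^ (N + 1) else 0) := by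
    intro b hb
    rw [Finset.mem_range] at hb
    by_cases hb0 : b = 0
    · subst hb0
      rw [if_pos rfl, Nat.sub_zero, ← htop, ← Finset.sum_range_succ (fun a =>
        C ((f.coeff 0).coeff a) * X ^ a)]
      exact as_sum_range_C_mul_X_pow' _ (Nat.lt_succ_of_le h0)
    · rw [if_neg hb0, add_zero]
      exact as_sum_range_C_mul_X_pow' _ (Nat.lt_succ_of_le (hmid b (Nat.pos_of_ne_zero hb0) hb))
  -- the top term
  have htopY : HahnSeries.single ((N * (N + 1) : ℕ) : ℤ) (1 : R) * paramY N w ^ N =
      HahnSeries.ofPowerSeries ℤ R (w ^ N) := by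
    have := cpar_mono N w 0 N 0 (by ring) (1 : R)
    rw [map_one (HahnSeries.C : R →+* HahnSeries ℤ R), map_one (PowerSeries.C : R →+* PowerSeries R),
      pow_zero, pow_zero, zero_add] at this
    simp only [one_mul] at this
    exact this
  have htopX : HahnSeries.single ((N * (N + 1) : ℕ) : ℤ) (1 : R) *
      (HahnSeries.C (-c) * paramX N w ^ (N + 1)) =
      HahnSeries.ofPowerSeries ℤ R (-(PowerSeries.C c * w ^ (N + 1))) := by
    have := cpar_mono N w (N + 1) 0 0 (by ring) (-c)
    rw [pow_zero, mul_one, pow_zero, mul_one, add_zero] at this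
    rw [this, map_neg (PowerSeries.C : R →+* PowerSeries R), neg_mul]
  -- the other terms
  have hterm : ∀ b ∈ Finset.range N, ∀ a ∈ Finset.range (N - b + 1),
      HahnSeries.single ((N * (N + 1) : ℕ) : ℤ) (1 : R) *
        (HahnSeries.C ((f.coeff b).coeff a) * paramX N w ^ a * paramY N w ^ b) =
      HahnSeries.ofPowerSeries ℤ R (PowerSeries.X *
        (PowerSeries.C ((f.coeff b).coeff a) *
          PowerSeries.X ^ (N * (N + 1) - a * N - b * (N + 1) - 1) * w ^ (a + b))) := by
    intro b hb a ha
    rw [Finset.mem_range] at hb ha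
    have h1 : a * N + b * N ≤ N * N := by
      have := Nat.mul_le_mul_right N (show a + b ≤ N by omega)
      rwa [add_mul] at this
    have h2 : N * (N + 1) = N * N + N := by ring
    have h3 : b * (N + 1) = b * N + b := by ring
    have he : (N * (N + 1) - a * N - b * (N + 1) - 1 + 1) + a * N + b * (N + 1) = N * (N + 1) := by
      rw [h2, h3]
      generalize a * N = p at h1 ⊢
      generalize b * N = q at h1 ⊢
      generalize N * N = s at h1 ⊢
      omega
    rw [cpar_mono N w a b _ he, pow_succ]
    congr 1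
    ring
  -- assembly
  have hL : pev2 (paramX N w) (paramY N w) f = paramY N w ^ N +
      ((∑ b ∈ Finset.range N, ∑ a ∈ Finset.range (N - b + 1),
        HahnSeries.C ((f.coeff b).coeff a) * paramX N w ^ a * paramY N w ^ b) +
        HahnSeries.C (-c) * paramX N w ^ (N + 1)) := by
    conv_lhs => rw [hf]
    rw [map_add, map_pow, pev2_X, map_sum]
    congr 1
    have h4 : ∀ b ∈ Finset.range N, pev2 (paramX N w) (paramY N w) (C (f.coeff b) * X ^ b) =
        (∑ a ∈ Finset.range (N - b + 1),
          HahnSeries.C ((f.coeff b).coeff a) * paramX N w ^ a * paramY N w ^ b) +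
          (if b = 0 then HahnSeries.C (-c) * paramX N w ^ (N + 1) else 0) := by
      intro b hb
      rw [map_mul, map_pow, pev2_X, pev2_C]
      conv_lhs => rw [hcoef b hb]
      rw [map_add, map_sum, add_mul, Finset.sum_mul]
      congr 1
      · refine Finset.sum_congr rfl (fun a _ => ?_)
        rw [map_mul, map_pow, pev1_C, pev1_X]
      · by_cases hb0 : b = 0
        · subst hb0
          rw [if_pos rfl, if_pos rfl, map_mul, map_pow, pev1_C, pev1_X, pow_zero, mul_one]
        · rw [if_neg hb0, if_neg hb0, map_zero, zero_mul]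
    rw [Finset.sum_congr rfl h4, Finset.sum_add_distrib, Finset.sum_ite_eq' (Finset.range N) 0,
      if_pos (Finset.mem_range.mpr hN)]
  have hR : (cparG N f c).eval w = w ^ N + ((∑ b ∈ Finset.range N,
      ∑ a ∈ Finset.range (N - b + 1), PowerSeries.X *
        (PowerSeries.C ((f.coeff b).coeff a) *
          PowerSeries.X ^ (N * (N + 1) - a * N - b * (N + 1) - 1) * w ^ (a + b))) +
      -(PowerSeries.C c * w ^ (N + 1))) := by
    unfold cparG cparH
    rw [eval_add, eval_sub, eval_pow, eval_X, eval_mul, eval_C, eval_pow, eval_X, eval_mul,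
      eval_C, eval_finsetSum, Finset.mul_sum]
    have h5 : ∀ b ∈ Finset.range N, PowerSeries.X * eval w (∑ a ∈ Finset.range (N - b + 1),
        C (PowerSeries.C ((f.coeff b).coeff a) *
          PowerSeries.X ^ (N * (N + 1) - a * N - b * (N + 1) - 1)) * X ^ (a + b)) =
        ∑ a ∈ Finset.range (N - b + 1), PowerSeries.X *
          (PowerSeries.C ((f.coeff b).coeff a) *
            PowerSeries.X ^ (N * (N + 1) - a * N - b * (N + 1) - 1) * w ^ (a + b)) := by
      intro b _
      rw [eval_finsetSum, Finset.mul_sum]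
      refine Finset.sum_congr rfl (fun a _ => ?_)
      rw [eval_mul, eval_C, eval_pow, eval_X]
    rw [Finset.sum_congr rfl h5]
    ring
  rw [hL, hR]
  generalize HahnSeries.single ((N * (N + 1) : ℕ) : ℤ) (1 : R) = T at htopY htopX hterm ⊢
  rw [mul_add, mul_add, Finset.mul_sum, map_add, map_add, map_sum, htopY, htopX]
  congr 2
  refine Finset.sum_congr rfl (fun b hb => ?_)
  rw [Finset.mul_sum, map_sum]
  exact Finset.sum_congr rfl (fun a ha => hterm b hb a ha)

/-- `f(t^(-N) w, t^(-N-1) w) = 0 ↔ G(w) = 0`. -/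
theorem cpar_root_iff (N : ℕ) (hN : 0 < N) (f : R[X][X])
    (hm : f.Monic) (hd : f.natDegree = N)
    (hmid : ∀ b : ℕ, 0 < b → b < N → (f.coeff b).natDegree ≤ N - b)
    (h0 : (f.coeff 0).natDegree ≤ N + 1)
    (c : R) (htop : (f.coeff 0).coeff (N + 1) = -c) (w : PowerSeries R) :
    pev2 (paramX N w) (paramY N w) f = 0 ↔ (cparG N f c).eval w = 0 := by
  have key := cpar_key N hN f hm hd hmid h0 c htop w
  constructor
  · intro h
    rw [h, mul_zero] at key
    exact HahnSeries.ofPowerSeries_injective (by rw [← key, map_zero])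
  · intro h
    rw [h, map_zero] at key
    have h1 : HahnSeries.single (-((N * (N + 1) : ℕ) : ℤ)) (1 : R) *
        (HahnSeries.single ((N * (N + 1) : ℕ) : ℤ) (1 : R) *
          pev2 (paramX N w) (paramY N w) f) = 0 := by rw [key, mul_zero]
    rwa [← mul_assoc, HahnSeries.single_mul_single, neg_add_cancel, one_mul,
      HahnSeries.single_zero_one, one_mul] at h1

/-! ### Hensel -/

/-- the value of the reduction of `G` at `u = c⁻¹`. -/
theorem cpar_eval_red (N : ℕ) (c u : R) (hu : u * c = 1) :
    (X ^ N - C c * X ^ (N + 1) : R[X]).eval u = 0 := by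
  rw [eval_sub, eval_pow, eval_X, eval_mul, eval_C, eval_pow, eval_X, pow_succ]
  have : c * (u ^ N * u) = u ^ N * (u * c) := by ring
  rw [this, hu, mul_one, sub_self]

/-- the value of the derivative of the reduction of `G` at `u = c⁻¹`. -/
theorem cpar_eval_derivative_red (N : ℕ) (hN : 0 < N) (c u : R) (hu : u * c = 1) :
    (derivative (X ^ N - C c * X ^ (N + 1) : R[X])).eval u * (-u) = u ^ N := by
  obtain ⟨n, rfl⟩ : ∃ n, N = n + 1 := ⟨N - 1, by omega⟩
  rw [derivative_sub, derivative_X_pow, derivative_mul, derivative_C, zero_mul, zero_add,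
    derivative_X_pow]
  simp only [eval_sub, eval_mul, eval_C, eval_pow, eval_X, Nat.add_sub_cancel]
  push_cast
  linear_combination (((n : R) + 2) * u ^ (n + 1)) * hu

/-- **C-PAR.** -/
theorem exists_param {R : Type*} [CommRing R] (N : ℕ) (hN : 0 < N) (f : R[X][X])
    (hm : f.Monic) (hd : f.natDegree = N)
    (hmid : ∀ b : ℕ, 0 < b → b < N → (f.coeff b).natDegree ≤ N - b)
    (h0 : (f.coeff 0).natDegree ≤ N + 1)
    (c : R) (hc : IsUnit c) (htop : (f.coeff 0).coeff (N + 1) = -c) :
    ∃ w : PowerSeries R, PowerSeries.constantCoeff w * c = 1 ∧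
      pev2 (paramX N w) (paramY N w) f = 0 := by
  obtain ⟨u, hu⟩ : ∃ u : R, u * c = 1 := ⟨↑hc.unit⁻¹, hc.val_inv_mul⟩
  have huU : IsUnit u := IsUnit.of_mul_eq_one c hu
  -- the monic polynomial
  have hgm : (C (PowerSeries.C (-u)) * cparG N f c).Monic := by
    refine monic_of_natDegree_le_of_coeff_eq_one (N + 1)
      ((natDegree_C_mul_le _ _).trans (natDegree_cparG_le N f c)) ?_
    rw [coeff_C_mul, coeff_cparG, ← map_neg, ← map_mul, neg_mul_neg, hu, map_one]
  have hmap : (C (PowerSeries.C (-u)) * cparG N f c).map PowerSeries.constantCoeff =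
      C (-u) * (X ^ N - C c * X ^ (N + 1)) := by
    rw [Polynomial.map_mul, Polynomial.map_C, PowerSeries.constantCoeff_C, map_cparG]
  have h1 : (C (PowerSeries.C (-u)) * cparG N f c).eval (PowerSeries.C u) ∈
      Ideal.span {(PowerSeries.X : PowerSeries R)} := by
    rw [Ideal.mem_span_singleton, PowerSeries.X_dvd_iff, cpar_constantCoeff_eval, hmap,
      PowerSeries.constantCoeff_C, eval_mul, cpar_eval_red N c u hu, mul_zero]
  have h2 : IsUnit (Ideal.Quotient.mk (Ideal.span {(PowerSeries.X : PowerSeries R)})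
      ((derivative (C (PowerSeries.C (-u)) * cparG N f c)).eval (PowerSeries.C u))) := by
    apply IsUnit.map
    rw [PowerSeries.isUnit_iff_constantCoeff, cpar_constantCoeff_eval, ← derivative_map, hmap,
      PowerSeries.constantCoeff_C, derivative_C_mul, eval_mul, eval_C, mul_comm,
      cpar_eval_derivative_red N hN c u hu]
    exact huU.pow N
  obtain ⟨w, hw, hw'⟩ := HenselianRing.is_henselian (R := PowerSeries R)
    (I := Ideal.span {(PowerSeries.X : PowerSeries R)}) _ hgm (PowerSeries.C u) h1 h2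
  have hconst : PowerSeries.constantCoeff w = u := by
    rw [Ideal.mem_span_singleton, PowerSeries.X_dvd_iff, map_sub, PowerSeries.constantCoeff_C,
      sub_eq_zero] at hw'
    exact hw'
  refine ⟨w, by rw [hconst, hu], ?_⟩
  rw [cpar_root_iff N hN f hm hd hmid h0 c htop]
  have hw0 : (C (PowerSeries.C (-u)) * cparG N f c).eval w = 0 := hw
  rw [eval_mul, eval_C] at hw0
  have hunit : IsUnit (PowerSeries.C (-u) : PowerSeries R) := (huU.neg).map _
  exact (hunit.mul_right_eq_zero).mp hw0

/-- **C-PAR, uniqueness** (needed for the compatibility of the reductions under extension of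
the valued field, block E). -/
theorem param_unique {R : Type*} [CommRing R] (N : ℕ) (hN : 0 < N) (f : R[X][X])
    (hm : f.Monic) (hd : f.natDegree = N)
    (hmid : ∀ b : ℕ, 0 < b → b < N → (f.coeff b).natDegree ≤ N - b)
    (h0 : (f.coeff 0).natDegree ≤ N + 1)
    (c : R) (hc : IsUnit c) (htop : (f.coeff 0).coeff (N + 1) = -c)
    (w w' : PowerSeries R) (hw : PowerSeries.constantCoeff w * c = 1)
    (hw' : PowerSeries.constantCoeff w' * c = 1)
    (h : pev2 (paramX N w) (paramY N w) f = 0) (h' : pev2 (paramX N w') (paramY N w') f = 0) :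
    w = w' := by
  rw [cpar_root_iff N hN f hm hd hmid h0 c htop] at h h'
  have huU : IsUnit (PowerSeries.constantCoeff w) := IsUnit.of_mul_eq_one c hw
  have hcc : PowerSeries.constantCoeff w' = PowerSeries.constantCoeff w := by
    have e : PowerSeries.constantCoeff w' * c * PowerSeries.constantCoeff w =
        PowerSeries.constantCoeff w * c * PowerSeries.constantCoeff w' := by ring
    rw [hw, hw', one_mul, one_mul] at e
    exact e.symm
  obtain ⟨k, hk⟩ := binomExpansion (cparG N f c) w (w' - w)
  rw [add_sub_cancel, h, h', zero_add] at hk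
  -- `(w' - w) * unit = 0`
  have hfac : (w' - w) * ((derivative (cparG N f c)).eval w + k * (w' - w)) = 0 := by
    rw [hk]
    ring
  have hunit : IsUnit ((derivative (cparG N f c)).eval w + k * (w' - w)) := by
    rw [PowerSeries.isUnit_iff_constantCoeff, map_add, map_mul, map_sub, hcc, sub_self, mul_zero,
      add_zero, cpar_constantCoeff_eval, ← derivative_map, map_cparG]
    have h3 := cpar_eval_derivative_red N hN c (PowerSeries.constantCoeff w) hw
    have h4 : IsUnit ((derivative (X ^ N - C c * X ^ (N + 1) : R[X])).eval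
        (PowerSeries.constantCoeff w) * (-(PowerSeries.constantCoeff w))) := by
      rw [h3]
      exact huU.pow N
    exact isUnit_of_mul_isUnit_left h4
  have := (hunit.mul_left_eq_zero).mp hfac
  exact (sub_eq_zero.mp this).symm

end Fermat.Agent.S27
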