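import Mathlib
import Fermat.Agent.S27.Red.Defs
import Fermat.Agent.S27.Red.Param
import Fermat.Agent.S27.Red.Indep
import Fermat.Agent.S27.Red.Embed
import Fermat.Agent.Lib.GaussVal.Degree

set_option autoImplicit false
set_option linter.style.haveILetI false

/-!
# S27, block C, seat C-GAUSS, part 1: the data of the Gauss reduction  (helper75)

`M : PlaneModel K F`, `A` a valuation ring of `K` good for `M`.  `RedDatum M A` collects the
choices: the lift `fA ∈ A[X][Y]` of `f`, the parameter `w ∈ A⟦t⟧` (C-PAR) and the embedding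
`ψ : F → K((t))` (C-EMB).  For a datum `D` we define `D.xR = t^(-N) w`, `D.yR = t^(-N-1) w` and
prove the hypotheses of `Lib/GaussVal`: `D.hind` (C-IND), `D.hinj`.
-/

noncomputable section

namespace Fermat.Agent.S27

open Polynomial Fermat.Agent.S28 Fermat.Agent.GaussVal ModularCurve

section CoeffMapParam

variable {R S : Type*} [CommRing R] [CommRing S]

theorem coeffMap_ofPowerSeries (f : R →+* S) (w : PowerSeries R) :
    coeffMap f (HahnSeries.ofPowerSeries ℤ R w) =
      HahnSeries.ofPowerSeries ℤ S (PowerSeries.map f w) := by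
  ext n
  have h1 := PowerSeries.coeff_coe (f := w) n
  have h2 := PowerSeries.coeff_coe (f := PowerSeries.map f w) n
  rw [coeffMap_coeff]
  change f ((w : LaurentSeries R).coeff n) = ((PowerSeries.map f w : PowerSeries S) :
    LaurentSeries S).coeff n
  rw [h1, h2]
  split_ifs
  · exact map_zero f
  · rw [PowerSeries.coeff_map]

theorem coeffMap_paramX (f : R →+* S) (N : ℕ) (w : PowerSeries R) :
    coeffMap f (paramX N w) = paramX N (PowerSeries.map f w) := by
  unfold paramX
  rw [map_mul, coeffMap_single, coeffMap_ofPowerSeries, map_one]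

theorem coeffMap_paramY (f : R →+* S) (N : ℕ) (w : PowerSeries R) :
    coeffMap f (paramY N w) = paramY N (PowerSeries.map f w) := by
  unfold paramY
  rw [map_mul, coeffMap_single, coeffMap_ofPowerSeries, map_one]

end CoeffMapParam

section Lift

variable {K : Type*} [Field K] (A : ValuationSubring K)

/-- a bivariate polynomial with coefficients in `A` comes from `A[X][Y]`. -/
theorem exists_lift_biv (P : K[X][X]) (hP : ∀ b a : ℕ, (P.coeff b).coeff a ∈ A) :
    ∃ PA : (↥A)[X][X], PA.map (mapRingHom A.subtype) = P := by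
  classical
  have hc : ∀ b : ℕ, ((P.coeff b).coeffs : Set K) ⊆ A.toSubring := by
    intro b c hc
    rw [Finset.mem_coe, Polynomial.mem_coeffs_iff] at hc
    obtain ⟨n, -, rfl⟩ := hc
    exact hP b n
  refine ⟨∑ b ∈ Finset.range (P.natDegree + 1),
    Polynomial.monomial b ((P.coeff b).toSubring A.toSubring (hc b)), ?_⟩
  rw [Polynomial.map_sum]
  conv_rhs => rw [Polynomial.as_sum_range' P (P.natDegree + 1) (Nat.lt_succ_self _)]
  refine Finset.sum_congr rfl fun b _ => ?_
  rw [Polynomial.map_monomial]
  congr 1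
  exact Polynomial.map_toSubring (P.coeff b) A.toSubring (hc b)

end Lift

variable {K F : Type*} [Field K] [Field F] [Algebra K F]

/-- The choices made in the construction of the Gauss reduction of `F` at `A`. -/
structure RedDatum (M : PlaneModel K F) (A : ValuationSubring K) where
  /-- the equation over `A` -/
  fA : (↥A)[X][X]
  fA_map : fA.map (mapRingHom A.subtype) = M.f
  /-- the parameter -/
  w : PowerSeries ↥A
  /-- `c` as an element of `A` -/
  cA : ↥A
  cA_eq : (cA : K) = M.c
  hw : PowerSeries.constantCoeff w * cA = 1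
  root : pev2 (paramX M.N w) (paramY M.N w) fA = 0
  /-- the embedding -/
  ψ : F →ₐ[K] LaurentSeries K
  ψ_x : ψ M.x = coeffMap A.subtype (paramX M.N w)
  ψ_y : ψ M.y = coeffMap A.subtype (paramY M.N w)
  ψ_ev : ∀ P : K[X][X], ψ (pmEv M.x M.y P) =
    pev2 (coeffMap A.subtype (paramX M.N w)) (coeffMap A.subtype (paramY M.N w)) P
  ψ_inTL : ∀ z : F,
    InTL (coeffMap A.subtype (paramX M.N w)) (coeffMap A.subtype (paramY M.N w)) (ψ z)
  fact_ne_zero : ((M.N.factorial : ℕ) : K) ≠ 0
  fact_inv_mem : (((M.N.factorial : ℕ) : K))⁻¹ ∈ A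

namespace RedDatum

variable {M : PlaneModel K F} {A : ValuationSubring K} (D : RedDatum M A)

/-- the residue field -/
abbrev kk (_D : RedDatum M A) : Type _ := IsLocalRing.ResidueField ↥A

/-- the residue map -/
abbrev rr (_D : RedDatum M A) : ↥A →+* IsLocalRing.ResidueField ↥A := IsLocalRing.residue ↥A

/-- `x` as a Laurent series over `A` -/
def xR : LaurentSeries ↥A := paramX M.N D.w

/-- `y` as a Laurent series over `A` -/
def yR : LaurentSeries ↥A := paramY M.N D.w

/-- the reduced parameter -/
def wbar : PowerSeries (IsLocalRing.ResidueField ↥A) := PowerSeries.map (IsLocalRing.residue ↥A) D.w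

theorem constantCoeff_wbar_ne_zero : PowerSeries.constantCoeff D.wbar ≠ 0 := by
  intro h0
  have h1 : PowerSeries.constantCoeff D.wbar =
      IsLocalRing.residue ↥A (PowerSeries.constantCoeff D.w) := by
    unfold wbar
    rw [← PowerSeries.coeff_zero_eq_constantCoeff_apply, PowerSeries.coeff_map,
      PowerSeries.coeff_zero_eq_constantCoeff_apply]
  have h2 := congrArg (IsLocalRing.residue ↥A) D.hw
  rw [map_mul, ← h1, h0, zero_mul, map_one] at h2
  exact zero_ne_one h2

theorem hv (_D : RedDatum M A) :
    VTriple (R := ↥A) (k := IsLocalRing.ResidueField ↥A) A.subtype (IsLocalRing.residue ↥A) :=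
  vTriple_valuationSubring A

theorem hind : IndepUpTo (coeffMap (IsLocalRing.residue ↥A) D.xR)
    (coeffMap (IsLocalRing.residue ↥A) D.yR) M.N := by
  unfold xR yR
  rw [coeffMap_paramX, coeffMap_paramY]
  exact indepUpTo_param M.N M.hN D.wbar D.constantCoeff_wbar_ne_zero

theorem hinj : Function.Injective (pev1 (coeffMap (IsLocalRing.residue ↥A) D.xR)) :=
  pev1_injective_of_indep M.hN D.hind

theorem hinjL : Function.Injective (pev1 (coeffMap A.subtype D.xR)) :=
  pev1_coeffMap_injective D.hv D.hinj

theorem map_injective (_D : RedDatum M A) :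
    Function.Injective (mapRingHom (A.subtype : ↥A →+* K)) :=
  Polynomial.map_injective _ Subtype.val_injective

theorem fA_monic : D.fA.Monic := by
  have h : (D.fA.map (mapRingHom A.subtype)).Monic := by rw [D.fA_map]; exact M.monic
  exact Polynomial.monic_of_injective D.map_injective h

theorem fA_natDegree : D.fA.natDegree = M.N := by
  rw [← Polynomial.natDegree_map_eq_of_injective D.map_injective, D.fA_map]
  exact M.natDegree_f

theorem fA_root : pev2 D.xR D.yR D.fA = 0 := D.root

/-- the reduced equation -/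
def fbar : (IsLocalRing.ResidueField ↥A)[X][X] := D.fA.map (mapRingHom (IsLocalRing.residue ↥A))

theorem fbar_monic : D.fbar.Monic := D.fA_monic.map _

theorem fbar_natDegree : D.fbar.natDegree = M.N := by
  unfold fbar
  rw [D.fA_monic.natDegree_map, D.fA_natDegree]

theorem fbar_root : pev2 (coeffMap (IsLocalRing.residue ↥A) D.xR)
    (coeffMap (IsLocalRing.residue ↥A) D.yR) D.fbar = 0 := by
  unfold fbar
  rw [← coeffMap_pev2, D.fA_root, map_zero]

theorem fL_root : pev2 (coeffMap A.subtype D.xR) (coeffMap A.subtype D.yR) M.f = 0 := by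
  rw [← D.fA_map, ← coeffMap_pev2, D.fA_root, map_zero]

end RedDatum

/-- **existence of the datum** (from C-PAR and C-EMB). -/
theorem nonempty_redDatum (M : PlaneModel K F) (A : ValuationSubring K) (h : M.IntegralAt A) :
    Nonempty (RedDatum M A) := by
  obtain ⟨fA, hfA⟩ := exists_lift_biv A M.f h.coeff_mem
  have hinjm : Function.Injective (mapRingHom (A.subtype : ↥A →+* K)) :=
    Polynomial.map_injective _ Subtype.val_injective
  have hcoeff : ∀ b : ℕ, (fA.coeff b).map A.subtype = M.f.coeff b := by
    intro b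
    rw [← hfA, Polynomial.coeff_map]
    rfl
  have hnd : ∀ b : ℕ, (fA.coeff b).natDegree = (M.f.coeff b).natDegree := by
    intro b
    rw [← hcoeff b, Polynomial.natDegree_map_eq_of_injective Subtype.val_injective]
  have hcmem : M.c ∈ A := by
    have h1 := h.coeff_mem 0 (M.N + 1)
    rw [M.top] at h1
    have h2 := A.neg_mem _ h1
    rwa [neg_neg] at h2
  have hcu : IsUnit (⟨M.c, hcmem⟩ : ↥A) := by
    refine IsUnit.of_mul_eq_one (⟨M.c⁻¹, h.c_inv_mem⟩ : ↥A) ?_
    apply Subtype.ext
    show M.c * M.c⁻¹ = 1
    exact mul_inv_cancel₀ M.hc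
  have hm : fA.Monic := by
    have h1 : (fA.map (mapRingHom A.subtype)).Monic := by rw [hfA]; exact M.monic
    exact Polynomial.monic_of_injective hinjm h1
  have hd : fA.natDegree = M.N := by
    rw [← Polynomial.natDegree_map_eq_of_injective hinjm, hfA]
    exact M.natDegree_f
  have htop : (fA.coeff 0).coeff (M.N + 1) = -(⟨M.c, hcmem⟩ : ↥A) := by
    apply Subtype.ext
    have h1 : ((fA.coeff 0).map A.subtype).coeff (M.N + 1) = -M.c := by
      rw [hcoeff 0, M.top]
    rw [Polynomial.coeff_map] at h1
    exact h1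
  obtain ⟨w, hw, hroot⟩ := exists_param M.N M.hN fA hm hd
    (fun b hb hbN => by rw [hnd b]; exact M.deg_mid b hb hbN)
    (by rw [hnd 0]; exact M.deg_zero) ⟨M.c, hcmem⟩ hcu htop
  -- the reduction data
  have hwbar : PowerSeries.constantCoeff (PowerSeries.map (IsLocalRing.residue ↥A) w) ≠ 0 := by
    intro h0
    have h1 : PowerSeries.constantCoeff (PowerSeries.map (IsLocalRing.residue ↥A) w) =
        IsLocalRing.residue ↥A (PowerSeries.constantCoeff w) := by
      rw [← PowerSeries.coeff_zero_eq_constantCoeff_apply, PowerSeries.coeff_map,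
        PowerSeries.coeff_zero_eq_constantCoeff_apply]
    have h2 := congrArg (IsLocalRing.residue ↥A) hw
    rw [map_mul, ← h1, h0, zero_mul, map_one] at h2
    exact zero_ne_one h2
  have hind : IndepUpTo (coeffMap (IsLocalRing.residue ↥A) (paramX M.N w))
      (coeffMap (IsLocalRing.residue ↥A) (paramY M.N w)) M.N := by
    rw [coeffMap_paramX, coeffMap_paramY]
    exact indepUpTo_param M.N M.hN _ hwbar
  have hinj := pev1_injective_of_indep M.hN hind
  have hinjL : Function.Injective (pev1 (coeffMap A.subtype (paramX M.N w))) :=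
    pev1_coeffMap_injective (vTriple_valuationSubring A) hinj
  have hrootL : pev2 (coeffMap A.subtype (paramX M.N w)) (coeffMap A.subtype (paramY M.N w))
      M.f = 0 := by
    rw [← hfA, ← coeffMap_pev2, hroot, map_zero]
  obtain ⟨ψ, hψx, hψy, hψev, hψT⟩ := exists_embedding M _ _ hrootL hinjL
  exact ⟨{ fA := fA, fA_map := hfA, w := w, cA := ⟨M.c, hcmem⟩, cA_eq := rfl, hw := hw,
           root := hroot, ψ := ψ, ψ_x := hψx, ψ_y := hψy, ψ_ev := hψev, ψ_inTL := hψT,
           fact_ne_zero := h.fact_ne_zero, fact_inv_mem := h.fact_inv_mem }⟩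

end Fermat.Agent.S27
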