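import Mathlib
import Fermat.Agent.S27.Red.Gauss
import Fermat.Agent.S27.Red.GaussStmt

set_option autoImplicit false
set_option linter.style.haveILetI false
set_option synthInstance.maxHeartbeats 400000

/-!
# S27, block C, seat C-GAUSS, part 2: the reduction model  (helper75)

For a datum `D : RedDatum M A`:
* `D.O`   : the Gauss valuation ring of `F` (`= ψ⁻¹ (Ov)`, `Ov` of `Lib/GaussVal`);
* `D.Fk`  : the residue field `k(x̄, ȳ) ⊆ k((t))`;
* `D.rho` : the reduction map `O → Fk`;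
* `D.redModel : S27GR.RedModel K k F Fk`, `D.degData : DegData D.redModel N`.
-/

noncomputable section

namespace Fermat.Agent.S27

open Polynomial Fermat.Agent.S28 Fermat.Agent.GaussVal ModularCurve IntermediateField

/-- a finite extension of degree `n` with `n! ≠ 0` is separable. -/
theorem isSeparable_of_factorial_ne_zero {E L : Type*} [Field E] [Field L] [Algebra E L]
    [FiniteDimensional E L] (n : ℕ) (hn : Module.finrank E L = n)
    (hfact : ((n.factorial : ℕ) : E) ≠ 0) : Algebra.IsSeparable E L := by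
  refine ⟨fun x => ?_⟩
  have hint : IsIntegral E x := Algebra.IsIntegral.isIntegral x
  have hirr := minpoly.irreducible hint
  show (minpoly E x).Separable
  rw [Polynomial.separable_iff_derivative_ne_zero hirr]
  intro h0
  have hd1 : 0 < (minpoly E x).natDegree := minpoly.natDegree_pos hint
  have hd2 : (minpoly E x).natDegree ≤ n := by
    rw [← hn]; exact minpoly.natDegree_le x
  have hc := congrArg (fun p => Polynomial.coeff p ((minpoly E x).natDegree - 1)) h0
  simp only [Polynomial.coeff_derivative, Polynomial.coeff_zero] at hc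
  have h1 : (minpoly E x).natDegree - 1 + 1 = (minpoly E x).natDegree := Nat.sub_add_cancel hd1
  rw [h1, Polynomial.coeff_natDegree, (minpoly.monic hint).leadingCoeff, one_mul] at hc
  have h2 : (((minpoly E x).natDegree - 1 : ℕ) : E) + 1 = (((minpoly E x).natDegree : ℕ) : E) := by
    rw [← Nat.cast_one (R := E), ← Nat.cast_add, h1]
  rw [h2] at hc
  apply hfact
  have hdvd : (minpoly E x).natDegree ∣ n.factorial := Nat.dvd_factorial hd1 hd2
  obtain ⟨m, hm⟩ := hdvd
  rw [hm, Nat.cast_mul, hc, zero_mul]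

variable {K F : Type*} [Field K] [Field F] [Algebra K F]

namespace RedDatum

variable {M : PlaneModel K F} {A : ValuationSubring K} (D : RedDatum M A)

/-- the Gauss ring inside `K((t))` -/
abbrev OvS : Subring (LaurentSeries K) :=
  Ov A.subtype (IsLocalRing.residue ↥A) D.xR D.yR

/-- the reduction map on `OvS` -/
def rhoS : ↥D.OvS →+* LaurentSeries (IsLocalRing.ResidueField ↥A) :=
  Fermat.Agent.GaussVal.rho A.subtype (IsLocalRing.residue ↥A) D.xR D.yR D.hv.inj D.hinj

theorem ψ_inTL' (z : F) : InTL (coeffMap A.subtype D.xR) (coeffMap A.subtype D.yR) (D.ψ z) :=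
  D.ψ_inTL z

theorem ψ_injective : Function.Injective D.ψ := D.ψ.toRingHom.injective

/-- **the Gauss valuation ring of `F`**. -/
def O : ValuationSubring F :=
  { D.OvS.comap (D.ψ : F →+* LaurentSeries K) with
    mem_or_inv_mem' := fun z => by
      rcases mem_or_inv_mem_Ov D.hv D.fA D.fA_monic D.fA_natDegree M.hN D.fA_root D.hind D.hinj
        (D.ψ_inTL' z) with h | h
      · exact Or.inl h
      · right
        show D.ψ z⁻¹ ∈ D.OvS
        rw [map_inv₀]
        exact h }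

theorem mem_O_iff (z : F) : z ∈ D.O ↔ D.ψ z ∈ D.OvS := Iff.rfl

/-- the map `O → OvS` induced by `ψ` -/
def toOv : ↥D.O →+* ↥D.OvS where
  toFun z := ⟨D.ψ z.1, z.2⟩
  map_one' := Subtype.ext (map_one D.ψ)
  map_mul' a b := Subtype.ext (map_mul D.ψ a.1 b.1)
  map_zero' := Subtype.ext (map_zero D.ψ)
  map_add' a b := Subtype.ext (map_add D.ψ a.1 b.1)

theorem coe_toOv (z : ↥D.O) : ((D.toOv z : ↥D.OvS) : LaurentSeries K) = D.ψ z.1 := rfl

/-- `x̄` -/
def xbarS : LaurentSeries (IsLocalRing.ResidueField ↥A) := coeffMap (IsLocalRing.residue ↥A) D.xR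

/-- `ȳ` -/
def ybarS : LaurentSeries (IsLocalRing.ResidueField ↥A) := coeffMap (IsLocalRing.residue ↥A) D.yR

theorem hinj' : Function.Injective (pev1 D.xbarS) := D.hinj

/-- **the residue field** `k(x̄, ȳ)`. -/
abbrev Fk : IntermediateField (IsLocalRing.ResidueField ↥A)
    (LaurentSeries (IsLocalRing.ResidueField ↥A)) :=
  IntermediateField.adjoin (IsLocalRing.ResidueField ↥A)
    ({D.xbarS, D.ybarS} : Set (LaurentSeries (IsLocalRing.ResidueField ↥A)))

theorem mem_Fk_iff (z : LaurentSeries (IsLocalRing.ResidueField ↥A)) :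
    z ∈ D.Fk ↔ InTL D.xbarS D.ybarS z :=
  ⟨fun h => inTL_of_mem_adjoin D.xbarS D.ybarS D.hinj' D.fbar D.fbar_monic D.fbar_root h,
    fun h => mem_adjoin_of_inTL D.hinj' h⟩

theorem rhoS_mem (x : ↥D.OvS) : D.rhoS x ∈ D.Fk := by
  rw [mem_Fk_iff]
  exact (rho_mem_range_iff D.hv IsLocalRing.residue_surjective D.hinj _).mp ⟨x, rfl⟩

/-- **the reduction map**. -/
def rho : ↥D.O →+* ↥D.Fk :=
  (D.rhoS.comp D.toOv).codRestrict D.Fk (fun _ => D.rhoS_mem _)

theorem coe_rho (z : ↥D.O) :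
    ((D.rho z : ↥D.Fk) : LaurentSeries (IsLocalRing.ResidueField ↥A)) = D.rhoS (D.toOv z) := rfl

/-- every element of `OvS` comes from `F`. -/
theorem exists_ψ_eq (x : ↥D.OvS) : ∃ z : F, D.ψ z = (x : LaurentSeries K) := by
  obtain ⟨g, hg, P, hP⟩ := (mem_Ov_iff A.subtype (IsLocalRing.residue ↥A) D.xR D.yR).mp x.2
  have hg0 : g.map A.subtype ≠ 0 := by
    intro h0
    apply hg
    have : g = 0 := Polynomial.map_injective _ Subtype.val_injective (by rw [h0, Polynomial.map_zero])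
    rw [this, Polynomial.map_zero]
  have h1 : coeffMap A.subtype (pev1 D.xR g) =
      D.ψ (pmEv M.x M.y (C (g.map A.subtype))) := by
    rw [D.ψ_ev, pev2_C, coeffMap_pev1]
    rfl
  have h2 : coeffMap A.subtype (pev2 D.xR D.yR P) =
      D.ψ (pmEv M.x M.y (P.map (mapRingHom A.subtype))) := by
    rw [D.ψ_ev, coeffMap_pev2]
    rfl
  have hne : coeffMap A.subtype (pev1 D.xR g) ≠ 0 := by
    rw [coeffMap_pev1]
    intro h0
    exact hg0 (D.hinjL (by rw [h0, map_zero]))
  refine ⟨pmEv M.x M.y (P.map (mapRingHom A.subtype)) / pmEv M.x M.y (C (g.map A.subtype)), ?_⟩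
  rw [map_div₀, ← h1, ← h2, ← hP, mul_div_assoc, div_self hne, mul_one]

theorem rho_surjective : Function.Surjective D.rho := by
  intro y
  have hy : InTL D.xbarS D.ybarS (y : LaurentSeries (IsLocalRing.ResidueField ↥A)) :=
    (D.mem_Fk_iff _).mp y.2
  obtain ⟨x, hx⟩ := (rho_mem_range_iff D.hv IsLocalRing.residue_surjective D.hinj _).mpr hy
  obtain ⟨z, hz⟩ := D.exists_ψ_eq x
  have hzO : z ∈ D.O := by
    rw [mem_O_iff, hz]
    exact x.2
  refine ⟨⟨z, hzO⟩, Subtype.ext ?_⟩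
  rw [coe_rho, ← hx]
  congr 1
  exact Subtype.ext hz

theorem isUnit_of_rho_ne_zero (z : ↥D.O) (hz : D.rho z ≠ 0) : IsUnit z := by
  have hz' : D.rhoS (D.toOv z) ≠ 0 := by
    intro h0
    apply hz
    apply Subtype.ext
    rw [coe_rho, h0]
    rfl
  have hinv := inv_mem_Ov D.hv D.fA D.fA_monic D.fA_natDegree M.hN D.fA_root D.hind D.hinj
    (D.toOv z) hz'
  have hz0 : (z : F) ≠ 0 := by
    intro h0
    apply hz
    have : z = 0 := Subtype.ext h0
    rw [this, map_zero]
  have hmem : (z : F)⁻¹ ∈ D.O := by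
    rw [mem_O_iff, map_inv₀]
    exact hinv
  refine IsUnit.of_mul_eq_one (⟨(z : F)⁻¹, hmem⟩ : ↥D.O) ?_
  apply Subtype.ext
  show (z : F) * (z : F)⁻¹ = 1
  exact mul_inv_cancel₀ hz0

theorem rho_eq_zero_iff (z : ↥D.O) : D.rho z = 0 ↔ ¬ IsUnit z := by
  constructor
  · intro h0 hu
    have := hu.map D.rho
    rw [h0] at this
    exact not_isUnit_zero this
  · intro hnu
    by_contra hne
    exact hnu (D.isUnit_of_rho_ne_zero z hne)

theorem ψ_algebraMap (a : K) :
    D.ψ (algebraMap K F a) = (HahnSeries.C a : LaurentSeries K) := by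
  rw [AlgHom.commutes, hahnC_eq_algebraMap]

theorem map_mem (a : ↥A) : algebraMap K F (a : K) ∈ D.O := by
  rw [mem_O_iff, ψ_algebraMap]
  exact const_mem_Ov A.subtype (IsLocalRing.residue ↥A) D.xR D.yR a

theorem rho_map (a : ↥A) :
    D.rho ⟨algebraMap K F (a : K), D.map_mem a⟩ =
      algebraMap (IsLocalRing.ResidueField ↥A) ↥D.Fk (IsLocalRing.residue ↥A a) := by
  apply Subtype.ext
  rw [coe_rho]
  have h1 : D.toOv ⟨algebraMap K F (a : K), D.map_mem a⟩ =
      ⟨HahnSeries.C (A.subtype a), const_mem_Ov A.subtype (IsLocalRing.residue ↥A) D.xR D.yR a⟩ :=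
    Subtype.ext (D.ψ_algebraMap a)
  rw [h1]
  show Fermat.Agent.GaussVal.rho A.subtype (IsLocalRing.residue ↥A) D.xR D.yR D.hv.inj D.hinj _ = _
  rw [rho_const D.hv.inj D.hinj a, hahnC_eq_algebraMap]
  rfl

theorem val (f : F) (hf : f ≠ 0) :
    ∃ c : K, c ≠ 0 ∧ ∃ h : algebraMap K F c * f ∈ D.O, IsUnit (⟨_, h⟩ : ↥D.O) := by
  have hψf : D.ψ f ≠ 0 := fun h0 => hf (D.ψ_injective (by rw [h0, map_zero]))
  obtain ⟨c, y, hc, hy, hcy⟩ := exists_normal_form D.hv D.fA D.fA_monic D.fA_natDegree M.hN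
    D.fA_root D.hind D.hinj (D.ψ_inTL' f) hψf
  have hmem : algebraMap K F c * f ∈ D.O := by
    rw [mem_O_iff, map_mul, ψ_algebraMap, hcy]
    exact y.2
  refine ⟨c, hc, hmem, D.isUnit_of_rho_ne_zero _ ?_⟩
  intro h0
  apply hy
  have h1 : D.toOv ⟨algebraMap K F c * f, hmem⟩ = y := by
    apply Subtype.ext
    rw [coe_toOv, map_mul, ψ_algebraMap, hcy]
  have h2 := congrArg Subtype.val h0
  rw [coe_rho, h1] at h2
  exact h2

theorem x_mem : M.x ∈ D.O := by
  rw [mem_O_iff, D.ψ_x]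
  exact j_mem_Ov A.subtype (IsLocalRing.residue ↥A) D.xR D.yR

theorem y_mem : M.y ∈ D.O := by
  rw [mem_O_iff, D.ψ_y]
  exact u_mem_Ov A.subtype (IsLocalRing.residue ↥A) D.xR D.yR

theorem coe_rho_x : ((D.rho ⟨M.x, D.x_mem⟩ : ↥D.Fk) :
    LaurentSeries (IsLocalRing.ResidueField ↥A)) = D.xbarS := by
  rw [coe_rho]
  have h1 : D.toOv ⟨M.x, D.x_mem⟩ =
      ⟨coeffMap A.subtype D.xR, j_mem_Ov A.subtype (IsLocalRing.residue ↥A) D.xR D.yR⟩ :=
    Subtype.ext D.ψ_x
  rw [h1]
  exact rho_coeffMap D.hv.inj D.hinj D.xR _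

theorem coe_rho_y : ((D.rho ⟨M.y, D.y_mem⟩ : ↥D.Fk) :
    LaurentSeries (IsLocalRing.ResidueField ↥A)) = D.ybarS := by
  rw [coe_rho]
  have h1 : D.toOv ⟨M.y, D.y_mem⟩ =
      ⟨coeffMap A.subtype D.yR, u_mem_Ov A.subtype (IsLocalRing.residue ↥A) D.xR D.yR⟩ :=
    Subtype.ext D.ψ_y
  rw [h1]
  exact rho_coeffMap D.hv.inj D.hinj D.yR _

theorem xbarS_trans : Transcendental (IsLocalRing.ResidueField ↥A) D.xbarS := by
  rw [transcendental_iff_injective]
  intro p q hpq
  apply D.hinj'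
  rw [pev1_eq_evJ]
  exact hpq

theorem x_trans : Transcendental (IsLocalRing.ResidueField ↥A) (D.rho ⟨M.x, D.x_mem⟩) := by
  intro halg
  apply D.xbarS_trans
  have h := halg.algebraMap (A := LaurentSeries (IsLocalRing.ResidueField ↥A))
  have h2 : algebraMap ↥D.Fk (LaurentSeries (IsLocalRing.ResidueField ↥A))
      (D.rho ⟨M.x, D.x_mem⟩) = D.xbarS := D.coe_rho_x
  rwa [h2] at h

/-- **the reduction model** of the plane model `M` at `A`. -/
def redModel : Fermat.Agent.S27GR.RedModel K (IsLocalRing.ResidueField ↥A) F ↥D.Fk where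
  A := A
  res := IsLocalRing.residue ↥A
  res_surj := IsLocalRing.residue_surjective
  res_eq_zero := fun a => by
    rw [IsLocalRing.residue_eq_zero_iff, IsLocalRing.mem_maximalIdeal, mem_nonunits_iff]
  O := D.O
  rho := D.rho
  rho_surj := D.rho_surjective
  rho_eq_zero := D.rho_eq_zero_iff
  map_mem := D.map_mem
  rho_map := D.rho_map
  val := D.val
  x := M.x
  x_mem := D.x_mem
  x_trans := D.x_trans

end RedDatum

end Fermat.Agent.S27
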