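import Mathlib
import Fermat.Agent.S27.Red.GaussModel

set_option autoImplicit false
set_option linter.style.haveILetI false
set_option synthInstance.maxHeartbeats 400000

/-!
# S27, block C, seat C-GAUSS, part 3: degree data and the statement `RedModelStatement`  (helper75)

`[Fk : k(x̄)] = N` (`Lib/GaussVal/Degree.lean`, from `IndepUpTo`), `Fk / k(x̄)` separable (`N!` is a
unit of `A`), hence `DegData D.redModel N`; `redModelStatement : RedModelStatement`.
-/

noncomputable section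

namespace Fermat.Agent.S27

open Polynomial Fermat.Agent.S28 Fermat.Agent.GaussVal ModularCurve IntermediateField

variable {K F : Type*} [Field K] [Field F] [Algebra K F]

namespace RedDatum

variable {M : PlaneModel K F} {A : ValuationSubring K} (D : RedDatum M A)

theorem xbar_eq : D.redModel.xbar = D.rho ⟨M.x, D.x_mem⟩ := rfl

theorem degk : Module.finrank ↥((IsLocalRing.ResidueField ↥A)⟮D.redModel.xbar⟯) ↥D.Fk = M.N := by
  refine finrank_adjoin_of_indep (D.rho ⟨M.x, D.x_mem⟩) (D.rho ⟨M.y, D.y_mem⟩) D.Fk.val M.hN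
    D.fbar D.fbar_monic D.fbar_natDegree ?_ ?_ ?_
  · show pev2 ((D.rho ⟨M.x, D.x_mem⟩ : ↥D.Fk) : LaurentSeries (IsLocalRing.ResidueField ↥A))
      ((D.rho ⟨M.y, D.y_mem⟩ : ↥D.Fk) : LaurentSeries (IsLocalRing.ResidueField ↥A)) D.fbar = 0
    rw [D.coe_rho_x, D.coe_rho_y]
    exact D.fbar_root
  · show IndepUpTo ((D.rho ⟨M.x, D.x_mem⟩ : ↥D.Fk) : LaurentSeries (IsLocalRing.ResidueField ↥A))
      ((D.rho ⟨M.y, D.y_mem⟩ : ↥D.Fk) : LaurentSeries (IsLocalRing.ResidueField ↥A)) M.N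
    rw [D.coe_rho_x, D.coe_rho_y]
    exact D.hind
  · intro z
    show InTL ((D.rho ⟨M.x, D.x_mem⟩ : ↥D.Fk) : LaurentSeries (IsLocalRing.ResidueField ↥A))
      ((D.rho ⟨M.y, D.y_mem⟩ : ↥D.Fk) : LaurentSeries (IsLocalRing.ResidueField ↥A))
      (z : LaurentSeries (IsLocalRing.ResidueField ↥A))
    rw [D.coe_rho_x, D.coe_rho_y]
    exact (D.mem_Fk_iff _).mp z.2

theorem factorial_ne_zero (D : RedDatum M A) :
    ((M.N.factorial : ℕ) : IsLocalRing.ResidueField ↥A) ≠ 0 := by
  have hmem : ((M.N.factorial : ℕ) : K) ∈ A := natCast_mem A _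
  have hK0 : ((M.N.factorial : ℕ) : K) ≠ 0 := D.fact_ne_zero
  have hu : IsUnit (⟨((M.N.factorial : ℕ) : K), hmem⟩ : ↥A) := by
    refine IsUnit.of_mul_eq_one (⟨(((M.N.factorial : ℕ) : K))⁻¹, D.fact_inv_mem⟩ : ↥A) ?_
    apply Subtype.ext
    show ((M.N.factorial : ℕ) : K) * (((M.N.factorial : ℕ) : K))⁻¹ = 1
    exact mul_inv_cancel₀ hK0
  have h1 := hu.map (IsLocalRing.residue ↥A)
  have h2 : IsLocalRing.residue ↥A (⟨((M.N.factorial : ℕ) : K), hmem⟩ : ↥A) =
      ((M.N.factorial : ℕ) : IsLocalRing.ResidueField ↥A) := by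
    have : (⟨((M.N.factorial : ℕ) : K), hmem⟩ : ↥A) = ((M.N.factorial : ℕ) : ↥A) :=
      Subtype.ext (by simp)
    rw [this, map_natCast]
  rw [h2] at h1
  exact h1.ne_zero

theorem finiteDimensional_Fk :
    FiniteDimensional ↥((IsLocalRing.ResidueField ↥A)⟮D.redModel.xbar⟯) ↥D.Fk :=
  Module.finite_of_finrank_pos (by rw [D.degk]; exact M.hN)

theorem sepk : Algebra.IsSeparable ↥((IsLocalRing.ResidueField ↥A)⟮D.redModel.xbar⟯) ↥D.Fk := by
  haveI := D.finiteDimensional_Fk
  refine isSeparable_of_factorial_ne_zero M.N D.degk ?_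
  intro h0
  apply D.factorial_ne_zero
  have h1 : algebraMap (IsLocalRing.ResidueField ↥A)
      ↥((IsLocalRing.ResidueField ↥A)⟮D.redModel.xbar⟯)
      ((M.N.factorial : ℕ) : IsLocalRing.ResidueField ↥A) = 0 := by
    rw [map_natCast]
    exact h0
  exact (map_eq_zero _).mp h1

/-- **the degree data** of the reduction model. -/
theorem degData : Fermat.Agent.S27GR.DegData D.redModel M.N where
  deg := M.deg
  degk := D.degk
  sepk := D.sepk
  pos := M.hN

end RedDatum

universe u v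

/-- **C-GAUSS.** -/
theorem redModelStatement : RedModelStatement.{u, v} := by
  intro K F _ _ _ M A h
  obtain ⟨D⟩ := nonempty_redDatum M A h
  exact ⟨↥D.Fk, inferInstance, inferInstance, D.redModel, rfl, rfl, D.y_mem, D.degData⟩

end Fermat.Agent.S27
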