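/-
S27, block E / CONSTRUCTION, leaf COUNT (helper63): a good valuation ring for a plane model,
with the data of EVERY reduction datum `D : RedDatum M A`.

`exists_goodValuation` : `K` algebraically closed of characteristic `0`, `M` a plane model of
`F / K`, `ℓ` prime.  There are a branch set `S` of `M.x` and a valuation ring `A` of `K` with
algebraically closed residue field `k` (an algebraic closure of `𝔽_p`, `p ≠ ℓ`), good for `M`,
in which `branchUnits S` and `ℓ` are units, such that for every reduction datum `D` of `M` at `A`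
the reduced function field `D.Fk / k` is an `IsRRField` of the same genus as `F / K` with
`#Pic⁰(D.Fk)[ℓ^j] = ℓ^(2 g j)`.

(Re-packaging of `torsionUpper_of_planeModel` of `Red/Upper.lean`.)
-/
import Mathlib
import Fermat.Agent.S27.Red.Upper
import Fermat.Agent.S27.Red.GaussDeg

set_option autoImplicit false
set_option linter.style.haveILetI false
set_option synthInstance.maxHeartbeats 400000

noncomputable section

open AlgebraicCurve Fermat.Agent.RR IntermediateField

namespace Fermat.Agent.S27

universe u v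

/-- the reduced function field of a reduction datum is an `IsRRField` (residue field
algebraically closed). -/
theorem RedDatum.isRRField_Fk {K : Type u} {F : Type v} [Field K] [Field F] [Algebra K F]
    {M : PlaneModel K F} {A : ValuationSubring K} (D : RedDatum M A)
    [IsAlgClosed (IsLocalRing.ResidueField ↥A)] :
    IsRRField (IsLocalRing.ResidueField ↥A) ↥D.Fk := by
  haveI : FiniteDimensional (IsLocalRing.ResidueField A)⟮D.redModel.xbar⟯ ↥D.Fk :=
    D.finiteDimensional_Fk
  haveI : Algebra.IsSeparable (IsLocalRing.ResidueField A)⟮D.redModel.xbar⟯ ↥D.Fk := D.sepk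
  have hxk : Transcendental (IsLocalRing.ResidueField A) D.redModel.xbar := D.redModel.x_trans
  exact isRRField_of_separable hxk

/-- **COUNT**: a good valuation ring for the plane model `M` and the prime `ℓ`. -/
theorem exists_goodValuation (K : Type u) (F : Type v) [Field K] [Field F] [Algebra K F]
    [IsAlgClosed K] [CharZero K]
    (hRR : IsRRField K F) (M : PlaneModel K F) (ℓ : ℕ) (hℓ : ℓ.Prime) :
    ∃ (S : Finset K) (A : ValuationSubring K),
      IsAlgClosed (IsLocalRing.ResidueField ↥A) ∧
      (∀ c : K, c ∉ S → Fermat.Agent.S27GR.fibreCard K M.x c = M.N) ∧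
      (∀ t ∈ branchUnits S, t ∈ A ∧ t⁻¹ ∈ A) ∧
      M.IntegralAt A ∧ ((ℓ : K))⁻¹ ∈ A ∧
      ∀ D : RedDatum M A,
        IsRRField (IsLocalRing.ResidueField ↥A) ↥D.Fk ∧
        genusFF K F = genusFF (IsLocalRing.ResidueField ↥A) ↥D.Fk ∧
        ∀ j : ℕ, Nat.card (Pic0.torsion (IsLocalRing.ResidueField ↥A) ↥D.Fk (ℓ ^ j)) =
          ℓ ^ (2 * genusFF K F * j) := by
  classical
  -- `F / K(x)` is finite separable
  haveI : FiniteDimensional K⟮M.x⟯ F :=
    Module.finite_of_finrank_pos (by rw [M.deg]; exact M.hN)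
  haveI : CharZero K⟮M.x⟯ := charZero_of_injective_algebraMap (algebraMap K K⟮M.x⟯).injective
  haveI : Algebra.IsSeparable K⟮M.x⟯ F := inferInstance
  -- the branch set
  obtain ⟨S, hS⟩ := exists_branchSet hRR M.x_trans
  -- the valuation ring
  obtain ⟨p, A, hp, hpℓ, hT, hchar, hint, hac⟩ :=
    exists_valuationSubring_units_not_dvd (M.goodSet S ℓ) ℓ hℓ.ne_zero
  haveI := hchar
  haveI := hac
  have hne : ℓ ≠ p := fun h => hpℓ (h ▸ dvd_rfl)
  have hI : M.IntegralAt A := M.integralAt_of_goodSet S ℓ A hT
  have hunr : ∀ c : K, c ∉ S → Fermat.Agent.S27GR.fibreCard K M.x c = M.N := by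
    intro c hc
    rw [hS c hc, M.deg]
  have hT' : ∀ t ∈ branchUnits S, t ∈ A ∧ t⁻¹ ∈ A := by
    intro t ht
    refine hT t ?_
    rw [PlaneModel.goodSet]
    exact Finset.mem_union_left _ (Finset.mem_union_left _ ht)
  have hℓA : ((ℓ : K))⁻¹ ∈ A := by
    refine (hT _ ?_).2
    rw [PlaneModel.goodSet]
    exact Finset.mem_union_right _ (by simp)
  refine ⟨S, A, hac, hunr, hT', hI, hℓA, fun D => ?_⟩
  have hk : IsRRField (IsLocalRing.ResidueField A) ↥D.Fk := D.isRRField_Fk
  -- genus equality
  have hg : genusFF K F = genusFF (IsLocalRing.ResidueField A) ↥D.Fk :=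
    Fermat.Agent.S27GR.genusFF_eq_of_degData_branchData D.redModel M.N D.degData
      (branchDataOf D.redModel M.N S hunr hT') (branchDataOf_inv_mem D.redModel M.N S hunr hT')
      hRR hk
  refine ⟨hk, hg, fun j => ?_⟩
  -- the count in characteristic `p`
  obtain ⟨P₀⟩ := nonempty_place hk
  obtain ⟨Fr, hFrp, -⟩ := exists_frobStr p hp
    (fun c => up_exists_pow_eq p hp (IsLocalRing.ResidueField A) hint c) hk P₀
  haveI : Fact ℓ.Prime := ⟨hℓ⟩
  rw [hg]
  exact card_torsion_of_frobStr hk Fr ℓ (by rw [hFrp]; exact hne) j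

end Fermat.Agent.S27
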