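import Mathlib
import Fermat.Prelude.Def_AlgebraicCurve_BaseChangeGalois
import Fermat.Prelude.Def_ModularCurve_LaurentCoeff
import Fermat.Agent.F3.I2.Descent.Theta
import Fermat.Agent.Lib.ConstExt.Basic

set_option autoImplicit false
set_option linter.style.haveILetI false

/-!
# S27, block C: base change of function fields inside Laurent series  (helper75)

`L ⊆ L'` fields, `S` a set of Laurent series over `L`, `E = L(S) ⊆ L((t))`,
`E' = L'(S') ⊆ L'((t))`, `S'` the image of `S` under the coefficientwise map
(`hS : coeffMap '' S = S'`, so that `S'` can be given in any convenient form).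
(Port of `laurentBaseChange`, `descTheta`, `arithmeticGalois` from the base field `ℚ` to an
arbitrary base field `L`.)

* `lffTheta L L' S S' hS : E →+* E'`, the coefficientwise embedding; `isConstExt_lffTheta`;
* `lffAct L L' S S' hS : Aut(L'/L) →* SemilinearAut L' E'`, the coefficientwise action, trivial on
  `θ E`.
-/

noncomputable section

namespace Fermat.Agent.S27

open ModularCurve HahnSeries AlgebraicCurve IntermediateField

variable (L L' : Type*) [Field L] [Field L'] [Algebra L L'] (S : Set (LaurentSeries L))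
  (S' : Set (LaurentSeries L')) (hS : coeffMap (algebraMap L L') '' S = S')

/-- the function field generated by `S` -/
abbrev lff : IntermediateField L (LaurentSeries L) := IntermediateField.adjoin L S

/-- its base change to `L'`: the field generated by `S'`, the image of `S` -/
abbrev lffBC (_hS : coeffMap (algebraMap L L') '' S = S') :
    IntermediateField L' (LaurentSeries L') :=
  IntermediateField.adjoin L' S'

variable {L S S'} in
theorem coeffMap_mem_lffBC {x : LaurentSeries L} (hx : x ∈ lff L S) :
    coeffMap (algebraMap L L') x ∈ lffBC L L' S S' hS := by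
  induction hx using IntermediateField.adjoin_induction with
  | mem x hx => exact IntermediateField.subset_adjoin L' _ (hS ▸ ⟨x, hx, rfl⟩)
  | algebraMap c =>
    rw [Fermat.Agent.F3I2.descCoeffMap_algebraMap]
    exact IntermediateField.algebraMap_mem _ _
  | add x y _ _ hx hy => rw [map_add]; exact add_mem hx hy
  | inv x _ hx => rw [map_inv₀]; exact inv_mem hx
  | mul x y _ _ hx hy => rw [map_mul]; exact mul_mem hx hy

/-- The coefficientwise embedding `θ : L(S) → L'(S')`. -/
def lffTheta : ↥(lff L S) →+* ↥(lffBC L L' S S' hS) where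
  toFun x := ⟨coeffMap (algebraMap L L') (x : LaurentSeries L), coeffMap_mem_lffBC L' hS x.2⟩
  map_one' := Subtype.ext (map_one (coeffMap (algebraMap L L')))
  map_zero' := Subtype.ext (map_zero (coeffMap (algebraMap L L')))
  map_mul' _ _ := Subtype.ext (map_mul (coeffMap (algebraMap L L')) _ _)
  map_add' _ _ := Subtype.ext (map_add (coeffMap (algebraMap L L')) _ _)

@[simp]
theorem coe_lffTheta (x : ↥(lff L S)) :
    (lffTheta L L' S S' hS x : LaurentSeries L') = coeffMap (algebraMap L L') (x : LaurentSeries L) :=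
  rfl

theorem lffTheta_algebraMap (a : L) :
    lffTheta L L' S S' hS (algebraMap L ↥(lff L S) a) =
      algebraMap L' ↥(lffBC L L' S S' hS) (algebraMap L L' a) :=
  Subtype.ext (Fermat.Agent.F3I2.descCoeffMap_algebraMap a)

theorem lffTheta_linearDisjoint {I : Type*} (b : I → L') (hb : LinearIndependent L b)
    (g : I →₀ ↥(lff L S))
    (h : (g.sum fun i x => algebraMap L' ↥(lffBC L L' S S' hS) (b i) * lffTheta L L' S S' hS x) = 0) :
    g = 0 := by
  classical
  have h1 : ∑ x ∈ g.support, algebraMap L' (LaurentSeries L') (b x) *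
      coeffMap (algebraMap L L') (g x : LaurentSeries L) = 0 := by
    have := congrArg (fun z : ↥(lffBC L L' S S' hS) => (z : LaurentSeries L')) h
    simp only [Finsupp.sum, AddSubmonoidClass.coe_finsetSum, MulMemClass.coe_mul,
      coe_lffTheta, ZeroMemClass.coe_zero] at this
    exact this
  have key := Fermat.Agent.F3I2.descCoeffMap_linearDisjoint b hb
    (g.mapRange (fun x : ↥(lff L S) => (x : LaurentSeries L)) rfl) (by
      rw [Finsupp.sum_mapRange_index (by intro i; simp)]
      exact h1)
  refine Finsupp.ext fun i => Subtype.ext ?_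
  have := congrArg (fun f => f i) key
  simpa using this

theorem lffTheta_mem_adjoin_range {y : LaurentSeries L'} (hy : y ∈ lffBC L L' S S' hS) :
    (⟨y, hy⟩ : ↥(lffBC L L' S S' hS)) ∈
      IntermediateField.adjoin L' (Set.range (lffTheta L L' S S' hS)) := by
  refine IntermediateField.adjoin_induction
    (F := L') (s := S')
    (p := fun (y : LaurentSeries L') (hy : y ∈ IntermediateField.adjoin L' S') =>
      (⟨y, hy⟩ : ↥(lffBC L L' S S' hS)) ∈
        IntermediateField.adjoin L' (Set.range (lffTheta L L' S S' hS))) ?_ ?_ ?_ ?_ ?_ hy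
  · intro x hx
    rw [← hS] at hx
    obtain ⟨s, hs, rfl⟩ := hx
    exact IntermediateField.subset_adjoin L' _
      ⟨⟨s, IntermediateField.subset_adjoin L _ hs⟩, rfl⟩
  · intro c
    exact IntermediateField.algebraMap_mem
      (IntermediateField.adjoin L' (Set.range (lffTheta L L' S S' hS))) c
  · intro x y hx hy hx' hy'
    have h := add_mem hx' hy'
    exact h
  · intro x hx hx'
    have h := inv_mem hx'
    exact h
  · intro x y hx hy hx' hy'
    have h := mul_mem hx' hy'
    exact h

theorem lffTheta_adjoin_eq_top :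
    IntermediateField.adjoin L' (Set.range (lffTheta L L' S S' hS)) = ⊤ := by
  rw [eq_top_iff]
  rintro ⟨y, hy⟩ -
  exact lffTheta_mem_adjoin_range L L' S S' hS hy

/-- `θ` is a constant field extension. -/
theorem isConstExt_lffTheta :
    Fermat.Agent.ConstExt.IsConstExt (K := L) (C := L') (lffTheta L L' S S' hS) where
  comm := lffTheta_algebraMap L L' S S' hS
  ld := fun _ b hb g h => lffTheta_linearDisjoint L L' S S' hS b hb g h
  gen := lffTheta_adjoin_eq_top L L' S S' hS

section Action

variable {L L' S S'}

theorem coeffMap_aut_mem (σ : L' ≃ₐ[L] L') {x : LaurentSeries L'} (hx : x ∈ lffBC L L' S S' hS) :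
    coeffMap (σ : L' →+* L') x ∈ lffBC L L' S S' hS := by
  induction hx using IntermediateField.adjoin_induction with
  | mem x hx =>
    have hx' := hx
    rw [← hS] at hx'
    obtain ⟨s, hs, rfl⟩ := hx'
    rw [coeffMap_coeffMap]
    have : ((σ : L' →+* L').comp (algebraMap L L')) = algebraMap L L' :=
      RingHom.ext fun a => σ.commutes a
    rw [this]
    exact IntermediateField.subset_adjoin L' _ hx
  | algebraMap c =>
    rw [coeffMap_algebraMap]
    exact IntermediateField.algebraMap_mem _ _
  | add x y _ _ hx hy => rw [map_add]; exact add_mem hx hy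
  | inv x _ hx => rw [map_inv₀]; exact inv_mem hx
  | mul x y _ _ hx hy => rw [map_mul]; exact mul_mem hx hy

variable (L L' S S')

/-- the coefficientwise automorphism of `L'(S')` attached to `σ ∈ Aut(L'/L)`. -/
def lffRingAut (σ : L' ≃ₐ[L] L') : ↥(lffBC L L' S S' hS) ≃+* ↥(lffBC L L' S S' hS) where
  toFun x := ⟨coeffMap (σ : L' →+* L') (x : LaurentSeries L'), coeffMap_aut_mem hS σ x.2⟩
  invFun x := ⟨coeffMap (σ.symm : L' →+* L') (x : LaurentSeries L'), coeffMap_aut_mem hS σ.symm x.2⟩
  left_inv x := Subtype.ext <| by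
    show coeffMap (σ.symm : L' →+* L') (coeffMap (σ : L' →+* L') (x : LaurentSeries L'))
      = (x : LaurentSeries L')
    rw [coeffMap_coeffMap,
      coeffMap_congr (g := RingHom.id L') (RingHom.ext fun a => σ.symm_apply_apply a)
        (x : LaurentSeries L'),
      coeffMap_id]
  right_inv x := Subtype.ext <| by
    show coeffMap (σ : L' →+* L') (coeffMap (σ.symm : L' →+* L') (x : LaurentSeries L'))
      = (x : LaurentSeries L')
    rw [coeffMap_coeffMap,
      coeffMap_congr (g := RingHom.id L') (RingHom.ext fun a => σ.apply_symm_apply a)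
        (x : LaurentSeries L'),
      coeffMap_id]
  map_mul' x y :=
    Subtype.ext (map_mul (coeffMap (σ : L' →+* L')) (x : LaurentSeries L') (y : LaurentSeries L'))
  map_add' x y :=
    Subtype.ext (map_add (coeffMap (σ : L' →+* L')) (x : LaurentSeries L') (y : LaurentSeries L'))

@[simp]
theorem coe_lffRingAut_apply (σ : L' ≃ₐ[L] L') (x : ↥(lffBC L L' S S' hS)) :
    (lffRingAut L L' S S' hS σ x : LaurentSeries L') =
      coeffMap (σ : L' →+* L') (x : LaurentSeries L') :=
  rfl

theorem lffRingAut_algebraMap (σ : L' ≃ₐ[L] L') (a : L') :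
    lffRingAut L L' S S' hS σ (algebraMap L' ↥(lffBC L L' S S' hS) a) =
      algebraMap L' ↥(lffBC L L' S S' hS) (σ a) :=
  Subtype.ext (coeffMap_algebraMap (σ : L' →+* L') a)

/-- the action of `Aut(L'/L)` on `L'(S')`. -/
def lffAct : (L' ≃ₐ[L] L') →* SemilinearAut L' ↥(lffBC L L' S S' hS) where
  toFun σ := ⟨(lffRingAut L L' S S' hS σ, σ.toRingEquiv), fun a => lffRingAut_algebraMap L L' S S' hS σ a⟩
  map_one' := by
    refine Subtype.ext (Prod.ext (RingEquiv.ext fun x => Subtype.ext ?_) rfl)
    show coeffMap ((1 : L' ≃ₐ[L] L') : L' →+* L') (x : LaurentSeries L') = (x : LaurentSeries L')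
    rw [show ((1 : L' ≃ₐ[L] L') : L' →+* L') = RingHom.id L' from RingHom.ext fun _ => rfl,
      coeffMap_id]
  map_mul' σ τ := by
    refine Subtype.ext (Prod.ext (RingEquiv.ext fun x => Subtype.ext ?_) rfl)
    show coeffMap ((σ * τ : L' ≃ₐ[L] L') : L' →+* L') (x : LaurentSeries L')
      = coeffMap (σ : L' →+* L') (coeffMap (τ : L' →+* L') (x : LaurentSeries L'))
    rw [coeffMap_coeffMap]
    exact coeffMap_congr (RingHom.ext fun _ => rfl) _

theorem baseAut_lffAct (σ : L' ≃ₐ[L] L') (a : L') :
    SemilinearAut.baseAut (lffAct L L' S S' hS σ) a = σ a := rfl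

theorem coe_lffAct_smul (σ : L' ≃ₐ[L] L') (x : ↥(lffBC L L' S S' hS)) :
    ((lffAct L L' S S' hS σ • x : ↥(lffBC L L' S S' hS)) : LaurentSeries L') =
      coeffMap (σ : L' →+* L') (x : LaurentSeries L') :=
  rfl

theorem lffAct_theta (σ : L' ≃ₐ[L] L') (f : ↥(lff L S)) :
    lffAct L L' S S' hS σ • lffTheta L L' S S' hS f = lffTheta L L' S S' hS f := by
  apply Subtype.ext
  rw [coe_lffAct_smul, coe_lffTheta, coeffMap_coeffMap]
  exact coeffMap_congr (RingHom.ext fun a => σ.commutes a) _

end Action

end Fermat.Agent.S27
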