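import Mathlib
import Fermat.Agent.S27.Red.GaussDeg
import Fermat.Agent.S27.Red.LaurentBC
import Fermat.Agent.S27.Red.Indep
import Fermat.Agent.S27.Red.Embed
import Fermat.Agent.S27.Lift.Defs
import Fermat.Agent.Lib.RR.OfSep

set_option autoImplicit false
set_option linter.style.haveILetI false

/-!
# S27, CONSTRUCTION (helper75): the constant extension `FΩ` of `F` inside `Ω((t))`

`D : RedDatum M A` gives the embedding `D.ψ : F → K((t))`, `x ↦ xK = t^(-N) w`, `y ↦ yK`.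
For a field `Ω ⊇ K`: `FΩ = Ω(xΩ, yΩ) ⊆ Ω((t))`, the plane model `MΩ` of `FΩ / Ω`, and the constant
extension `φΩ : F → FΩ` with the action of `Aut(Ω/K)`: `D.bcSetup Ω hRR : BCSetup K F Ω FΩ`.
-/

noncomputable section

namespace Fermat.Agent.S27

open Polynomial Fermat.Agent.S28 Fermat.Agent.GaussVal ModularCurve IntermediateField
  AlgebraicCurve Fermat.Agent.RR

section General

variable {K F : Type*} [Field K] [Field F] [Algebra K F]

theorem inst_algHom_pmEv (ψ : F →ₐ[K] LaurentSeries K) (x y : F) (P : K[X][X]) :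
    ψ (pmEv x y P) = pev2 (ψ x) (ψ y) P := by
  have h1 : (ψ : F →+* LaurentSeries K).comp
      ((Polynomial.aeval x : K[X] →ₐ[K] F).toRingHom) = pev1 (ψ x) := by
    refine Polynomial.ringHom_ext (fun a => ?_) ?_
    · show ψ (Polynomial.aeval x (C a)) = pev1 (ψ x) (C a)
      rw [aeval_C, pev1_C, AlgHom.commutes, hahnC_eq_algebraMap]
    · show ψ (Polynomial.aeval x X) = pev1 (ψ x) X
      rw [aeval_X, pev1_X]
  rw [cemb_pmEv_apply, pev2_apply, ← h1]
  exact Polynomial.hom_eval₂ P _ (ψ : F →+* LaurentSeries K) y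

/-- the two generators generate `L(a, b)`. -/
theorem inst_adjoin_pair_eq_top {L E : Type*} [Field L] [Field E] [Algebra L E] (a b : E)
    (x y : ↥(IntermediateField.adjoin L ({a, b} : Set E))) (hx : (x : E) = a) (hy : (y : E) = b) :
    IntermediateField.adjoin L ({x, y} : Set ↥(IntermediateField.adjoin L ({a, b} : Set E))) = ⊤ := by
  apply IntermediateField.lift_injective
  rw [IntermediateField.lift_adjoin, IntermediateField.lift_top, Set.image_pair, hx, hy]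

theorem inst_transcendental_of_pev1 {L : Type*} [Field L] (E : IntermediateField L (LaurentSeries L))
    (x : ↥E) (hinj : Function.Injective (pev1 (x : LaurentSeries L))) : Transcendental L x := by
  intro halg
  have h := halg.algebraMap (A := LaurentSeries L)
  have h2 : algebraMap ↥E (LaurentSeries L) x = (x : LaurentSeries L) := rfl
  rw [h2] at h
  revert h
  show Transcendental L (x : LaurentSeries L)
  rw [transcendental_iff_injective]
  intro p q hpq
  apply hinj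
  rw [pev1_eq_evJ]
  exact hpq

end General

variable {K F : Type*} [Field K] [Field F] [Algebra K F]

namespace RedDatum

variable {M : PlaneModel K F} {A : ValuationSubring K} (D : RedDatum M A)

/-- the parameter over `K` -/
def wK : PowerSeries K := PowerSeries.map A.subtype D.w

/-- `x` as a Laurent series over `K` -/
def xK : LaurentSeries K := coeffMap A.subtype D.xR

/-- `y` as a Laurent series over `K` -/
def yK : LaurentSeries K := coeffMap A.subtype D.yR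

theorem xK_eq : D.xK = paramX M.N D.wK := coeffMap_paramX _ _ _

theorem yK_eq : D.yK = paramY M.N D.wK := coeffMap_paramY _ _ _

theorem ψ_xK : D.ψ M.x = D.xK := D.ψ_x

theorem ψ_yK : D.ψ M.y = D.yK := D.ψ_y

theorem constantCoeff_wK : PowerSeries.constantCoeff D.wK * M.c = 1 := by
  have h := congrArg (A.subtype) D.hw
  rw [map_mul, map_one] at h
  have h1 : PowerSeries.constantCoeff D.wK = A.subtype (PowerSeries.constantCoeff D.w) := by
    unfold wK
    rw [← PowerSeries.coeff_zero_eq_constantCoeff_apply, PowerSeries.coeff_map,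
      PowerSeries.coeff_zero_eq_constantCoeff_apply]
  rw [h1, ← D.cA_eq]
  exact h

theorem ψ_mem (z : F) : D.ψ z ∈ lff K ({D.xK, D.yK} : Set (LaurentSeries K)) := by
  have hz : z ∈ IntermediateField.adjoin K ({M.x, M.y} : Set F) := by
    rw [M.gen]
    exact IntermediateField.mem_top
  have h1 : D.ψ z ∈ (IntermediateField.adjoin K ({M.x, M.y} : Set F)).map D.ψ :=
    ⟨z, hz, rfl⟩
  rw [IntermediateField.adjoin_map, Set.image_pair, D.ψ_xK, D.ψ_yK] at h1
  exact h1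

/-- `ψ` as a map to `K(xK, yK)` -/
def ψ' : F →+* ↥(lff K ({D.xK, D.yK} : Set (LaurentSeries K))) where
  toFun z := ⟨D.ψ z, D.ψ_mem z⟩
  map_one' := Subtype.ext (map_one D.ψ)
  map_zero' := Subtype.ext (map_zero D.ψ)
  map_mul' _ _ := Subtype.ext (map_mul D.ψ _ _)
  map_add' _ _ := Subtype.ext (map_add D.ψ _ _)

theorem coe_ψ' (z : F) : ((D.ψ' z : ↥(lff K ({D.xK, D.yK} : Set (LaurentSeries K)))) :
    LaurentSeries K) = D.ψ z := rfl

variable (Ω : Type*) [Field Ω] [Algebra K Ω]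

/-- the parameter over `Ω` -/
def wΩ : PowerSeries Ω := PowerSeries.map (algebraMap K Ω) D.wK

/-- `x` as a Laurent series over `Ω` -/
def xΩ : LaurentSeries Ω := paramX M.N (D.wΩ Ω)

/-- `y` as a Laurent series over `Ω` -/
def yΩ : LaurentSeries Ω := paramY M.N (D.wΩ Ω)

theorem coeffMap_xK : coeffMap (algebraMap K Ω) D.xK = D.xΩ Ω := by
  rw [D.xK_eq, coeffMap_paramX]
  rfl

theorem coeffMap_yK : coeffMap (algebraMap K Ω) D.yK = D.yΩ Ω := by
  rw [D.yK_eq, coeffMap_paramY]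
  rfl

theorem constantCoeff_wΩ : PowerSeries.constantCoeff (D.wΩ Ω) * algebraMap K Ω M.c = 1 := by
  have h1 : PowerSeries.constantCoeff (D.wΩ Ω) =
      algebraMap K Ω (PowerSeries.constantCoeff D.wK) := by
    unfold wΩ
    rw [← PowerSeries.coeff_zero_eq_constantCoeff_apply, PowerSeries.coeff_map,
      PowerSeries.coeff_zero_eq_constantCoeff_apply]
  rw [h1, ← map_mul, D.constantCoeff_wK, map_one]

theorem constantCoeff_wΩ_ne_zero : PowerSeries.constantCoeff (D.wΩ Ω) ≠ 0 := by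
  intro h
  have := D.constantCoeff_wΩ Ω
  rw [h, zero_mul] at this
  exact zero_ne_one this

theorem hSΩ : coeffMap (algebraMap K Ω) '' ({D.xK, D.yK} : Set (LaurentSeries K)) =
    ({D.xΩ Ω, D.yΩ Ω} : Set (LaurentSeries Ω)) := by
  rw [Set.image_pair, D.coeffMap_xK, D.coeffMap_yK]

/-- the equation over `Ω` -/
def fΩ (_D : RedDatum M A) : Polynomial (Polynomial Ω) :=
  M.f.map (mapRingHom (algebraMap K Ω))

theorem fΩ_monic (D : RedDatum M A) : (D.fΩ Ω).Monic := M.monic.map _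

theorem fΩ_natDegree (D : RedDatum M A) : (D.fΩ Ω).natDegree = M.N := by
  unfold fΩ
  rw [M.monic.natDegree_map, M.natDegree_f]

theorem fΩ_coeff (D : RedDatum M A) (b : ℕ) :
    (D.fΩ Ω).coeff b = (M.f.coeff b).map (algebraMap K Ω) := by
  unfold fΩ
  rw [Polynomial.coeff_map]
  rfl

theorem fΩ_root : pev2 (D.xΩ Ω) (D.yΩ Ω) (D.fΩ Ω) = 0 := by
  have h := congrArg (coeffMap (algebraMap K Ω)) D.fL_root
  rw [coeffMap_pev2, map_zero] at h
  rw [← D.coeffMap_xK, ← D.coeffMap_yK]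
  exact h

theorem hindΩ : IndepUpTo (D.xΩ Ω) (D.yΩ Ω) M.N :=
  indepUpTo_param M.N M.hN _ (D.constantCoeff_wΩ_ne_zero Ω)

theorem hinjΩ : Function.Injective (pev1 (D.xΩ Ω)) :=
  pev1_injective_of_indep M.hN (D.hindΩ Ω)

/-- **the constant extension** `FΩ = Ω(xΩ, yΩ)`. -/
abbrev FΩ : IntermediateField Ω (LaurentSeries Ω) :=
  IntermediateField.adjoin Ω ({D.xΩ Ω, D.yΩ Ω} : Set (LaurentSeries Ω))

theorem inTL_FΩ (z : ↥(D.FΩ Ω)) : InTL (D.xΩ Ω) (D.yΩ Ω) (z : LaurentSeries Ω) :=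
  inTL_of_mem_adjoin _ _ (D.hinjΩ Ω) (D.fΩ Ω) (D.fΩ_monic Ω) (D.fΩ_root Ω) z.2

/-- the generator `x` of `FΩ` -/
def xF : ↥(D.FΩ Ω) := ⟨D.xΩ Ω, IntermediateField.subset_adjoin Ω _ (Set.mem_insert _ _)⟩

/-- the generator `y` of `FΩ` -/
def yF : ↥(D.FΩ Ω) :=
  ⟨D.yΩ Ω, IntermediateField.subset_adjoin Ω _ (Set.mem_insert_of_mem _ rfl)⟩

theorem val_pmEv (P : Polynomial (Polynomial Ω)) :
    ((pmEv (D.xF Ω) (D.yF Ω) P : ↥(D.FΩ Ω)) : LaurentSeries Ω) = pev2 (D.xΩ Ω) (D.yΩ Ω) P :=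
  inst_algHom_pmEv (D.FΩ Ω).val (D.xF Ω) (D.yF Ω) P

/-- **the plane model of `FΩ`**. -/
def MΩ : PlaneModel Ω ↥(D.FΩ Ω) where
  N := M.N
  hN := M.hN
  x := D.xF Ω
  y := D.yF Ω
  f := D.fΩ Ω
  c := algebraMap K Ω M.c
  hc := (_root_.map_ne_zero _).mpr M.hc
  monic := D.fΩ_monic Ω
  natDegree_f := D.fΩ_natDegree Ω
  deg_mid := fun b hb hbN => by
    rw [D.fΩ_coeff Ω]
    exact (Polynomial.natDegree_map_le).trans (M.deg_mid b hb hbN)
  deg_zero := by
    rw [D.fΩ_coeff Ω]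
    exact (Polynomial.natDegree_map_le).trans M.deg_zero
  top := by
    rw [D.fΩ_coeff Ω, Polynomial.coeff_map, M.top, map_neg]
  root := Subtype.ext (by rw [D.val_pmEv, D.fΩ_root]; rfl)
  x_trans := inst_transcendental_of_pev1 (D.FΩ Ω) (D.xF Ω) (D.hinjΩ Ω)
  deg := finrank_adjoin_of_indep (D.xF Ω) (D.yF Ω) (D.FΩ Ω).val M.hN (D.fΩ Ω) (D.fΩ_monic Ω)
    (D.fΩ_natDegree Ω) (D.fΩ_root Ω) (D.hindΩ Ω) (D.inTL_FΩ Ω)
  gen := inst_adjoin_pair_eq_top _ _ _ _ rfl rfl

/-- **the constant extension map** `F → FΩ`. -/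
def φΩ : F →+* ↥(D.FΩ Ω) :=
  (lffTheta K Ω ({D.xK, D.yK} : Set (LaurentSeries K)) _ (D.hSΩ Ω)).comp D.ψ'

theorem coe_φΩ (z : F) :
    ((D.φΩ Ω z : ↥(D.FΩ Ω)) : LaurentSeries Ω) = coeffMap (algebraMap K Ω) (D.ψ z) := rfl

theorem φΩ_x : D.φΩ Ω M.x = (D.MΩ Ω).x :=
  Subtype.ext (by rw [D.coe_φΩ, D.ψ_xK, D.coeffMap_xK]; rfl)

theorem φΩ_y : D.φΩ Ω M.y = (D.MΩ Ω).y :=
  Subtype.ext (by rw [D.coe_φΩ, D.ψ_yK, D.coeffMap_yK]; rfl)

theorem ψ'_injective : Function.Injective D.ψ' := D.ψ'.injective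

theorem isConstExt_φΩ : Fermat.Agent.ConstExt.IsConstExt (K := K) (C := Ω) (D.φΩ Ω) where
  comm := fun a => by
    have h := (isConstExt_lffTheta K Ω ({D.xK, D.yK} : Set (LaurentSeries K)) _ (D.hSΩ Ω)).comm a
    rw [← h]
    show lffTheta K Ω _ _ (D.hSΩ Ω) (D.ψ' (algebraMap K F a)) = _
    congr 1
    exact Subtype.ext (D.ψ.commutes a)
  ld := fun I b hb g h => by
    classical
    have h0 := (isConstExt_lffTheta K Ω ({D.xK, D.yK} : Set (LaurentSeries K)) _ (D.hSΩ Ω)).ld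
      I b hb (g.mapRange D.ψ' (map_zero _)) (by
        rw [Finsupp.sum_mapRange_index (fun i => by rw [map_zero, mul_zero])]
        exact h)
    apply Finsupp.mapRange_injective D.ψ' (map_zero _) D.ψ'_injective
    rw [h0, Finsupp.mapRange_zero]
  gen := by
    rw [eq_top_iff, ← (D.MΩ Ω).gen]
    apply IntermediateField.adjoin.mono
    rintro z (rfl | hz)
    · exact ⟨M.x, D.φΩ_x Ω⟩
    · rw [Set.mem_singleton_iff] at hz
      rw [hz]
      exact ⟨M.y, D.φΩ_y Ω⟩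

set_option synthInstance.maxHeartbeats 400000 in
theorem finiteDimensional_FΩ : FiniteDimensional ↥(Ω⟮(D.MΩ Ω).x⟯) ↥(D.FΩ Ω) :=
  Module.finite_of_finrank_pos (by rw [(D.MΩ Ω).deg]; exact M.hN)

set_option synthInstance.maxHeartbeats 400000 in
set_option maxHeartbeats 1600000 in
/-- `FΩ / Ω` is a function field. -/
theorem isRRField_FΩ [IsAlgClosed Ω] [CharZero Ω] : IsRRField Ω ↥(D.FΩ Ω) := by
  haveI := D.finiteDimensional_FΩ Ω
  haveI : CharZero ↥(Ω⟮(D.MΩ Ω).x⟯) :=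
    charZero_of_injective_algebraMap (algebraMap Ω ↥(Ω⟮(D.MΩ Ω).x⟯)).injective
  haveI : PerfectField ↥(Ω⟮(D.MΩ Ω).x⟯) := PerfectField.ofCharZero
  haveI : Algebra.IsSeparable ↥(Ω⟮(D.MΩ Ω).x⟯) ↥(D.FΩ Ω) :=
    Algebra.IsAlgebraic.isSeparable_of_perfectField
  exact isRRField_of_separable (D.MΩ Ω).x_trans

/-- **the base change setup in characteristic `0`**. -/
def bcSetup [IsAlgClosed Ω] [CharZero Ω] (hRR : IsRRField K F) : BCSetup K F Ω ↥(D.FΩ Ω) where
  φ := D.φΩ Ω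
  isConstExt := D.isConstExt_φΩ Ω
  hF := hRR
  hΩ := D.isRRField_FΩ Ω
  act := lffAct K Ω ({D.xK, D.yK} : Set (LaurentSeries K)) _ (D.hSΩ Ω)
  baseAut_act := fun σ a => baseAut_lffAct K Ω _ _ (D.hSΩ Ω) σ a
  act_φ := fun σ f => lffAct_theta K Ω _ _ (D.hSΩ Ω) σ (D.ψ' f)

end RedDatum

end Fermat.Agent.S27
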