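import Mathlib
import Fermat.Agent.S27.Red.Defs
import Fermat.Agent.F3.Transfer.Place
import Fermat.Agent.Lib.RR.Riemann

set_option autoImplicit false

/-!
# S27, block C, leaf PINF: the place at infinity of an embedding into Laurent series  (helper28)

`ψ : F →ₐ[L] L((t))` an embedding of a field `F / L`, `t ∈ F` with `ord (ψ t) = 1`.

* `embPlace ψ t ht : Place L F` : the place with valuation ring `{f | ∀ n < 0, (ψ f).coeff n = 0}`;
* `embPlace_ord` : its order function is the order of the Laurent series, `ord f = (ψ f).order`;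
* `le_degree_poleDiv_of_ord`, `eq_of_ord_neg_of_degree_le` : general facts on pole divisors
  (`IsRRField`): a pole `P` of `u` contributes `- ord_P u` to `deg (u)_∞`, and if
  `deg (u)_∞ ≤ - ord_P u` then `P` is the only pole of `u`;
* `order_paramX`, `order_paramY` : `ord (t^(-N) w) = -N`, `ord (t^(-N-1) w) = -(N+1)` for `w(0) ≠ 0`.
-/

noncomputable section

namespace Fermat.Agent.S27

open AlgebraicCurve Fermat.Agent.RR
open scoped WithZero

section Laurent

variable {L : Type*} [Field L]

/-- the valuation of a nonzero Laurent series is `exp (- order)`. -/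
theorem pinf_valuation_eq_exp_neg_order {z : LaurentSeries L} (hz : z ≠ 0) :
    (Valued.v z : ℤᵐ⁰) = WithZero.exp (-(z.order)) := by
  have ha : (Valued.v z : ℤᵐ⁰) ≠ 0 := (Valuation.ne_zero_iff _).mpr hz
  have h1 : (Valued.v z : ℤᵐ⁰) ≤ WithZero.exp (-(z.order)) :=
    (LaurentSeries.valuation_le_iff_coeff_lt_eq_zero L).mpr
      fun n hn => HahnSeries.coeff_eq_zero_of_lt_order hn
  have h2 : z.order ≤ -(WithZero.log (Valued.v z : ℤᵐ⁰)) := by
    have := (WithZero.log_le_log ha WithZero.exp_ne_zero).mpr h1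
    rw [WithZero.log_exp] at this
    omega
  have h3 : -(WithZero.log (Valued.v z : ℤᵐ⁰)) ≤ z.order := by
    by_contra hlt
    rw [not_le] at hlt
    have h4 : (Valued.v z : ℤᵐ⁰) ≤ WithZero.exp (-(-(WithZero.log (Valued.v z : ℤᵐ⁰)))) := by
      rw [neg_neg, WithZero.exp_log ha]
    have h5 := (LaurentSeries.valuation_le_iff_coeff_lt_eq_zero L).mp h4 z.order hlt
    exact hz (HahnSeries.coeff_order_eq_zero.mp h5)
  have h6 : z.order = -(WithZero.log (Valued.v z : ℤᵐ⁰)) := le_antisymm h2 h3
  rw [h6, neg_neg, WithZero.exp_log ha]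

theorem pinf_algebraMap_eq_single (c : L) :
    algebraMap L (LaurentSeries L) c = HahnSeries.single 0 c := by
  have h1 : algebraMap L (PowerSeries L) c = PowerSeries.C c := by simp
  rw [HahnSeries.algebraMap_apply', h1, HahnSeries.ofPowerSeries_C]
  rfl

/-- the order of a power series with nonzero constant coefficient is `0`. -/
theorem pinf_order_ofPowerSeries {w : PowerSeries L} (hw : PowerSeries.constantCoeff w ≠ 0) :
    (HahnSeries.ofPowerSeries ℤ L w).order = 0 := by
  have hc0 : (HahnSeries.ofPowerSeries ℤ L w).coeff 0 ≠ 0 := by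
    have h := PowerSeries.coeff_coe (f := w) (0 : ℤ)
    change ((w : LaurentSeries L)).coeff 0 = _ at h
    change ((w : LaurentSeries L)).coeff 0 ≠ 0
    rw [h]
    simpa using hw
  have hne : HahnSeries.ofPowerSeries ℤ L w ≠ 0 := fun h => hc0 (by rw [h]; rfl)
  refine le_antisymm (HahnSeries.order_le_of_coeff_ne_zero hc0) ?_
  by_contra hlt
  rw [not_le] at hlt
  apply hne
  rw [← HahnSeries.coeff_order_eq_zero]
  have h := PowerSeries.coeff_coe (f := w) (HahnSeries.ofPowerSeries ℤ L w).order
  change ((w : LaurentSeries L)).coeff _ = _ at h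
  change ((w : LaurentSeries L)).coeff _ = 0
  rw [h, if_pos hlt]

theorem pinf_ofPowerSeries_ne_zero {w : PowerSeries L} (hw : PowerSeries.constantCoeff w ≠ 0) :
    HahnSeries.ofPowerSeries ℤ L w ≠ 0 := by
  intro h
  apply hw
  have h1 : w = 0 := HahnSeries.ofPowerSeries_injective (by rw [h, map_zero])
  rw [h1, map_zero]

theorem pinf_order_single_mul (n : ℤ) {w : PowerSeries L}
    (hw : PowerSeries.constantCoeff w ≠ 0) :
    (HahnSeries.single n (1 : L) * HahnSeries.ofPowerSeries ℤ L w).order = n := by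
  rw [HahnSeries.order_mul (HahnSeries.single_ne_zero one_ne_zero)
    (pinf_ofPowerSeries_ne_zero hw), HahnSeries.order_single one_ne_zero,
    pinf_order_ofPowerSeries hw, add_zero]

/-- `ord (t^(-N) w) = -N`. -/
theorem order_paramX (N : ℕ) {w : PowerSeries L} (hw : PowerSeries.constantCoeff w ≠ 0) :
    (paramX N w).order = -(N : ℤ) :=
  pinf_order_single_mul _ hw

/-- `ord (t^(-N-1) w) = -(N+1)`. -/
theorem order_paramY (N : ℕ) {w : PowerSeries L} (hw : PowerSeries.constantCoeff w ≠ 0) :
    (paramY N w).order = -((N : ℤ) + 1) := by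
  have h := pinf_order_single_mul (-(N : ℤ) - 1) hw
  unfold paramY
  rw [h]
  ring

theorem paramX_ne_zero (N : ℕ) {w : PowerSeries L} (hw : PowerSeries.constantCoeff w ≠ 0) :
    paramX N w ≠ 0 :=
  mul_ne_zero (HahnSeries.single_ne_zero one_ne_zero) (pinf_ofPowerSeries_ne_zero hw)

theorem paramY_ne_zero (N : ℕ) {w : PowerSeries L} (hw : PowerSeries.constantCoeff w ≠ 0) :
    paramY N w ≠ 0 :=
  mul_ne_zero (HahnSeries.single_ne_zero one_ne_zero) (pinf_ofPowerSeries_ne_zero hw)

/-- `x / y = t` has order `1`. -/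
theorem order_paramX_div_paramY (N : ℕ) {w : PowerSeries L}
    (hw : PowerSeries.constantCoeff w ≠ 0) :
    (paramX N w / paramY N w).order = 1 := by
  have hx := paramX_ne_zero N hw
  have hy := paramY_ne_zero N hw
  have hq : paramX N w / paramY N w ≠ 0 := div_ne_zero hx hy
  have h := HahnSeries.order_mul hq hy
  rw [div_mul_cancel₀ _ hy, order_paramX N hw, order_paramY N hw] at h
  omega

end Laurent

section Emb

variable {L F : Type*} [Field L] [Field F] [Algebra L F] (ψ : F →ₐ[L] LaurentSeries L)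

/-- the Laurent valuation pulled back along `ψ`. -/
def embVal : Valuation F ℤᵐ⁰ :=
  (Valued.v (R := LaurentSeries L) (Γ₀ := ℤᵐ⁰)).comap (ψ : F →+* LaurentSeries L)

theorem embVal_apply (f : F) : embVal ψ f = Valued.v (ψ f) := rfl

theorem embVal_eq_exp {f : F} (hf : f ≠ 0) : embVal ψ f = WithZero.exp (-((ψ f).order)) := by
  rw [embVal_apply]
  exact pinf_valuation_eq_exp_neg_order ((map_ne_zero ψ).mpr hf)

theorem embVal_le_one_iff (f : F) :
    embVal ψ f ≤ 1 ↔ ∀ n : ℤ, n < 0 → (ψ f).coeff n = 0 := by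
  rw [embVal_apply]
  have h := LaurentSeries.valuation_le_iff_coeff_lt_eq_zero L (D := 0) (f := ψ f)
  rw [neg_zero, WithZero.exp_zero] at h
  exact h

theorem embVal_algebraMap_le (a : L) : embVal ψ (algebraMap L F a) ≤ 1 := by
  rw [embVal_le_one_iff]
  intro n hn
  rw [ψ.commutes, pinf_algebraMap_eq_single]
  exact HahnSeries.coeff_single_of_ne hn.ne

theorem embVal_nontrivial (t : F) (ht : (ψ t).order = 1) : ∃ x : F, x ≠ 0 ∧ embVal ψ x ≠ 1 := by
  have ht0 : t ≠ 0 := by
    rintro rfl
    rw [map_zero, HahnSeries.order_zero] at ht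
    exact zero_ne_one ht
  refine ⟨t, ht0, ?_⟩
  rw [embVal_eq_exp ψ ht0, ht, ← WithZero.exp_zero]
  intro h
  have := WithZero.exp_injective h
  omega

/-- **the place at infinity**: the place of `F` of the order of Laurent series. -/
def embPlace (t : F) (ht : (ψ t).order = 1) : Place L F :=
  Fermat.Agent.F3T.placeOfValuation (embVal ψ) (embVal_algebraMap_le ψ) (embVal_nontrivial ψ t ht)

theorem mem_embPlace_iff (t : F) (ht : (ψ t).order = 1) (f : F) :
    f ∈ (embPlace ψ t ht).toValuationSubring ↔ ∀ n : ℤ, n < 0 → (ψ f).coeff n = 0 := by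
  unfold embPlace
  rw [Fermat.Agent.F3T.placeOfValuation_toValuationSubring, Valuation.mem_valuationSubring_iff,
    embVal_le_one_iff]

/-- the order function of `embPlace` is the order of Laurent series. -/
theorem embPlace_ord (t : F) (ht : (ψ t).order = 1) (f : F) (hf : f ≠ 0) :
    (embPlace ψ t ht).ord f = (ψ f).order := by
  obtain ⟨e, he, hord⟩ := Fermat.Agent.F3T.exists_mul_ord_placeOfValuation (embVal ψ)
    (embVal_algebraMap_le ψ) (embVal_nontrivial ψ t ht)
  have ht0 : t ≠ 0 := by
    rintro rfl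
    rw [map_zero, HahnSeries.order_zero] at ht
    exact zero_ne_one ht
  have hlog : ∀ x : F, x ≠ 0 → -WithZero.log (embVal ψ x) = (ψ x).order := by
    intro x hx
    rw [embVal_eq_exp ψ hx, WithZero.log_exp, neg_neg]
  have h1 := hord t ht0
  rw [hlog t ht0, ht] at h1
  -- `1 = e * ord t` with `e > 0` forces `e = 1`
  have he1 : (e : ℤ) = 1 := by
    have hdvd : (e : ℤ) ∣ 1 := ⟨_, h1⟩
    have hpos : (0 : ℤ) < e := by exact_mod_cast he
    exact Int.eq_one_of_dvd_one hpos.le hdvd
  have h2 := hord f hf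
  rw [hlog f hf, he1, one_mul] at h2
  exact h2.symm

theorem embPlace_ord_zero' (t : F) (ht : (ψ t).order = 1) :
    (embPlace ψ t ht).ord t = 1 := by
  have ht0 : t ≠ 0 := by
    rintro rfl
    rw [map_zero, HahnSeries.order_zero] at ht
    exact zero_ne_one ht
  rw [embPlace_ord ψ t ht t ht0, ht]

end Emb

section PoleDiv

variable {L F : Type*} [Field L] [Field F] [Algebra L F]

/-- a pole `P` of `u` contributes `- ord_P u` to the degree of the pole divisor. -/
theorem le_degree_poleDiv_of_ord (h : IsRRField L F) (P : Place L F) (u : F)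
    (hu : P.ord u < 0) : -P.ord u ≤ Divisor.degree (poleDiv h u) := by
  rw [degree_eq_sum h]
  have hP : poleDiv h u P = -P.ord u := by
    rw [poleDiv_apply]
    exact max_eq_left (by omega)
  have hmem : P ∈ (poleDiv h u).support := by
    rw [Finsupp.mem_support_iff, hP]
    omega
  rw [← hP]
  exact Finset.single_le_sum (f := fun v => poleDiv h u v)
    (fun v _ => by rw [poleDiv_apply]; exact le_max_right _ _) hmem

/-- if `deg (u)_∞ ≤ - ord_P u` then `P` is the only pole of `u`. -/
theorem eq_of_ord_neg_of_degree_le (h : IsRRField L F) (P : Place L F) (u : F)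
    (hu : P.ord u < 0) (hdeg : Divisor.degree (poleDiv h u) ≤ -P.ord u) :
    ∀ Q : Place L F, Q.ord u < 0 → Q = P := by
  classical
  intro Q hQ
  by_contra hne
  rw [degree_eq_sum h] at hdeg
  have hP : poleDiv h u P = -P.ord u := by
    rw [poleDiv_apply]
    exact max_eq_left (by omega)
  have hQv : poleDiv h u Q = -Q.ord u := by
    rw [poleDiv_apply]
    exact max_eq_left (by omega)
  have hPm : P ∈ (poleDiv h u).support := by
    rw [Finsupp.mem_support_iff, hP]
    omega
  have hQm : Q ∈ (poleDiv h u).support := by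
    rw [Finsupp.mem_support_iff, hQv]
    omega
  have hsub : ({P, Q} : Finset (Place L F)) ⊆ (poleDiv h u).support := by
    intro v hv
    rw [Finset.mem_insert, Finset.mem_singleton] at hv
    rcases hv with rfl | rfl
    · exact hPm
    · exact hQm
  have hle := Finset.sum_le_sum_of_subset_of_nonneg (f := fun v => poleDiv h u v) hsub
    (fun v _ _ => by rw [poleDiv_apply]; exact le_max_right _ _)
  have hPQ : P ≠ Q := fun hpq => hne hpq.symm
  rw [Finset.sum_pair hPQ, hP, hQv] at hle
  omega

end PoleDiv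

end Fermat.Agent.S27
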