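/-
S27, block C (construction side, helper75), leaf POLE-Y (helper18).

`PlaneModel.pole_y M P : P.ord M.y < 0 → P.ord M.x < 0`: a pole of `y` is a pole of `x`, because
`y` is integral over `K[x]` (`M.f` is monic in `Y`) and the valuation ring of a place is
integrally closed.  More generally `PlaneModel.ord_pmEv_nonneg`: every `P(x, y)` is regular at
every place at which `x` is regular.
-/
import Mathlib
import Fermat.Agent.S27.Red.Defs
import Fermat.Agent.S24.Residue

set_option autoImplicit false

noncomputable section

namespace Fermat.Agent.S27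

open Polynomial AlgebraicCurve

variable {K F : Type*} [Field K] [Field F] [Algebra K F]

/-- polynomials in a regular function are regular. -/
theorem poleY_aeval_mem (P : Place K F) {x : F} (hx : x ∈ P.toValuationSubring) (p : K[X]) :
    Polynomial.aeval x p ∈ P.toValuationSubring := by
  rw [Polynomial.aeval_eq_sum_range]
  refine sum_mem fun i _ => ?_
  rw [Algebra.smul_def]
  exact mul_mem (P.algebraMap_mem' _) (pow_mem hx i)

/-- a root `y` of a polynomial that is monic in `Y`, with coefficients in `K[x]`, is regular at
every place at which `x` is regular. -/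
theorem poleY_mem_of_root (P : Place K F) {x y : F} (hx : x ∈ P.toValuationSubring)
    (f : K[X][X]) (hf : f.Monic) (hroot : pmEv x y f = 0) : y ∈ P.toValuationSubring := by
  set ψ : K[X] →+* P.toValuationSubring :=
    ((Polynomial.aeval x : K[X] →ₐ[K] F).toRingHom).codRestrict P.toValuationSubring
      (fun p => poleY_aeval_mem P hx p) with hψ
  have hcomp : (algebraMap P.toValuationSubring F).comp ψ =
      (Polynomial.aeval x : K[X] →ₐ[K] F).toRingHom := by
    ext p <;> rfl
  have hint : IsIntegral P.toValuationSubring y := by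
    refine ⟨f.map ψ, hf.map ψ, ?_⟩
    rw [Polynomial.eval₂_map, hcomp]
    exact hroot
  obtain ⟨z, hz⟩ := (IsIntegrallyClosed.isIntegral_iff (R := P.toValuationSubring) (K := F)).mp
    hint
  rw [← hz]
  exact z.2

/-- a root `y` of a polynomial that is monic in `Y`, with coefficients in `K[x]`: a pole of `y`
is a pole of `x`. -/
theorem poleY_ord_neg_of_root (P : Place K F) {x y : F} (f : K[X][X]) (hf : f.Monic)
    (hroot : pmEv x y f = 0) (hy : P.ord y < 0) : P.ord x < 0 := by
  by_contra hx
  have hxO : x ∈ P.toValuationSubring :=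
    Fermat.Agent.S24Res.mem_of_ord_nonneg P (not_lt.mp hx)
  have hyO := poleY_mem_of_root P hxO f hf hroot
  have := Fermat.Agent.S24Res.ord_nonneg_of_mem P hyO
  omega

/-- **(POLE-Y)** a pole of `y` is a pole of `x`. -/
theorem PlaneModel.pole_y (M : PlaneModel K F) (P : Place K F) :
    P.ord M.y < 0 → P.ord M.x < 0 :=
  poleY_ord_neg_of_root P M.f M.monic M.root

/-- every `G(x, y)` is regular at every place at which `x` is regular. -/
theorem PlaneModel.ord_pmEv_nonneg (M : PlaneModel K F) (P : Place K F) (hx : 0 ≤ P.ord M.x)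
    (G : K[X][X]) : 0 ≤ P.ord (pmEv M.x M.y G) := by
  have hxO : M.x ∈ P.toValuationSubring := Fermat.Agent.S24Res.mem_of_ord_nonneg P hx
  have hyO : M.y ∈ P.toValuationSubring := poleY_mem_of_root P hxO M.f M.monic M.root
  refine Fermat.Agent.S24Res.ord_nonneg_of_mem P ?_
  have h1 : pmEv M.x M.y G =
      Polynomial.eval₂ ((Polynomial.aeval M.x : K[X] →ₐ[K] F).toRingHom) M.y G := rfl
  rw [h1, Polynomial.eval₂_eq_sum_range]
  refine sum_mem fun i _ => ?_
  exact mul_mem (poleY_aeval_mem P hxO _) (pow_mem hyO i)

end Fermat.Agent.S27
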