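/-
S27, CONSTRUCTION leaf RES-ALG (helper20): the residue field of a valuation ring `AΩ` of `Ω` as an
algebra over the residue field of `A = AΩ ∩ K`.

`K ⊂ Ω` fields, `A` a valuation ring of `K`, `AΩ` a valuation ring of `Ω` with
`h : AΩ.comap (algebraMap K Ω) = A`.

* `resAlgIncl h : A →+* AΩ`, a local homomorphism (`resAlgIncl_isLocalHom`);
* `resAlgHom h : ResidueField A →+* ResidueField AΩ`, `resAlgHom_residue`;
* `resAlgebra h : Algebra (ResidueField A) (ResidueField AΩ)` (a DEFINITION, not an instance);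
* `valResOf h : ValRes K Ω (ResidueField A) (ResidueField AΩ)` (with `resAlgebra h`), `A = AΩ`,
  `res = residue`; `valResOf_resKSurj h : (valResOf h).ResKSurj`.
-/
import Mathlib
import Fermat.Agent.S27.Lift.Interface

set_option autoImplicit false
set_option linter.style.haveILetI false

noncomputable section

namespace Fermat.Agent.S27

variable {K Ω : Type*} [Field K] [Field Ω] [Algebra K Ω]
variable {A : ValuationSubring K} {AΩ : ValuationSubring Ω}

theorem resAlg_mem (h : AΩ.comap (algebraMap K Ω) = A) {a : K} :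
    algebraMap K Ω a ∈ AΩ ↔ a ∈ A := by
  rw [← h, ValuationSubring.mem_comap]

/-- the inclusion `A → AΩ`. -/
def resAlgIncl (h : AΩ.comap (algebraMap K Ω) = A) : A →+* AΩ where
  toFun a := ⟨algebraMap K Ω a, (resAlg_mem h).mpr a.2⟩
  map_one' := by ext; simp
  map_mul' a b := by ext; simp
  map_zero' := by ext; simp
  map_add' a b := by ext; simp

@[simp] theorem coe_resAlgIncl (h : AΩ.comap (algebraMap K Ω) = A) (a : A) :
    ((resAlgIncl h a : AΩ) : Ω) = algebraMap K Ω (a : K) := rfl

theorem resAlgIncl_isLocalHom (h : AΩ.comap (algebraMap K Ω) = A) :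
    IsLocalHom (resAlgIncl h) := by
  constructor
  intro a ha
  obtain ⟨u, hu⟩ := ha
  have h1 : ((u : AΩ) : Ω) * (((u⁻¹ : AΩˣ) : AΩ) : Ω) = 1 := congrArg Subtype.val u.mul_inv
  rw [hu, coe_resAlgIncl] at h1
  have ha0 : (a : K) ≠ 0 := by
    intro h0
    rw [h0, map_zero, zero_mul] at h1
    exact zero_ne_one h1
  have h2 : (((u⁻¹ : AΩˣ) : AΩ) : Ω) = algebraMap K Ω (a : K)⁻¹ := by
    rw [map_inv₀]
    exact eq_inv_of_mul_eq_one_right h1
  have h3 : (a : K)⁻¹ ∈ A := by
    rw [← resAlg_mem h, ← h2]
    exact ((u⁻¹ : AΩˣ) : AΩ).2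
  refine IsUnit.of_mul_eq_one (⟨(a : K)⁻¹, h3⟩ : A) ?_
  ext
  simp [mul_inv_cancel₀ ha0]

/-- the map of residue fields. -/
def resAlgHom (h : AΩ.comap (algebraMap K Ω) = A) :
    IsLocalRing.ResidueField A →+* IsLocalRing.ResidueField AΩ :=
  haveI := resAlgIncl_isLocalHom h
  IsLocalRing.ResidueField.map (resAlgIncl h)

theorem resAlgHom_residue (h : AΩ.comap (algebraMap K Ω) = A) (a : A) :
    resAlgHom h (IsLocalRing.residue A a) = IsLocalRing.residue AΩ (resAlgIncl h a) := by
  haveI := resAlgIncl_isLocalHom h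
  exact IsLocalRing.ResidueField.map_residue (resAlgIncl h) a

/-- the residue of an element of `K ∩ AΩ`. -/
theorem resAlgHom_residue' (h : AΩ.comap (algebraMap K Ω) = A) (a : K)
    (ha : algebraMap K Ω a ∈ AΩ) :
    IsLocalRing.residue AΩ ⟨algebraMap K Ω a, ha⟩ =
      resAlgHom h (IsLocalRing.residue A ⟨a, (resAlg_mem h).mp ha⟩) := by
  rw [resAlgHom_residue]
  rfl

/-- the algebra structure of the big residue field over the small one (NOT an instance). -/
@[reducible] def resAlgebra (h : AΩ.comap (algebraMap K Ω) = A) :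
    Algebra (IsLocalRing.ResidueField A) (IsLocalRing.ResidueField AΩ) :=
  (resAlgHom h).toAlgebra

theorem resAlgebra_algebraMap (h : AΩ.comap (algebraMap K Ω) = A) :
    letI := resAlgebra h
    algebraMap (IsLocalRing.ResidueField A) (IsLocalRing.ResidueField AΩ) = resAlgHom h := rfl

theorem resAlgebra_algebraMap_residue (h : AΩ.comap (algebraMap K Ω) = A) (a : A) :
    letI := resAlgebra h
    algebraMap (IsLocalRing.ResidueField A) (IsLocalRing.ResidueField AΩ)
      (IsLocalRing.residue A a) = IsLocalRing.residue AΩ (resAlgIncl h a) :=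
  resAlgHom_residue h a

/-- the valued field `(Ω, AΩ)` over `K`, with residue fields `ResidueField A ⊂ ResidueField AΩ`. -/
def valResOf (h : AΩ.comap (algebraMap K Ω) = A) :
    letI := resAlgebra h
    ValRes K Ω (IsLocalRing.ResidueField A) (IsLocalRing.ResidueField AΩ) :=
  letI := resAlgebra h
  { A := AΩ
    res := IsLocalRing.residue AΩ
    res_surj := IsLocalRing.residue_surjective
    res_K := fun a ha => ⟨IsLocalRing.residue A ⟨a, (resAlg_mem h).mp ha⟩,
      (resAlgHom_residue' h a ha).symm⟩ }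

@[simp] theorem valResOf_A (h : AΩ.comap (algebraMap K Ω) = A) :
    letI := resAlgebra h
    (valResOf h).A = AΩ := rfl

@[simp] theorem valResOf_res (h : AΩ.comap (algebraMap K Ω) = A) :
    letI := resAlgebra h
    (valResOf h).res = IsLocalRing.residue AΩ := rfl

/-- every element of the small residue field is the residue of an element of `K ∩ AΩ`. -/
theorem resKSurj_of_comap (h : AΩ.comap (algebraMap K Ω) = A) (b : IsLocalRing.ResidueField A) :
    ∃ (a : K) (ha : algebraMap K Ω a ∈ AΩ),
      IsLocalRing.residue AΩ ⟨algebraMap K Ω a, ha⟩ = resAlgHom h b := by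
  obtain ⟨a, rfl⟩ := IsLocalRing.residue_surjective b
  exact ⟨a, (resAlg_mem h).mpr a.2, resAlgHom_residue' h a _⟩

theorem valResOf_resKSurj (h : AΩ.comap (algebraMap K Ω) = A) :
    letI := resAlgebra h
    (valResOf h).ResKSurj := by
  letI := resAlgebra h
  intro b
  exact resKSurj_of_comap h b

end Fermat.Agent.S27
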