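import Mathlib
import Fermat.Agent.S27.Red.InstBase
import Fermat.Agent.S27.Red.ResAlg
import Fermat.Agent.S27.Red.Count
import Fermat.Agent.S27.Red.PoleY
import Fermat.Agent.S27.Red.PlaceInf
import Fermat.Agent.S27.Red.BranchBC
import Fermat.Agent.S27.Red.Branch
import Fermat.Agent.S27.GR.Lattice
import Fermat.Agent.S27.Lift.ChainProps
import Fermat.Agent.Lib.FF.RedCore
import Fermat.Agent.Lib.FrobTrace.Residue

set_option autoImplicit false
set_option linter.style.haveILetI false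
set_option synthInstance.maxHeartbeats 400000
set_option linter.unusedSectionVars false

/-!
# S27, CONSTRUCTION (helper75): the lift core of a reduction datum

`D : RedDatum M A` (level `K`), `Ω ⊇ K`, `AΩ` a valuation ring of `Ω` over `A`,
`DΩ : RedDatum (D.MΩ Ω) AΩ` a reduction datum of the constant extension whose reduced generators
are the images of those of `D`.  Then `D.liftCore … : LiftCore K F Ω FΩ k Fk ω Fω`.
-/

noncomputable section

namespace Fermat.Agent.S27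

open Polynomial Fermat.Agent.S28 Fermat.Agent.GaussVal ModularCurve IntermediateField
  AlgebraicCurve Fermat.Agent.RR Fermat.Agent.Deuring Fermat.Agent.FF

section BranchImage

variable {K Ω : Type*} [Field K] [Field Ω] [Algebra K Ω]

open Classical in
theorem inst_mem_branchUnits_image {S : Finset K} {t : Ω}
    (ht : t ∈ branchUnits (S.image (algebraMap K Ω))) :
    ∃ t' ∈ branchUnits S, algebraMap K Ω t' = t := by
  classical
  rw [branchUnits, Finset.mem_erase, Finset.mem_union] at ht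
  obtain ⟨ht0, ht | ht⟩ := ht
  · obtain ⟨c, hc, rfl⟩ := Finset.mem_image.mp ht
    have hc0 : c ≠ 0 := fun h => ht0 (by rw [h, map_zero])
    exact ⟨c, mem_branchUnits_of_mem hc hc0, rfl⟩
  · obtain ⟨⟨a, b⟩, hab, rfl⟩ := Finset.mem_image.mp ht
    rw [Finset.mem_product] at hab
    obtain ⟨c, hc, rfl⟩ := Finset.mem_image.mp hab.1
    obtain ⟨c', hc', rfl⟩ := Finset.mem_image.mp hab.2
    have hne : c ≠ c' := by
      rintro rfl
      exact ht0 (sub_self _)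
    exact ⟨c - c', sub_mem_branchUnits hc hc' hne, map_sub _ _ _⟩

end BranchImage

variable {K F : Type*} [Field K] [Field F] [Algebra K F]

namespace RedDatum

variable {M : PlaneModel K F} {A : ValuationSubring K} (D : RedDatum M A)
  (Ω : Type*) [Field Ω] [Algebra K Ω] (AΩ : ValuationSubring Ω)
  [Algebra (IsLocalRing.ResidueField ↥A) (IsLocalRing.ResidueField ↥AΩ)]
  (DΩ : RedDatum (D.MΩ Ω) AΩ)
  (hxb : DΩ.xbarS = coeffMap (algebraMap (IsLocalRing.ResidueField ↥A)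
    (IsLocalRing.ResidueField ↥AΩ)) D.xbarS)
  (hyb : DΩ.ybarS = coeffMap (algebraMap (IsLocalRing.ResidueField ↥A)
    (IsLocalRing.ResidueField ↥AΩ)) D.ybarS)

include hxb hyb in
theorem hSp : coeffMap (algebraMap (IsLocalRing.ResidueField ↥A) (IsLocalRing.ResidueField ↥AΩ)) ''
    ({D.xbarS, D.ybarS} : Set (LaurentSeries (IsLocalRing.ResidueField ↥A))) =
    ({DΩ.xbarS, DΩ.ybarS} : Set (LaurentSeries (IsLocalRing.ResidueField ↥AΩ))) := by
  rw [Set.image_pair, ← hxb, ← hyb]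

/-- the constant extension in characteristic `p`. -/
def φp : ↥D.Fk →+* ↥DΩ.Fk :=
  lffTheta (IsLocalRing.ResidueField ↥A) (IsLocalRing.ResidueField ↥AΩ)
    ({D.xbarS, D.ybarS} : Set (LaurentSeries (IsLocalRing.ResidueField ↥A)))
    ({DΩ.xbarS, DΩ.ybarS} : Set (LaurentSeries (IsLocalRing.ResidueField ↥AΩ)))
    (D.hSp Ω AΩ DΩ hxb hyb)

theorem coe_φp (z : ↥D.Fk) :
    ((D.φp Ω AΩ DΩ hxb hyb z : ↥DΩ.Fk) : LaurentSeries (IsLocalRing.ResidueField ↥AΩ)) =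
      coeffMap (algebraMap (IsLocalRing.ResidueField ↥A) (IsLocalRing.ResidueField ↥AΩ))
        (z : LaurentSeries (IsLocalRing.ResidueField ↥A)) := rfl

/-- **the base change setup in characteristic `p`**. -/
def bpSetup [IsAlgClosed (IsLocalRing.ResidueField ↥A)]
    [IsAlgClosed (IsLocalRing.ResidueField ↥AΩ)] :
    BCSetup (IsLocalRing.ResidueField ↥A) ↥D.Fk (IsLocalRing.ResidueField ↥AΩ) ↥DΩ.Fk where
  φ := D.φp Ω AΩ DΩ hxb hyb
  isConstExt := isConstExt_lffTheta _ _ _ _ (D.hSp Ω AΩ DΩ hxb hyb)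
  hF := D.isRRField_Fk
  hΩ := DΩ.isRRField_Fk
  act := lffAct _ _ _ _ (D.hSp Ω AΩ DΩ hxb hyb)
  baseAut_act := fun σ a => baseAut_lffAct _ _ _ _ (D.hSp Ω AΩ DΩ hxb hyb) σ a
  act_φ := fun σ f => lffAct_theta _ _ _ _ (D.hSp Ω AΩ DΩ hxb hyb) σ f


/-- the reduction of the constant extension as a `ValSetup`. -/
def valSetupΩ [IsAlgClosed Ω] [CharZero Ω] [IsAlgClosed (IsLocalRing.ResidueField ↥AΩ)] :
    ValSetup Ω ↥(D.FΩ Ω) (IsLocalRing.ResidueField ↥AΩ) ↥DΩ.Fk :=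
  DΩ.redModel.toValSetup (D.isRRField_FΩ Ω) DΩ.isRRField_Fk

theorem valSetupΩ_A [IsAlgClosed Ω] [CharZero Ω] [IsAlgClosed (IsLocalRing.ResidueField ↥AΩ)] :
    (D.valSetupΩ Ω AΩ DΩ).A = AΩ := rfl

theorem valSetupΩ_red_of_mem [IsAlgClosed Ω] [CharZero Ω]
    [IsAlgClosed (IsLocalRing.ResidueField ↥AΩ)] (z : ↥(D.FΩ Ω)) (hz : z ∈ DΩ.O) :
    (D.valSetupΩ Ω AΩ DΩ).red z = DΩ.rho ⟨z, hz⟩ :=
  (D.valSetupΩ Ω AΩ DΩ).red_of_mem hz

include hxb in
theorem red_xΩ [IsAlgClosed Ω] [CharZero Ω] [IsAlgClosed (IsLocalRing.ResidueField ↥AΩ)] :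
    (D.valSetupΩ Ω AΩ DΩ).red (D.φΩ Ω M.x) = D.φp Ω AΩ DΩ hxb hyb (D.rho ⟨M.x, D.x_mem⟩) := by
  rw [D.φΩ_x Ω, D.valSetupΩ_red_of_mem Ω AΩ DΩ _ DΩ.x_mem]
  apply Subtype.ext
  rw [DΩ.coe_rho_x, D.coe_φp, D.coe_rho_x]
  exact hxb

include hyb in
theorem red_yΩ [IsAlgClosed Ω] [CharZero Ω] [IsAlgClosed (IsLocalRing.ResidueField ↥AΩ)] :
    (D.valSetupΩ Ω AΩ DΩ).red (D.φΩ Ω M.y) = D.φp Ω AΩ DΩ hxb hyb (D.rho ⟨M.y, D.y_mem⟩) := by
  rw [D.φΩ_y Ω, D.valSetupΩ_red_of_mem Ω AΩ DΩ _ DΩ.y_mem]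
  apply Subtype.ext
  rw [DΩ.coe_rho_y, D.coe_φp, D.coe_rho_y]
  exact hyb

include hxb in
theorem φp_xb : D.φp Ω AΩ DΩ hxb hyb (D.rho ⟨M.x, D.x_mem⟩) = DΩ.redModel.xbar := by
  apply Subtype.ext
  rw [D.coe_φp, D.coe_rho_x]
  show _ = ((DΩ.rho ⟨(D.MΩ Ω).x, DΩ.x_mem⟩ : ↥DΩ.Fk) :
    LaurentSeries (IsLocalRing.ResidueField ↥AΩ))
  rw [DΩ.coe_rho_x]
  exact hxb.symm

end RedDatum

end Fermat.Agent.S27
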