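import Mathlib
import Fermat.Agent.S27.Red.InstLift

set_option autoImplicit false
set_option linter.style.haveILetI false
set_option synthInstance.maxHeartbeats 400000
set_option linter.unusedSectionVars false

/-!
# S27, CONSTRUCTION (helper75): genus equality and degrees for the lift core
-/

noncomputable section

namespace Fermat.Agent.S27

open Polynomial Fermat.Agent.S28 Fermat.Agent.GaussVal ModularCurve IntermediateField
  AlgebraicCurve Fermat.Agent.RR Fermat.Agent.Deuring Fermat.Agent.FF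

variable {K F : Type*} [Field K] [Field F] [Algebra K F]

namespace RedDatum

variable {M : PlaneModel K F} {A : ValuationSubring K} (D : RedDatum M A)
  (Ω : Type*) [Field Ω] [Algebra K Ω] (AΩ : ValuationSubring Ω)
  (DΩ : RedDatum (D.MΩ Ω) AΩ)

/-- separability of `FΩ / Ω(x)`. -/
theorem isSeparable_FΩ [CharZero Ω] :
    Algebra.IsSeparable ↥(Ω⟮(D.MΩ Ω).x⟯) ↥(D.FΩ Ω) := by
  haveI := D.finiteDimensional_FΩ Ω
  haveI : CharZero ↥(Ω⟮(D.MΩ Ω).x⟯) :=
    charZero_of_injective_algebraMap (algebraMap Ω ↥(Ω⟮(D.MΩ Ω).x⟯)).injective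
  haveI : PerfectField ↥(Ω⟮(D.MΩ Ω).x⟯) := PerfectField.ofCharZero
  exact Algebra.IsAlgebraic.isSeparable_of_perfectField

open Classical in
/-- the fibres of `xΩ` outside the image of the branch set of `x`. -/
theorem fibreCard_Ω [IsAlgClosed K] [CharZero K] [IsAlgClosed Ω] [CharZero Ω]
    (hRR : IsRRField K F) (S : Finset K)
    (hS : ∀ c : K, c ∉ S → Fermat.Agent.S27GR.fibreCard K M.x c = M.N)
    (c : Ω) (hc : c ∉ S.image (algebraMap K Ω)) :
    Fermat.Agent.S27GR.fibreCard Ω (D.MΩ Ω).x c = M.N := by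
  haveI : FiniteDimensional ↥(K⟮M.x⟯) F :=
    Module.finite_of_finrank_pos (by rw [M.deg]; exact M.hN)
  haveI : Algebra.IsSeparable ↥(K⟮M.x⟯) F := BCSetup.brbc_isSeparable (K := K) M.x
  haveI := D.finiteDimensional_FΩ Ω
  haveI := D.isSeparable_FΩ Ω
  have hφ : (D.bcSetup Ω hRR).φ M.x = (D.MΩ Ω).x := D.φΩ_x Ω
  haveI : Algebra.IsSeparable ↥(Ω⟮(D.bcSetup Ω hRR).φ M.x⟯) ↥(D.FΩ Ω) := by
    rw [hφ]; exact D.isSeparable_FΩ Ω
  have h1 := (D.bcSetup Ω hRR).unramified_bc M.x_trans S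
    (fun a ha => by
      rw [← Fermat.Agent.S27GR.fibreCard_eq_card_zeros M.x_trans a, hS a ha, M.deg]) c
    (fun a ha hac => hc (Finset.mem_image.mpr ⟨a, ha, hac⟩))
  rw [Fermat.Agent.S27GR.fibreCard_eq_card_zeros (D.MΩ Ω).x_trans c, ← M.deg, ← h1, hφ]


open Classical in
/-- **genus equality** for the reduction of the constant extension. -/
theorem genus_eq_Ω [IsAlgClosed K] [CharZero K] [IsAlgClosed Ω] [CharZero Ω]
    [IsAlgClosed (IsLocalRing.ResidueField ↥AΩ)]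
    (h : AΩ.comap (algebraMap K Ω) = A)
    (hRR : IsRRField K F) (S : Finset K)
    (hS : ∀ c : K, c ∉ S → Fermat.Agent.S27GR.fibreCard K M.x c = M.N)
    (hT : ∀ t ∈ branchUnits S, t ∈ A ∧ t⁻¹ ∈ A) :
    genusFF Ω ↥(D.FΩ Ω) = genusFF (IsLocalRing.ResidueField ↥AΩ) ↥DΩ.Fk := by
  have hunr : ∀ c : Ω, c ∉ S.image (algebraMap K Ω) →
      Fermat.Agent.S27GR.fibreCard Ω DΩ.redModel.x c = M.N :=
    fun c hc => D.fibreCard_Ω Ω hRR S hS c hc
  have hT' : ∀ t ∈ branchUnits (S.image (algebraMap K Ω)),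
      t ∈ DΩ.redModel.A ∧ t⁻¹ ∈ DΩ.redModel.A := by
    intro t ht
    obtain ⟨t', ht', rfl⟩ := inst_mem_branchUnits_image ht
    have h1 := hT t' ht'
    refine ⟨(resAlg_mem h).mpr h1.1, ?_⟩
    rw [← map_inv₀]
    exact (resAlg_mem h).mpr h1.2
  exact Fermat.Agent.S27GR.genusFF_eq_of_degData_branchData DΩ.redModel M.N DΩ.degData
    (branchDataOf DΩ.redModel M.N _ hunr hT') (branchDataOf_inv_mem DΩ.redModel M.N _ hunr hT')
    (D.isRRField_FΩ Ω) DΩ.isRRField_Fk

/-- the degree of the pole divisor of `xΩ`. -/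
theorem degree_poleDiv_xΩ [IsAlgClosed Ω] [CharZero Ω] (hΩ : IsRRField Ω ↥(D.FΩ Ω)) :
    Divisor.degree (poleDiv hΩ (D.MΩ Ω).x) = (M.N : ℤ) := by
  haveI := D.finiteDimensional_FΩ Ω
  rw [Fermat.Agent.RRHur.degree_poleDiv_eq_finrank hΩ (D.MΩ Ω).x_trans, (D.MΩ Ω).deg]
  rfl

/-- the degree of the pole divisor of `x̄`. -/
theorem degree_poleDiv_xbar (hk : IsRRField (IsLocalRing.ResidueField ↥A) ↥D.Fk) :
    Divisor.degree (poleDiv hk D.redModel.xbar) = (M.N : ℤ) := by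
  haveI := D.finiteDimensional_Fk
  have hxk : Transcendental (IsLocalRing.ResidueField ↥A) D.redModel.xbar := D.redModel.x_trans
  rw [Fermat.Agent.RRHur.degree_poleDiv_eq_finrank hk hxk, D.degk]

/-- `ȳ` is not constant. -/
theorem ybar_nonconst (z : ↥D.Fk) (hz : (z : LaurentSeries (IsLocalRing.ResidueField ↥A)) = D.ybarS) :
    z ∉ Set.range (algebraMap (IsLocalRing.ResidueField ↥A) ↥D.Fk) := by
  rintro ⟨c, rfl⟩
  have h1 : D.ybarS = paramY M.N D.wbar := coeffMap_paramY _ _ _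
  have h2 := order_paramY M.N D.constantCoeff_wbar_ne_zero
  rw [← h1, ← hz] at h2
  have h3 : ((algebraMap (IsLocalRing.ResidueField ↥A) ↥D.Fk c : ↥D.Fk) :
      LaurentSeries (IsLocalRing.ResidueField ↥A)) =
      HahnSeries.C c := by
    rw [hahnC_eq_algebraMap]
    rfl
  rw [h3] at h2
  have h4 : (HahnSeries.C c : LaurentSeries (IsLocalRing.ResidueField ↥A)).order = 0 :=
    HahnSeries.order_C
  rw [h4] at h2
  have : (0 : ℤ) < (M.N : ℤ) + 1 := by positivity
  omega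

end RedDatum

end Fermat.Agent.S27
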