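import Mathlib
import Fermat.Agent.S27.Red.InstGenus

set_option autoImplicit false
set_option linter.style.haveILetI false
set_option synthInstance.maxHeartbeats 400000
set_option linter.unusedSectionVars false

/-!
# S27, CONSTRUCTION (helper75): the lift core
-/

noncomputable section

namespace Fermat.Agent.S27

open Polynomial Fermat.Agent.S28 Fermat.Agent.GaussVal ModularCurve IntermediateField
  AlgebraicCurve Fermat.Agent.RR Fermat.Agent.Deuring Fermat.Agent.FF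

variable {K F : Type*} [Field K] [Field F] [Algebra K F]

namespace RedDatum

variable {M : PlaneModel K F} {A : ValuationSubring K} (D : RedDatum M A)
  (Ω : Type*) [Field Ω] [Algebra K Ω] (AΩ : ValuationSubring Ω)
  [Algebra (IsLocalRing.ResidueField ↥A) (IsLocalRing.ResidueField ↥AΩ)]
  (DΩ : RedDatum (D.MΩ Ω) AΩ)
  (hxb : DΩ.xbarS = coeffMap (algebraMap (IsLocalRing.ResidueField ↥A)
    (IsLocalRing.ResidueField ↥AΩ)) D.xbarS)
  (hyb : DΩ.ybarS = coeffMap (algebraMap (IsLocalRing.ResidueField ↥A)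
    (IsLocalRing.ResidueField ↥AΩ)) D.ybarS)
  [IsAlgClosed K] [CharZero K] [IsAlgClosed Ω] [CharZero Ω]
  [IsAlgClosed (IsLocalRing.ResidueField ↥A)] [IsAlgClosed (IsLocalRing.ResidueField ↥AΩ)]
  (h : AΩ.comap (algebraMap K Ω) = A)
  (halg : algebraMap (IsLocalRing.ResidueField ↥A) (IsLocalRing.ResidueField ↥AΩ) = resAlgHom h)
  (hRR : IsRRField K F) (S : Finset K)
  (hS : ∀ c : K, c ∉ S → Fermat.Agent.S27GR.fibreCard K M.x c = M.N)
  (hT : ∀ t ∈ branchUnits S, t ∈ A ∧ t⁻¹ ∈ A)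

include h hRR hS hT in
/-- the reduction map of places exists. -/
theorem exists_red :
    ∃ r : Place Ω ↥(D.FΩ Ω) → Place (IsLocalRing.ResidueField ↥AΩ) ↥DΩ.Fk,
      IsReduction (D.valSetupΩ Ω AΩ DΩ) r := by
  haveI : Infinite (IsLocalRing.ResidueField ↥AΩ) := IsAlgClosed.instInfinite
  exact exists_isReduction (D.valSetupΩ Ω AΩ DΩ)
    (DΩ.redModel.hasLattice M.N DΩ.degData (D.isRRField_FΩ Ω) DΩ.isRRField_Fk)
    (D.genus_eq_Ω Ω AΩ DΩ h hRR S hS hT)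

/-- **the lift core**. -/
def liftCore : LiftCore K F Ω ↥(D.FΩ Ω) (IsLocalRing.ResidueField ↥A) ↥D.Fk
    (IsLocalRing.ResidueField ↥AΩ) ↥DΩ.Fk where
  B0 := D.bcSetup Ω hRR
  Bp := D.bpSetup Ω AΩ DΩ hxb hyb
  S := D.valSetupΩ Ω AΩ DΩ
  r := Classical.choose (D.exists_red Ω AΩ DΩ h hRR S hS hT)
  hr := Classical.choose_spec (D.exists_red Ω AΩ DΩ h hRR S hS hT)
  res_K := fun a ha => ⟨IsLocalRing.residue ↥A ⟨a, (resAlg_mem h).mp ha⟩, by
    rw [halg]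
    exact (resAlgHom_residue' h a ha).symm⟩
  genus_eq := D.genus_eq_Ω Ω AΩ DΩ h hRR S hS hT
  x := M.x
  y := M.y
  xb := D.rho ⟨M.x, D.x_mem⟩
  yb := D.rho ⟨M.y, D.y_mem⟩
  hx := M.x_trans
  hxb := D.x_trans
  finb := D.finiteDimensional_Fk
  sepb := D.sepk
  genb := inst_adjoin_pair_eq_top D.xbarS D.ybarS _ _ D.coe_rho_x D.coe_rho_y
  x_mem := by
    show D.φΩ Ω M.x ∈ DΩ.O
    rw [D.φΩ_x Ω]
    exact DΩ.x_mem
  y_mem := by
    show D.φΩ Ω M.y ∈ DΩ.O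
    rw [D.φΩ_y Ω]
    exact DΩ.y_mem
  red_x := D.red_xΩ Ω AΩ DΩ hxb hyb
  red_y := D.red_yΩ Ω AΩ DΩ hxb hyb
  deg_x := by
    show Divisor.degree (poleDiv (D.isRRField_FΩ Ω) (D.φΩ Ω M.x)) ≤
      Divisor.degree (poleDiv DΩ.isRRField_Fk (D.φp Ω AΩ DΩ hxb hyb (D.rho ⟨M.x, D.x_mem⟩)))
    rw [D.φΩ_x Ω, D.φp_xb Ω AΩ DΩ hxb hyb, D.degree_poleDiv_xΩ Ω, DΩ.degree_poleDiv_xbar]
    rfl
  pole_y := fun P hP => by
    have h1 : P.ord (D.MΩ Ω).y < 0 := by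
      rw [← D.φΩ_y Ω]
      exact hP
    have h2 := (D.MΩ Ω).pole_y P h1
    rw [← D.φΩ_x Ω] at h2
    exact h2
  yb_nonconst := by
    apply DΩ.ybar_nonconst
    show ((D.φp Ω AΩ DΩ hxb hyb (D.rho ⟨M.y, D.y_mem⟩) : ↥DΩ.Fk) : LaurentSeries _) = DΩ.ybarS
    rw [D.coe_φp, D.coe_rho_y]
    exact hyb.symm

end RedDatum

end Fermat.Agent.S27
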