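import Mathlib
import Fermat.Agent.S27.Red.InstBase
import Fermat.Agent.S27.Red.ResAlg

set_option autoImplicit false
set_option linter.style.haveILetI false

/-!
# S27, CONSTRUCTION (architect helper75), leaf DATUM-Ω  (helper40)

`D : RedDatum M A` the reduction datum of `F / K` at `A`, `Ω ⊇ K` a field, `AΩ` a valuation ring
of `Ω` over `A` (`h : AΩ.comap (algebraMap K Ω) = A`).  Then `D.datumΩ Ω AΩ h` is the reduction
datum of the plane model `D.MΩ Ω` of `FΩ = Ω(xΩ, yΩ) ⊆ Ω((t))` at `AΩ`, with the SAME equation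
and the SAME parameter `w` (mapped along `A → AΩ`), and `ψ` the inclusion `FΩ ⊆ Ω((t))`.  Hence
the reduced generators over `ω` are the images of the reduced generators over `k`
(`datumΩ_xbarS`, `datumΩ_ybarS`).
-/

noncomputable section

namespace Fermat.Agent.S27

open Polynomial Fermat.Agent.S28 Fermat.Agent.GaussVal ModularCurve IntermediateField

namespace RedDatum

variable {K F : Type*} [Field K] [Field F] [Algebra K F] {M : PlaneModel K F}
  {A : ValuationSubring K} (D : RedDatum M A)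
  (Ω : Type*) [Field Ω] [Algebra K Ω] (AΩ : ValuationSubring Ω)
  (h : AΩ.comap (algebraMap K Ω) = A)

/-- the two ways from `A` to `Ω` agree. -/
theorem instDatum_comp :
    (AΩ.subtype : ↥AΩ →+* Ω).comp (resAlgIncl h) = (algebraMap K Ω).comp A.subtype :=
  RingHom.ext fun _ => rfl

/-- the parameter over `AΩ` gives the parameter `wΩ` over `Ω`. -/
theorem instDatum_map_w :
    PowerSeries.map (AΩ.subtype : ↥AΩ →+* Ω) (PowerSeries.map (resAlgIncl h) D.w) = D.wΩ Ω := by
  ext n
  simp only [wΩ, wK, PowerSeries.coeff_map]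
  rfl

theorem instDatum_coeffMap_paramX :
    coeffMap (AΩ.subtype : ↥AΩ →+* Ω) (paramX M.N (PowerSeries.map (resAlgIncl h) D.w)) =
      D.xΩ Ω := by
  rw [coeffMap_paramX, D.instDatum_map_w Ω AΩ h]
  rfl

theorem instDatum_coeffMap_paramY :
    coeffMap (AΩ.subtype : ↥AΩ →+* Ω) (paramY M.N (PowerSeries.map (resAlgIncl h) D.w)) =
      D.yΩ Ω := by
  rw [coeffMap_paramY, D.instDatum_map_w Ω AΩ h]
  rfl

theorem instDatum_fA_map :
    (D.fA.map (Polynomial.mapRingHom (resAlgIncl h))).map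
        (Polynomial.mapRingHom (AΩ.subtype : ↥AΩ →+* Ω)) = D.fΩ Ω := by
  unfold fΩ
  rw [← D.fA_map, Polynomial.map_map, Polynomial.map_map]
  congr 1
  apply RingHom.ext
  intro p
  simp only [RingHom.comp_apply, Polynomial.coe_mapRingHom, Polynomial.map_map]
  rfl

/-- **the reduction datum of `MΩ` at `AΩ`**, base change of `D`. -/
def datumΩ : RedDatum (D.MΩ Ω) AΩ where
  fA := D.fA.map (Polynomial.mapRingHom (resAlgIncl h))
  fA_map := D.instDatum_fA_map Ω AΩ h
  w := PowerSeries.map (resAlgIncl h) D.w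
  cA := resAlgIncl h D.cA
  cA_eq := by
    show algebraMap K Ω (D.cA : K) = algebraMap K Ω M.c
    rw [D.cA_eq]
  hw := by
    have h1 : PowerSeries.constantCoeff (PowerSeries.map (resAlgIncl h) D.w) =
        resAlgIncl h (PowerSeries.constantCoeff D.w) := by
      rw [← PowerSeries.coeff_zero_eq_constantCoeff_apply, PowerSeries.coeff_map,
        PowerSeries.coeff_zero_eq_constantCoeff_apply]
    rw [h1, ← map_mul, D.hw, map_one]
  root := by
    have h1 := congrArg (coeffMap (resAlgIncl h)) D.root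
    rw [coeffMap_pev2, map_zero, coeffMap_paramX, coeffMap_paramY] at h1
    exact h1
  ψ := (D.FΩ Ω).val
  ψ_x := (D.instDatum_coeffMap_paramX Ω AΩ h).symm
  ψ_y := (D.instDatum_coeffMap_paramY Ω AΩ h).symm
  ψ_ev := fun P => by
    have h1 : (D.MΩ Ω).N = M.N := rfl
    rw [h1, D.instDatum_coeffMap_paramX Ω AΩ h, D.instDatum_coeffMap_paramY Ω AΩ h]
    exact D.val_pmEv Ω P
  ψ_inTL := fun z => by
    have h1 : (D.MΩ Ω).N = M.N := rfl
    rw [h1, D.instDatum_coeffMap_paramX Ω AΩ h, D.instDatum_coeffMap_paramY Ω AΩ h]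
    exact D.inTL_FΩ Ω z
  fact_ne_zero := by
    have h1 : (D.MΩ Ω).N = M.N := rfl
    rw [h1]
    have h2 := (map_ne_zero (algebraMap K Ω)).mpr D.fact_ne_zero
    rwa [map_natCast] at h2
  fact_inv_mem := by
    have h1 : (D.MΩ Ω).N = M.N := rfl
    rw [h1]
    have h2 : algebraMap K Ω (((M.N.factorial : ℕ) : K))⁻¹ ∈ AΩ :=
      (resAlg_mem h).mpr D.fact_inv_mem
    rwa [map_inv₀, map_natCast] at h2

@[simp] theorem datumΩ_w : (D.datumΩ Ω AΩ h).w = PowerSeries.map (resAlgIncl h) D.w := rfl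

@[simp] theorem datumΩ_fA :
    (D.datumΩ Ω AΩ h).fA = D.fA.map (Polynomial.mapRingHom (resAlgIncl h)) := rfl

@[simp] theorem datumΩ_cA : (D.datumΩ Ω AΩ h).cA = resAlgIncl h D.cA := rfl

theorem datumΩ_ψ (z : ↥(D.FΩ Ω)) : (D.datumΩ Ω AΩ h).ψ z = (z : LaurentSeries Ω) := rfl

theorem datumΩ_xR : (D.datumΩ Ω AΩ h).xR = coeffMap (resAlgIncl h) D.xR := by
  unfold xR
  rw [coeffMap_paramX]
  rfl

theorem datumΩ_yR : (D.datumΩ Ω AΩ h).yR = coeffMap (resAlgIncl h) D.yR := by
  unfold yR
  rw [coeffMap_paramY]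
  rfl

/-- reduction commutes with the inclusion `A → AΩ`. -/
theorem instDatum_residue_comp :
    (IsLocalRing.residue ↥AΩ).comp (resAlgIncl h) =
      (resAlgHom h).comp (IsLocalRing.residue ↥A) :=
  RingHom.ext fun a => (resAlgHom_residue h a).symm

theorem instDatum_coeffMap_coeffMap {R S T : Type*} [CommRing R] [CommRing S] [CommRing T]
    (f : R →+* S) (g : S →+* T) (x : LaurentSeries R) :
    coeffMap g (coeffMap f x) = coeffMap (g.comp f) x := by
  ext n
  simp only [coeffMap_coeff, RingHom.comp_apply]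

/-- the reduced generator `x̄` over `ω` is the image of the reduced generator over `k`. -/
theorem datumΩ_xbarS :
    (D.datumΩ Ω AΩ h).xbarS = ModularCurve.coeffMap (resAlgHom h) D.xbarS := by
  unfold xbarS
  rw [D.datumΩ_xR Ω AΩ h, instDatum_coeffMap_coeffMap, instDatum_coeffMap_coeffMap,
    instDatum_residue_comp Ω AΩ h]

/-- the reduced generator `ȳ` over `ω` is the image of the reduced generator over `k`. -/
theorem datumΩ_ybarS :
    (D.datumΩ Ω AΩ h).ybarS = ModularCurve.coeffMap (resAlgHom h) D.ybarS := by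
  unfold ybarS
  rw [D.datumΩ_yR Ω AΩ h, instDatum_coeffMap_coeffMap, instDatum_coeffMap_coeffMap,
    instDatum_residue_comp Ω AΩ h]

end RedDatum

end Fermat.Agent.S27
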