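/-
S27, block C, seat C-TOP (helper63): the UPPER BOUND, unconditional.

* `torsion_finite_and_card_le` : `K` algebraically closed of characteristic `0`, `F / K` an
  `IsRRField`, `ℓ` prime: `Pic⁰(F)[ℓ^j]` is FINITE of order `≤ ℓ^(2 g j)`, for every `j`;
* `torsionUpper_final : TorsionUpper` (the case `j = 1`, as stated in `Top.lean`).

`Red/Upper.lean` (the glue) + `Red/GaussDeg.lean` (C-GAUSS) + `Model/Plane.lean` (block A).
-/
import Mathlib
import Fermat.Agent.S27.Red.Upper
import Fermat.Agent.S27.Red.GaussDeg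
import Fermat.Agent.S27.Model.Plane

set_option autoImplicit false

noncomputable section

open AlgebraicCurve Fermat.Agent.RR

namespace Fermat.Agent.S27

universe u v

/-- block A in the form used by `torsionUpper`. -/
theorem nonempty_planeModel' (K : Type u) (F : Type v) [Field K] [Field F] [Algebra K F]
    [IsAlgClosed K] [CharZero K] (h : IsRRField K F) : Nonempty (PlaneModel K F) := by
  obtain ⟨M, -⟩ := nonempty_planeModel h
  exact ⟨M⟩

/-- **(U), strong form**: `Pic⁰(F)[ℓ^j]` is finite of order `≤ ℓ^(2 g j)`. -/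
theorem torsion_finite_and_card_le (K : Type u) (F : Type v) [Field K] [Field F] [Algebra K F]
    [IsAlgClosed K] [CharZero K] (hRR : IsRRField K F) (ℓ : ℕ) (hℓ : ℓ.Prime) (j : ℕ) :
    Finite (Pic0.torsion K F (ℓ ^ j)) ∧
      Nat.card (Pic0.torsion K F (ℓ ^ j)) ≤ ℓ ^ (2 * genusFF K F * j) :=
  torsionUpper_pow redModelStatement.{u, v} (fun K F _ _ _ _ _ h => nonempty_planeModel' K F h)
    K F hRR ℓ hℓ j

/-- **(U)**: the upper bound `#Pic⁰(F)[ℓ] ≤ ℓ^(2g)` in characteristic `0`. -/
theorem torsionUpper_final : TorsionUpper.{u, v} :=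
  torsionUpper redModelStatement.{u, v} (fun K F _ _ _ _ _ h => nonempty_planeModel' K F h)

end Fermat.Agent.S27
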