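import Mathlib
import Fermat.Agent.S27.Red.InstCore
import Fermat.Agent.S27.Red.InstDatum
import Fermat.Agent.S27.Red.UpperFinal
import Fermat.Agent.S27.Model.Plane
import Fermat.Agent.S27.Lift.Interface
import Fermat.Agent.S27.Lift.Desc3
import Fermat.Agent.S27.Lift.TransBasis

set_option autoImplicit false
set_option linter.style.haveILetI false
set_option synthInstance.maxHeartbeats 400000
set_option maxHeartbeats 1600000

/-!
# S27, CONSTRUCTION (helper75): `construction : ConstructionStatement`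
-/

noncomputable section

namespace Fermat.Agent.S27

open Polynomial Fermat.Agent.S28 Fermat.Agent.GaussVal ModularCurve IntermediateField
  AlgebraicCurve Fermat.Agent.RR Fermat.Agent.Deuring Fermat.Agent.FF

universe u v

/-- **(CONSTRUCTION)**. -/
theorem construction : ConstructionStatement.{u, v} := by
  intro K F _ _ _ _ _ hRR ℓ hℓ
  obtain ⟨M, -⟩ := nonempty_planeModel hRR
  obtain ⟨S, A, hac, hS, hT, hI, -, hD⟩ := exists_goodValuation K F hRR M ℓ hℓ
  haveI := hac
  obtain ⟨D⟩ := nonempty_redDatum M A hI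
  obtain ⟨-, -, hcount⟩ := hD D
  haveI : CharZero (tbOmega K (genusFF K F)) := tbOmega_charZero K _
  have hgΩ : genusFF (tbOmega K (genusFF K F)) ↥(D.FΩ (tbOmega K (genusFF K F))) = genusFF K F :=
    (D.bcSetup (tbOmega K (genusFF K F)) hRR).genusFF_bc_eq
  refine ⟨tbOmega K (genusFF K F), inferInstance, inferInstance, inferInstance,
    ↥(D.FΩ (tbOmega K (genusFF K F))), inferInstance, inferInstance,
    IsLocalRing.ResidueField ↥A, inferInstance, hac, ↥D.Fk, inferInstance, inferInstance,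
    D.bcSetup (tbOmega K (genusFF K F)) hRR, M.x, M.y, A, M.x_trans, ?_, hcount, ?_, ?_⟩
  · rw [hgΩ]
    exact ⟨tbBasis K _, tbBasis_isTranscendenceBasis K _⟩
  · intro j
    obtain ⟨hfin, -⟩ := torsion_finite_and_card_le (tbOmega K (genusFF K F))
      ↥(D.FΩ (tbOmega K (genusFF K F))) (D.isRRField_FΩ (tbOmega K (genusFF K F))) ℓ hℓ j
    exact ⟨hfin, desc3 (D.bcSetup (tbOmega K (genusFF K F)) hRR) (ℓ ^ j) (pow_pos hℓ.pos j) hfin⟩
  · intro AΩ h
    letI := resAlgebra h
    haveI : IsAlgClosed (IsLocalRing.ResidueField ↥AΩ) :=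
      Fermat.Agent.FrobTrace.isAlgClosed_residueField AΩ
    refine ⟨IsLocalRing.ResidueField ↥AΩ, inferInstance, inferInstance, inferInstance,
      ↥(D.datumΩ (tbOmega K (genusFF K F)) AΩ h).Fk, inferInstance, inferInstance,
      D.liftCore (tbOmega K (genusFF K F)) AΩ (D.datumΩ (tbOmega K (genusFF K F)) AΩ h)
        (D.datumΩ_xbarS (tbOmega K (genusFF K F)) AΩ h)
        (D.datumΩ_ybarS (tbOmega K (genusFF K F)) AΩ h) h rfl hRR S hS hT,
      rfl, rfl, rfl, rfl, M.gen, ?_⟩
    intro b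
    obtain ⟨a, rfl⟩ := IsLocalRing.residue_surjective b
    exact ⟨a.1, (resAlg_mem h).mpr a.2, resAlgHom_residue' h a.1 _⟩

end Fermat.Agent.S27
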