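/-
S27, CONSTRUCTION (architect helper75), leaf BR-BC part 2 (helper74): the BRANCH DATA of a
reduction model of the constant extension `FΩ`, from a branch set `S ⊆ K` of `F`.

* `BCSetup.fibreCard_bc` : `fibreCard Ω (φ x) c = [F : K(x)]` outside the image of `S`;
* `BCSetup.exists_branchData_bc` : for a reduction model `M` of `FΩ` with base parameter `φ x` in
  whose valuation ring the images of `branchUnits S` are units: a `S27GR.BranchData M n` with
  the extra hypothesis of `S27GR.genusFF_eq_of_branchData`.  The set `S` is an explicit argument,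
  so that the valuation ring of `K` can be chosen before the reduction model exists.
-/
import Mathlib
import Fermat.Agent.S27.Red.BranchBC
import Fermat.Agent.S27.Red.Branch

set_option autoImplicit false
set_option linter.style.haveILetI false

noncomputable section

open AlgebraicCurve Fermat.Agent.RR Fermat.Agent.RRHur IntermediateField

namespace Fermat.Agent.S27

universe uK uF uΩ uFΩ

variable {K : Type uK} {F : Type uF} {Ω : Type uΩ} {FΩ : Type uFΩ}
  [Field K] [Field F] [Field Ω] [Field FΩ] [Algebra K F] [Algebra K Ω] [Algebra Ω FΩ]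

open Classical in
/-- the branch units of the image of `S` are the images of the branch units of `S`. -/
theorem brbc_mem_branchUnits_image {S : Finset K} {t : Ω}
    (ht : t ∈ branchUnits (S.image (algebraMap K Ω))) :
    ∃ a ∈ branchUnits S, algebraMap K Ω a = t := by
  classical
  have ht0 := ne_zero_of_mem_branchUnits ht
  rw [branchUnits, Finset.mem_erase, Finset.mem_union] at ht
  rcases ht.2 with h | h
  · rw [Finset.mem_image] at h
    obtain ⟨a, ha, rfl⟩ := h
    refine ⟨a, mem_branchUnits_of_mem ha ?_, rfl⟩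
    rintro rfl
    exact ht0 (map_zero _)
  · rw [Finset.mem_image] at h
    obtain ⟨⟨c, c'⟩, hcc, rfl⟩ := h
    rw [Finset.mem_product, Finset.mem_image, Finset.mem_image] at hcc
    obtain ⟨⟨a, ha, rfl⟩, ⟨a', ha', rfl⟩⟩ := hcc
    refine ⟨a - a', sub_mem_branchUnits ha ha' ?_, map_sub _ _ _⟩
    rintro rfl
    exact ht0 (sub_self _)

namespace BCSetup

variable (B : BCSetup K F Ω FΩ)

/-- `fibreCard` form of `unramified_bc`. -/
theorem fibreCard_bc [IsAlgClosed K] [IsAlgClosed Ω] {x : F}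
    (hx : Transcendental K x) [FiniteDimensional ↥K⟮x⟯ F]
    [Algebra.IsSeparable ↥Ω⟮B.φ x⟯ FΩ] (S : Finset K)
    (hS : ∀ c : K, c ∉ S →
      Nat.card {v : Place K F // 0 < v.ord (x - algebraMap K F c)} = Module.finrank ↥K⟮x⟯ F)
    (c : Ω) (hc : ∀ a ∈ S, algebraMap K Ω a ≠ c) :
    Fermat.Agent.S27GR.fibreCard Ω (B.φ x) c = Module.finrank ↥K⟮x⟯ F := by
  haveI := B.finiteDimensional_bc x
  rw [Fermat.Agent.S27GR.fibreCard_eq_card_zeros (B.transcendental_φ hx) c]
  exact B.unramified_bc hx S hS c hc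

variable {k : Type*} {Fk : Type*} [Field k] [Field Fk] [Algebra k Fk]

/-- **branch data of a reduction model of the constant extension**. -/
theorem exists_branchData_bc [IsAlgClosed K] [IsAlgClosed Ω] {x : F}
    (hx : Transcendental K x) [FiniteDimensional ↥K⟮x⟯ F]
    [Algebra.IsSeparable ↥Ω⟮B.φ x⟯ FΩ] (S : Finset K)
    (hS : ∀ c : K, c ∉ S →
      Nat.card {v : Place K F // 0 < v.ord (x - algebraMap K F c)} = Module.finrank ↥K⟮x⟯ F)
    (M : Fermat.Agent.S27GR.RedModel Ω k FΩ Fk) (hMx : M.x = B.φ x)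
    (hT : ∀ t ∈ branchUnits S, algebraMap K Ω t ∈ M.A ∧ (algebraMap K Ω t)⁻¹ ∈ M.A) :
    ∃ BD : Fermat.Agent.S27GR.BranchData M (Module.finrank ↥K⟮x⟯ F),
      (∀ c : Ω, c ∈ BD.S ↔ ∃ a ∈ S, algebraMap K Ω a = c) ∧
        ∀ c ∈ BD.S, c ≠ 0 → c⁻¹ ∈ M.A := by
  classical
  have hunr : ∀ c : Ω, c ∉ S.image (algebraMap K Ω) →
      Fermat.Agent.S27GR.fibreCard Ω M.x c = Module.finrank ↥K⟮x⟯ F := by
    intro c hc
    rw [hMx]
    refine B.fibreCard_bc hx S hS c fun a ha hac => hc ?_
    rw [Finset.mem_image]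
    exact ⟨a, ha, hac⟩
  have hT' : ∀ t ∈ branchUnits (S.image (algebraMap K Ω)), t ∈ M.A ∧ t⁻¹ ∈ M.A := by
    intro t ht
    obtain ⟨a, ha, rfl⟩ := brbc_mem_branchUnits_image ht
    exact hT a ha
  refine ⟨branchDataOf M _ _ hunr hT', fun c => ?_, branchDataOf_inv_mem M _ _ hunr hT'⟩
  rw [branchDataOf_S, Finset.mem_image]

/-- the same in characteristic `0`, with the branch set of `x` chosen inside. -/
theorem exists_branchSet_bc [IsAlgClosed K] [IsAlgClosed Ω] [CharZero K] {x : F}
    (hx : Transcendental K x) [FiniteDimensional ↥K⟮x⟯ F] :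
    ∃ S : Finset K,
      (∀ c : K, c ∉ S →
        Nat.card {v : Place K F // 0 < v.ord (x - algebraMap K F c)} = Module.finrank ↥K⟮x⟯ F) ∧
      (∀ c : Ω, (∀ a ∈ S, algebraMap K Ω a ≠ c) →
        Nat.card {w : Place Ω FΩ // 0 < w.ord (B.φ x - algebraMap Ω FΩ c)} =
          Module.finrank ↥K⟮x⟯ F) ∧
      (∀ c : Ω, (∀ a ∈ S, algebraMap K Ω a ≠ c) →
        Fermat.Agent.S27GR.fibreCard Ω (B.φ x) c = Module.finrank ↥K⟮x⟯ F) := by
  haveI := brbc_isSeparable (K := K) x
  haveI := B.isSeparable_bc x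
  obtain ⟨S, hS⟩ := exists_finset_unramified B.hF hx
  exact ⟨S, hS, fun c hc => B.unramified_bc hx S hS c hc,
    fun c hc => B.fibreCard_bc hx S hS c hc⟩

end BCSetup

end Fermat.Agent.S27
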