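/-
S27, block C, seat C-IRR (helper63): irreducibility of a plane model with a single slope at
infinity.

`g = Y^N + a_1(X) Y^(N-1) + ... + a_N(X)` over a field `k` with `deg a_i ≤ i` for `0 < i < N` and
`deg a_N = N + 1` is irreducible in `k[X][Y]` and in `k(X)[Y]`
(weights `wt X = N`, `wt Y = N + 1`: the top form is `Y^N + c X^(N+1)`, and `gcd (N, N+1) = 1`).
This is the shape of the reduction of the model of block A (`x` with pole divisor `N P0`,
`y` with pole divisor `(N+1) P0`).
-/
import Mathlib

set_option autoImplicit false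

noncomputable section

open Polynomial

namespace Fermat.Agent.S27

variable {k : Type*} [Field k]

/-- weight of the `i`-th coefficient of `p ∈ k[X][Y]` for `wt X = N`, `wt Y = N + 1`. -/
def irrWt (N : ℕ) (p : k[X][X]) (i : ℕ) : ℕ := N * (p.coeff i).natDegree + (N + 1) * i

/-- a nonzero polynomial has an index of maximal weight, maximal among those. -/
theorem irr_exists_top (N : ℕ) {a : k[X][X]} (ha : a ≠ 0) :
    ∃ i₀, a.coeff i₀ ≠ 0 ∧ (∀ i, a.coeff i ≠ 0 → irrWt N a i ≤ irrWt N a i₀) ∧
      ∀ i, a.coeff i ≠ 0 → i₀ < i → irrWt N a i < irrWt N a i₀ := by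
  classical
  have hne : a.support.Nonempty := by
    rwa [Finset.nonempty_iff_ne_empty, ne_eq, support_eq_empty]
  obtain ⟨i₁, hi₁, hmax⟩ := Finset.exists_max_image a.support (irrWt N a) hne
  set A := a.support.filter (fun i => irrWt N a i = irrWt N a i₁) with hA
  have hAne : A.Nonempty := ⟨i₁, by rw [hA, Finset.mem_filter]; exact ⟨hi₁, rfl⟩⟩
  have hi₀ := Finset.max'_mem A hAne
  set i₀ := A.max' hAne with hi₀def
  rw [hA, Finset.mem_filter] at hi₀
  refine ⟨i₀, mem_support_iff.mp hi₀.1, fun i hi => ?_, fun i hi hlt => ?_⟩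
  · rw [hi₀.2]
    exact hmax i (mem_support_iff.mpr hi)
  · have h1 := hmax i (mem_support_iff.mpr hi)
    rw [hi₀.2]
    refine lt_of_le_of_ne h1 fun heq => ?_
    have hiA : i ∈ A := by
      rw [hA, Finset.mem_filter]
      exact ⟨mem_support_iff.mpr hi, heq⟩
    have := Finset.le_max' A i hiA
    omega

/-- **no cancellation of top forms**: a weight bound for a product bounds the sum of the
weights of the factors. -/
theorem irr_weight_mul (N : ℕ) (hN : 0 < N) {a b : k[X][X]} (ha : a ≠ 0) (hb : b ≠ 0) (W : ℕ)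
    (hW : ∀ n, (a * b).coeff n ≠ 0 → irrWt N (a * b) n ≤ W) :
    ∀ i j, a.coeff i ≠ 0 → b.coeff j ≠ 0 → irrWt N a i + irrWt N b j ≤ W := by
  classical
  obtain ⟨i₀, hi₀, hia, hia'⟩ := irr_exists_top N ha
  obtain ⟨j₀, hj₀, hjb, hjb'⟩ := irr_exists_top N hb
  set d₀ := (a.coeff i₀).natDegree + (b.coeff j₀).natDegree with hd₀
  have hcoeff : ((a * b).coeff (i₀ + j₀)).coeff d₀ =
      (a.coeff i₀).leadingCoeff * (b.coeff j₀).leadingCoeff := by
    rw [coeff_mul, finsetSum_coeff]
    rw [Finset.sum_eq_single (i₀, j₀)]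
    · exact coeff_mul_degree_add_degree _ _
    · rintro ⟨i, j⟩ hij hne
      rw [Finset.HasAntidiagonal.mem_antidiagonal] at hij
      simp only at hij
      by_cases hai : a.coeff i = 0
      · simp [hai]
      by_cases hbj : b.coeff j = 0
      · simp [hbj]
      apply coeff_eq_zero_of_natDegree_lt
      refine lt_of_le_of_lt natDegree_mul_le ?_
      have h1 := hia i hai
      have h2 := hjb j hbj
      have hne' : i ≠ i₀ ∨ j ≠ j₀ := by
        by_contra hcon
        push Not at hcon
        exact hne (by rw [hcon.1, hcon.2])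
      have hstrict : irrWt N a i + irrWt N b j < irrWt N a i₀ + irrWt N b j₀ := by
        rcases lt_trichotomy i i₀ with hlt | heq | hgt
        · have hj : j₀ < j := by omega
          have := hjb' j hbj hj
          omega
        · have hj : j = j₀ := by omega
          rcases hne' with h | h
          · exact absurd heq h
          · exact absurd hj h
        · have := hia' i hai hgt
          omega
      unfold irrWt at hstrict
      have h3 : N * ((a.coeff i).natDegree + (b.coeff j).natDegree) < N * d₀ := by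
        rw [hd₀]
        have e1 : (N + 1) * i + (N + 1) * j = (N + 1) * i₀ + (N + 1) * j₀ := by
          rw [← mul_add, ← mul_add, hij]
        rw [mul_add, mul_add]
        omega
      exact lt_of_mul_lt_mul_left h3 (Nat.zero_le N)
    · intro hnot
      exact absurd (Finset.HasAntidiagonal.mem_antidiagonal.mpr
        (rfl : ((i₀, j₀) : ℕ × ℕ).1 + ((i₀, j₀) : ℕ × ℕ).2 = i₀ + j₀)) hnot
  have hne0 : ((a * b).coeff (i₀ + j₀)).coeff d₀ ≠ 0 := by
    rw [hcoeff]
    exact mul_ne_zero (leadingCoeff_ne_zero.mpr hi₀) (leadingCoeff_ne_zero.mpr hj₀)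
  have hc0 : (a * b).coeff (i₀ + j₀) ≠ 0 := by
    intro h0
    rw [h0] at hne0
    simp at hne0
  have hdeg : d₀ ≤ ((a * b).coeff (i₀ + j₀)).natDegree := le_natDegree_of_ne_zero hne0
  have hW' := hW (i₀ + j₀) hc0
  have htop : irrWt N a i₀ + irrWt N b j₀ ≤ W := by
    refine le_trans ?_ hW'
    unfold irrWt
    have h4 : N * d₀ ≤ N * ((a * b).coeff (i₀ + j₀)).natDegree := Nat.mul_le_mul_left N hdeg
    rw [hd₀, mul_add] at h4
    rw [mul_add (N + 1) i₀ j₀]
    omega
  intro i j hi hj
  have h1 := hia i hi
  have h2 := hjb j hj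
  omega

/-- **C-IRR**: irreducibility over `k[X]`. -/
theorem irreducible_of_single_slope {N : ℕ} (hN : 0 < N) (g : k[X][X]) (hg : g.Monic)
    (hdeg : g.natDegree = N) (h0 : (g.coeff 0).natDegree = N + 1)
    (hmid : ∀ i, 0 < i → i < N → (g.coeff (N - i)).natDegree ≤ i) : Irreducible g := by
  rw [hg.irreducible_iff_natDegree]
  refine ⟨fun h1 => ?_, fun a b ha hb hab => ?_⟩
  · rw [h1, natDegree_one] at hdeg
    omega
  by_contra hcon
  push Not at hcon
  obtain ⟨hr, hs⟩ := hcon
  have hrs : a.natDegree + b.natDegree = N := by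
    rw [← ha.natDegree_mul hb, hab, hdeg]
  -- the weight bound for `g`
  have hW : ∀ n, (a * b).coeff n ≠ 0 → irrWt N (a * b) n ≤ N * (N + 1) := by
    rw [hab]
    intro n hn
    unfold irrWt
    rcases Nat.eq_zero_or_pos n with rfl | hnpos
    · rw [h0]; omega
    rcases lt_trichotomy n N with hlt | heq | hgt
    · have h1 := hmid (N - n) (by omega) (by omega)
      have e : N - (N - n) = n := by omega
      rw [e] at h1
      have h2 : N * (g.coeff n).natDegree ≤ N * (N - n) := Nat.mul_le_mul_left N h1
      have h3 : N * (N - n) + (N + 1) * n = N * (N + 1) - (N - n) := by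
        have e1 : N * (N + 1) = N * (N - n) + N * n + N := by
          have : N * N = N * (N - n) + N * n := by
            rw [← mul_add]
            congr 1
            omega
          rw [mul_add, mul_one, this]
        have e2 : (N + 1) * n = N * n + n := by ring
        omega
      omega
    · subst heq
      have h1 : g.coeff n = 1 := by
        have := hg.coeff_natDegree
        rwa [hdeg] at this
      rw [h1, natDegree_one]
      have : (n + 1) * n = n * (n + 1) := by ring
      omega
    · exact absurd (coeff_eq_zero_of_natDegree_lt (by omega)) hn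
  have ha0 : a ≠ 0 := ha.ne_zero
  have hb0 : b ≠ 0 := hb.ne_zero
  have hkey := irr_weight_mul N hN ha0 hb0 _ hW
  -- constant terms
  have hg0 : g.coeff 0 ≠ 0 := by
    intro h
    rw [h, natDegree_zero] at h0
    omega
  have hc0 : g.coeff 0 = a.coeff 0 * b.coeff 0 := by
    rw [← hab, mul_coeff_zero]
  have hac : a.coeff 0 ≠ 0 := fun h => hg0 (by rw [hc0, h, zero_mul])
  have hbc : b.coeff 0 ≠ 0 := fun h => hg0 (by rw [hc0, h, mul_zero])
  have hdc : (a.coeff 0).natDegree + (b.coeff 0).natDegree = N + 1 := by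
    rw [← natDegree_mul hac hbc, ← hc0, h0]
  -- leading terms
  have har : a.coeff a.natDegree = 1 := ha.coeff_natDegree
  have hbs : b.coeff b.natDegree = 1 := hb.coeff_natDegree
  have h1 := hkey a.natDegree 0 (by rw [har]; exact one_ne_zero) hbc
  have h2 := hkey 0 b.natDegree hac (by rw [hbs]; exact one_ne_zero)
  unfold irrWt at h1 h2
  rw [har, natDegree_one] at h1
  rw [hbs, natDegree_one] at h2
  set r := a.natDegree with hrdef
  set s := b.natDegree with hsdef
  set m := (a.coeff 0).natDegree with hmdef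
  set m' := (b.coeff 0).natDegree with hm'def
  simp only [mul_zero, zero_add, add_zero] at h1 h2
  -- `N m ≤ (N+1) r`, `N m' ≤ (N+1) s`, `m + m' = N + 1`, `r + s = N`
  have e1 : N * (N + 1) = (N + 1) * r + (N + 1) * s := by
    rw [← mul_add, hrs, mul_comm]
  have e2 : N * (N + 1) = N * m + N * m' := by
    rw [← mul_add, hdc]
  have h3 : N * m = (N + 1) * r := by omega
  have hdvd : N ∣ (N + 1) * r := ⟨m, h3.symm⟩
  have hcop : Nat.Coprime N (N + 1) := by simp
  have hdvd' : N ∣ r := hcop.dvd_of_dvd_mul_left hdvd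
  have hle := Nat.le_of_dvd (Nat.pos_of_ne_zero hr) hdvd'
  have hspos : 0 < s := Nat.pos_of_ne_zero hs
  omega

/-- **C-IRR**: irreducibility over the field of rational functions. -/
theorem irreducible_map_of_single_slope {N : ℕ} (hN : 0 < N) (g : k[X][X]) (hg : g.Monic)
    (hdeg : g.natDegree = N) (h0 : (g.coeff 0).natDegree = N + 1)
    (hmid : ∀ i, 0 < i → i < N → (g.coeff (N - i)).natDegree ≤ i) :
    Irreducible (g.map (algebraMap k[X] (RatFunc k))) :=
  (hg.irreducible_iff_irreducible_map_fraction_map (K := RatFunc k)).mp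
    (irreducible_of_single_slope hN g hg hdeg h0 hmid)

end Fermat.Agent.S27
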