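/-
S27, block C, seat C-SP (helper5): SPECIALISATION is injective on prime-to-residue-characteristic
torsion, hence `#Pic⁰(F)[m] ≤ #Pic⁰(F_k)[m]`.  Abstract form, for a constant reduction
`S : Deuring.ValSetup K F k Fk` with the lattice property, genus equality and a base function.
(Deuring's reduction map + the KEY LEMMA of S18.)
-/
import Mathlib
import Fermat.Agent.Lib.FF.RedCore
import Fermat.Agent.S18.KeyGlue
import Fermat.Agent.S18.BaseFnBuild
import Fermat.Agent.S18.NSBuild

set_option autoImplicit false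
set_option linter.style.haveILetI false

noncomputable section

open AlgebraicCurve Fermat.Agent.RR Fermat.Agent.Deuring Fermat.Agent.FF

namespace Fermat.Agent.S27

variable {K F k Fk : Type*} [Field K] [Field F] [Algebra K F]
  [Field k] [Field Fk] [Algebra k Fk]

/-- the reduction on `Pic⁰` kills no nonzero `m`-torsion class, `m` a unit of `A`. -/
theorem sp_eq_zero_of_torsion [IsAlgClosed k] (S : ValSetup K F k Fk)
    {r : Place K F → Place k Fk} (hr : IsReduction S r)
    (hg : genusFF K F = genusFF k Fk)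
    (x : F) (hx : x ∈ S.Ov) (hy : Transcendental k (S.red x))
    [FiniteDimensional (IntermediateField.adjoin k {S.red x}) Fk]
    [Algebra.IsSeparable (IntermediateField.adjoin k {S.red x}) Fk]
    (hle : Divisor.degree (poleDiv S.hF x) ≤ Divisor.degree (poleDiv S.hFk (S.red x)))
    (m : ℕ) (hm0 : (m : K) ≠ 0) (hmA : ((m : K))⁻¹ ∈ S.A)
    (z : Pic0 K F) (hz : (m : ℤ) • z = 0) (hred : hr.redPic0 z = 0) : z = 0 := by
  haveI : Infinite k := IsAlgClosed.instInfinite
  obtain ⟨B⟩ := Fermat.Agent.S18Key.nonempty_baseFn S r hr.push hr.gr hr.deg x hx hy hle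
  obtain ⟨N⟩ := Fermat.Agent.S18Key.BaseFn.nonempty_nsData B S.hFk S.res_surj (genusFF K F) hg.le
  obtain ⟨D, rfl⟩ := Pic0.mk_surjective z
  have hdeg : Divisor.degree (D : Divisor K F) = 0 := Divisor.mem_degZero.mp D.2
  -- `m D` is principal
  have hmD : (m • (D : Divisor K F)) ∈ Divisor.principal (K := K) (F := F) := by
    have h1 : Pic0.mk ((m : ℤ) • D) = 0 := hz
    have h2 := (QuotientAddGroup.eq_zero_iff _).mp h1
    rw [AddSubgroup.mem_addSubgroupOf] at h2
    simpa using h2
  -- the reduction of `D` is principal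
  have hredD : Finsupp.mapDomain r (D : Divisor K F) ∈ Divisor.principal (K := k) (F := Fk) := by
    rw [IsReduction.redPic0_mk] at hred
    have h2 := (QuotientAddGroup.eq_zero_iff _).mp hred
    rw [AddSubgroup.mem_addSubgroupOf] at h2
    exact h2
  have hD := Fermat.Agent.S18Key.key_lemma' (Fermat.Agent.S18Key.RedSetup.ofVal S r hr.push)
    (genusFF K F) (Fermat.Agent.S18Key.riemann_of_isRRField S.hF _ le_rfl) N m hm0 hmA
    (D : Divisor K F) hdeg hmD hredD
  refine (QuotientAddGroup.eq_zero_iff _).mpr ?_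
  rw [AddSubgroup.mem_addSubgroupOf]
  exact hD

/-- **C-SP, abstract form**: `#Pic⁰(F)[m] ≤ #Pic⁰(F_k)[m]` for `m` a unit of `A`. -/
theorem card_torsion_le_of_valSetup [IsAlgClosed k] (S : ValSetup K F k Fk) (hL : HasLattice S)
    (hg : genusFF K F = genusFF k Fk)
    (x : F) (hx : x ∈ S.Ov) (hy : Transcendental k (S.red x))
    [FiniteDimensional (IntermediateField.adjoin k {S.red x}) Fk]
    [Algebra.IsSeparable (IntermediateField.adjoin k {S.red x}) Fk]
    (hle : Divisor.degree (poleDiv S.hF x) ≤ Divisor.degree (poleDiv S.hFk (S.red x)))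
    (m : ℕ) (hm0 : (m : K) ≠ 0) (hmA : ((m : K))⁻¹ ∈ S.A)
    [Finite (Pic0.torsion k Fk m)] :
    Nat.card (Pic0.torsion K F m) ≤ Nat.card (Pic0.torsion k Fk m) := by
  haveI : Infinite k := IsAlgClosed.instInfinite
  obtain ⟨r, hr⟩ := exists_isReduction S hL hg
  -- the restriction of the reduction to the `m`-torsion
  let φ : Pic0.torsion K F m → Pic0.torsion k Fk m := fun z =>
    ⟨hr.redPic0 z.1, by
      rw [Pic0.mem_torsion, ← map_zsmul, Pic0.mem_torsion.mp z.2, map_zero]⟩
  refine Nat.card_le_card_of_injective φ ?_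
  intro z₁ z₂ h12
  have h0 : hr.redPic0 (z₁.1 - z₂.1) = 0 := by
    rw [map_sub, sub_eq_zero]
    exact congrArg Subtype.val h12
  have hz : (m : ℤ) • (z₁.1 - z₂.1) = 0 := by
    rw [zsmul_sub, Pic0.mem_torsion.mp z₁.2, Pic0.mem_torsion.mp z₂.2, sub_zero]
  have := sp_eq_zero_of_torsion S hr hg x hx hy hle m hm0 hmA _ hz h0
  exact Subtype.ext (sub_eq_zero.mp this)

end Fermat.Agent.S27
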